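/-
S18lib / RRgen / Places (helper9)

The places of `F / K` (Prelude `AlgebraicCurve.Place`) in terms of the two charts:
`B` = integral closure of `K[X]`, `B∞` = integral closure of `A∞`.
-/
import Mathlib
import Fermat.Agent.ProgramR.FunctionField.AlgClosed
import Fermat.Agent.ProgramR.CuspLocal.AinfValuation
import Fermat.Agent.ProgramR.RR.DiscInf

set_option autoImplicit false
set_option linter.unusedSectionVars false

noncomputable section

namespace Fermat.Agent.S18lib.RRgen

open Module Polynomial IsDedekindDomain AlgebraicCurve WithZero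
open Fermat.Agent.ProgramR Fermat.Agent.ProgramR.RR Fermat.Agent.ProgramR.Alg

section

variable (K : Type*) [Field K]
  (F : Type*) [Field F] [Algebra (RatFunc K) F] [Algebra K F] [IsScalarTower K (RatFunc K) F]
  (B : Type*) [CommRing B] [IsDedekindDomain B] [Algebra K[X] B] [Module.Finite K[X] B]
  [Algebra B F] [IsFractionRing B F] [Algebra K[X] F]
  [IsScalarTower K[X] (RatFunc K) F] [IsScalarTower K[X] B F]
  [Algebra K B] [IsScalarTower K B F]
  (Binf : Type*) [CommRing Binf] [IsDedekindDomain Binf] [Algebra (Ainf K) Binf]
  [Module.Finite (Ainf K) Binf] [IsTorsionFree (Ainf K) Binf] [Algebra Binf F]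
  [IsFractionRing Binf F] [Algebra (Ainf K) F] [IsScalarTower (Ainf K) (RatFunc K) F]
  [IsScalarTower (Ainf K) Binf F]
  [Algebra K Binf] [IsScalarTower K Binf F]

/-- the coordinate function -/
def xF : F := algebraMap (RatFunc K) F RatFunc.X

/-- the place of a prime of the finite chart -/
def placeFin (P : HeightOneSpectrum B) : Place K F := Place.ofHeightOneSpectrum (K := K) P

/-- the place of a prime of the chart at infinity -/
def placeInf (P : HeightOneSpectrum Binf) : Place K F := Place.ofHeightOneSpectrum (K := K) P

theorem placeFin_injective : Function.Injective (placeFin K F B) :=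
  FF.ofHeightOneSpectrum_injective (K := K) (F := F)

theorem placeInf_injective : Function.Injective (placeInf K F Binf) :=
  FF.ofHeightOneSpectrum_injective (K := K) (F := F)

theorem ord_placeFin (P : HeightOneSpectrum B) (f : F) :
    (placeFin K F B P).ord f = -(log (P.valuation F f)) :=
  FF.ord_ofHeightOneSpectrum (K := K) P f

theorem ord_placeInf (P : HeightOneSpectrum Binf) (f : F) :
    (placeInf K F Binf P).ord f = -(log (P.valuation F f)) :=
  FF.ord_ofHeightOneSpectrum (K := K) P f

theorem algebraMap_poly_C (c : K) : algebraMap K[X] F (C c) = algebraMap K F c := by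
  rw [IsScalarTower.algebraMap_apply K[X] (RatFunc K) F, RatFunc.algebraMap_C,
    IsScalarTower.algebraMap_apply K (RatFunc K) F]
  rfl

theorem algebraMap_poly_X : algebraMap K[X] F X = xF K F := by
  rw [IsScalarTower.algebraMap_apply K[X] (RatFunc K) F, RatFunc.algebraMap_X]
  rfl

theorem algebraMap_poly_mem (v : Place K F) (hx : xF K F ∈ v.toValuationSubring) (p : K[X]) :
    algebraMap K[X] F p ∈ v.toValuationSubring := by
  induction p using Polynomial.induction_on' with
  | add p q hp hq => rw [map_add]; exact v.toValuationSubring.add_mem _ _ hp hq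
  | monomial n a =>
    rw [← C_mul_X_pow_eq_monomial, map_mul, map_pow, algebraMap_poly_C, algebraMap_poly_X]
    exact v.toValuationSubring.mul_mem _ _ (v.algebraMap_mem' a)
      (v.toValuationSubring.pow_mem hx n)

theorem xF_mem_placeFin (P : HeightOneSpectrum B) :
    xF K F ∈ (placeFin K F B P).toValuationSubring := by
  have := FF.algebraMap_mem_ofHeightOneSpectrum (K := K) (F := F) P (algebraMap K[X] B X)
  rwa [← IsScalarTower.algebraMap_apply K[X] B F, algebraMap_poly_X] at this

/-- the places of the finite chart are those at which `x` is regular. -/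
theorem range_placeFin :
    Set.range (placeFin K F B) = {v | xF K F ∈ v.toValuationSubring} := by
  ext v
  constructor
  · rintro ⟨P, rfl⟩
    exact xF_mem_placeFin K F B P
  · intro hx
    have hB : ∀ r : B, algebraMap B F r ∈ v.toValuationSubring := by
      intro r
      have hint : IsIntegral K[X] (algebraMap B F r) :=
        (Algebra.IsIntegral.isIntegral (R := K[X]) r).map
          (IsScalarTower.toAlgHom K[X] B F)
      exact FF.mem_of_isIntegral_of_le v (algebraMap_poly_mem K F v hx) hint
    have := (FF.range_ofHeightOneSpectrum (K := K) (F := F) (R := B)).symm ▸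
      (show v ∈ {v : Place K F | ∀ r : B, algebraMap B F r ∈ v.toValuationSubring} from hB)
    exact this

theorem xinv_mem (P : HeightOneSpectrum Binf) :
    algebraMap (Ainf K) Binf XinvAinf ∈ P.asIdeal := by
  have hp0 : P.asIdeal.under (Ainf K) ≠ ⊥ := mt Ideal.eq_bot_of_comap_eq_bot P.ne_bot
  have hmax : (P.asIdeal.under (Ainf K)).IsMaximal := Ideal.IsPrime.isMaximal inferInstance hp0
  have h1 : P.asIdeal.under (Ainf K) = Ideal.span {XinvAinf} := by
    rw [← maximalIdeal_Ainf_eq]
    exact IsLocalRing.eq_maximalIdeal hmax
  have h2 : (XinvAinf : Ainf K) ∈ P.asIdeal.under (Ainf K) := by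
    rw [h1]; exact Ideal.mem_span_singleton_self _
  exact h2

theorem xF_inv_eq :
    (xF K F)⁻¹ = algebraMap Binf F (algebraMap (Ainf K) Binf XinvAinf) := by
  rw [← IsScalarTower.algebraMap_apply (Ainf K) Binf F,
    IsScalarTower.algebraMap_apply (Ainf K) (RatFunc K) F, xF, ← map_inv₀]
  rfl

theorem xF_ne_zero : xF K F ≠ 0 := by
  rw [xF, Ne, map_eq_zero_iff _ (algebraMap (RatFunc K) F).injective]
  exact RatFunc.X_ne_zero

theorem xF_not_mem_placeInf (P : HeightOneSpectrum Binf) :
    xF K F ∉ (placeInf K F Binf P).toValuationSubring := by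
  intro hx
  have h1 : P.valuation F (xF K F) ≤ 1 := by
    have : xF K F ∈ (P.valuation F).valuationSubring := hx
    rwa [Valuation.mem_valuationSubring_iff] at this
  have h2 : P.valuation F (xF K F)⁻¹ < 1 := by
    rw [xF_inv_eq K F Binf, HeightOneSpectrum.valuation_lt_one_iff_mem]
    exact xinv_mem K Binf P
  rw [map_inv₀] at h2
  have h0 : P.valuation F (xF K F) ≠ 0 := (Valuation.ne_zero_iff _).mpr (xF_ne_zero K F)
  have h3 : 1 < P.valuation F (xF K F) := by
    rwa [inv_lt_one₀ (zero_lt_iff.mpr h0)] at h2
  exact absurd h1 (not_le.mpr h3)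

/-- the places of the chart at infinity are the poles of `x`. -/
theorem range_placeInf :
    Set.range (placeInf K F Binf) = {v | xF K F ∉ v.toValuationSubring} := by
  ext v
  constructor
  · rintro ⟨P, rfl⟩
    exact xF_not_mem_placeInf K F Binf P
  · intro hx
    have hA : ∀ r : Ainf K, algebraMap (Ainf K) F r ∈ v.toValuationSubring := by
      intro r
      rw [IsScalarTower.algebraMap_apply (Ainf K) (RatFunc K) F]
      refine CuspLocal.algebraMap_mem_of_mem_Ainf v.toValuationSubring (fun c => ?_) hx r.2
      have : algebraMap (RatFunc K) F (RatFunc.C c) = algebraMap K F c := by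
        rw [IsScalarTower.algebraMap_apply K (RatFunc K) F]
        rfl
      rw [this]
      exact v.algebraMap_mem' c
    have hB : ∀ r : Binf, algebraMap Binf F r ∈ v.toValuationSubring := by
      intro r
      have hint : IsIntegral (Ainf K) (algebraMap Binf F r) :=
        (Algebra.IsIntegral.isIntegral (R := Ainf K) r).map
          (IsScalarTower.toAlgHom (Ainf K) Binf F)
      exact FF.mem_of_isIntegral_of_le v hA hint
    have := (FF.range_ofHeightOneSpectrum (K := K) (F := F) (R := Binf)).symm ▸
      (show v ∈ {v : Place K F | ∀ r : Binf, algebraMap Binf F r ∈ v.toValuationSubring} from hB)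
    exact this

/-- every place comes from exactly one of the two charts. -/
theorem exists_placeFin_or_placeInf (v : Place K F) :
    (∃ P, placeFin K F B P = v) ∨ (∃ P, placeInf K F Binf P = v) := by
  by_cases hx : xF K F ∈ v.toValuationSubring
  · left
    have : v ∈ Set.range (placeFin K F B) := by rw [range_placeFin]; exact hx
    exact this
  · right
    have : v ∈ Set.range (placeInf K F Binf) := by rw [range_placeInf]; exact hx
    exact this

theorem placeFin_ne_placeInf (P : HeightOneSpectrum B) (P' : HeightOneSpectrum Binf) :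
    placeFin K F B P ≠ placeInf K F Binf P' := by
  intro h
  apply xF_not_mem_placeInf K F Binf P'
  rw [← h]
  exact xF_mem_placeFin K F B P

end

end Fermat.Agent.S18lib.RRgen
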