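/-
S18lib / RRgen / FracIdeal (helper9)

Dedekind-domain generalities: membership in a fractional ideal in terms of the adic valuations
(`FractionalIdeal.count`).
-/
import Mathlib

set_option autoImplicit false

noncomputable section

namespace Fermat.Agent.S18lib.RRgen

open IsDedekindDomain FractionalIdeal nonZeroDivisors WithZero

section Count

variable {R : Type*} [CommRing R] [IsDedekindDomain R] {K : Type*} [Field K] [Algebra R K]
  [IsFractionRing R K]

/-- a nonzero fractional ideal all of whose exponents are nonnegative is integral. -/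
theorem le_one_of_count_nonneg {I : FractionalIdeal R⁰ K} (hI : I ≠ 0)
    (h : ∀ v : HeightOneSpectrum R, 0 ≤ count K v I) : I ≤ 1 := by
  rw [← finprod_heightOneSpectrum_factorization' K hI]
  refine finprod_induction (fun J : FractionalIdeal R⁰ K => J ≤ 1) le_rfl ?_ ?_
  · intro x y hx hy
    calc x * y ≤ 1 * 1 := mul_le_mul' hx hy
      _ = 1 := one_mul 1
  · intro v
    obtain ⟨n, hn⟩ := Int.eq_ofNat_of_zero_le (h v)
    rw [hn, zpow_natCast, ← coeIdeal_pow]
    exact coeIdeal_le_one

theorem le_iff_count_le {I J : FractionalIdeal R⁰ K} (hI : I ≠ 0) (hJ : J ≠ 0) :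
    I ≤ J ↔ ∀ v : HeightOneSpectrum R, count K v J ≤ count K v I := by
  refine ⟨fun h v => count_mono K v hI h, fun h => ?_⟩
  have hne : I * J⁻¹ ≠ 0 := mul_ne_zero hI (inv_ne_zero hJ)
  have h1 : I * J⁻¹ ≤ 1 := by
    refine le_one_of_count_nonneg hne fun v => ?_
    rw [count_mul K v hI (inv_ne_zero hJ), count_inv]
    have := h v
    omega
  calc I = I * J⁻¹ * J := by rw [mul_assoc, inv_mul_cancel₀ hJ, mul_one]
    _ ≤ 1 * J := mul_le_mul' h1 le_rfl
    _ = J := one_mul J

theorem count_spanSingleton (v : HeightOneSpectrum R) {x : K} (hx : x ≠ 0) :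
    count K v (spanSingleton R⁰ x) = -log (v.valuation K x) := by
  obtain ⟨n, d, hd, rfl⟩ := IsFractionRing.div_surjective (A := R) x
  have hd0 : d ≠ 0 := nonZeroDivisors.ne_zero hd
  have hn0 : n ≠ 0 := by
    rintro rfl
    simp at hx
  have hI : spanSingleton R⁰ (algebraMap R K n / algebraMap R K d) ≠ 0 := by
    rwa [Ne, spanSingleton_eq_zero_iff]
  have hrepr : spanSingleton R⁰ (algebraMap R K n / algebraMap R K d) =
      spanSingleton R⁰ ((algebraMap R K d)⁻¹) * ((Ideal.span {n} : Ideal R) : FractionalIdeal R⁰ K) := by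
    rw [coeIdeal_span_singleton, spanSingleton_mul_spanSingleton, div_eq_inv_mul]
  rw [count_well_defined K v hI hrepr, map_div₀, HeightOneSpectrum.valuation_of_algebraMap,
    HeightOneSpectrum.valuation_of_algebraMap,
    HeightOneSpectrum.intValuation_if_neg v hn0, HeightOneSpectrum.intValuation_if_neg v hd0,
    log_div (exp_ne_zero) (exp_ne_zero), log_exp, log_exp]
  ring

theorem mem_iff_valuation_le {I : FractionalIdeal R⁰ K} (hI : I ≠ 0) (x : K) :
    x ∈ I ↔ ∀ v : HeightOneSpectrum R, v.valuation K x ≤ exp (-(count K v I)) := by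
  rcases eq_or_ne x 0 with rfl | hx
  · refine ⟨fun _ v => ?_, fun _ => FractionalIdeal.zero_mem I⟩
    rw [map_zero]
    exact _root_.zero_le
  rw [← spanSingleton_le_iff_mem, le_iff_count_le (by rwa [Ne, spanSingleton_eq_zero_iff]) hI]
  refine forall_congr' fun v => ?_
  rw [count_spanSingleton v hx]
  have h0 : v.valuation K x ≠ 0 := (Valuation.ne_zero_iff _).mpr hx
  constructor
  · intro h
    rw [← exp_log h0, exp_le_exp]
    omega
  · intro h
    rw [← exp_log h0, exp_le_exp] at h
    omega

end Count

end Fermat.Agent.S18lib.RRgen
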