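/-
S18lib / RRgen / IdealOf (helper9)

The fractional ideal `∏ P^(-e P)` attached to a finitely supported family of exponents on the
primes of a Dedekind domain ("functions with poles of order at most `e P` at `P`").
-/
import Mathlib
import Fermat.Agent.S18lib.RRgen.FracIdeal

set_option autoImplicit false
set_option linter.unusedSectionVars false

noncomputable section

namespace Fermat.Agent.S18lib.RRgen

open IsDedekindDomain FractionalIdeal nonZeroDivisors WithZero

section

variable {R : Type*} [CommRing R] [IsDedekindDomain R] (F : Type*) [Field F] [Algebra R F]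
  [IsFractionRing R F]

/-- `∏ P^(-e P)` -/
def idealOf (e : HeightOneSpectrum R →₀ ℤ) : FractionalIdeal R⁰ F :=
  (-e).prod fun v n => (v.asIdeal : FractionalIdeal R⁰ F) ^ n

variable {F}

theorem asIdeal_coe_ne_zero (v : HeightOneSpectrum R) : (v.asIdeal : FractionalIdeal R⁰ F) ≠ 0 :=
  coeIdeal_ne_zero.mpr v.ne_bot

theorem idealOf_ne_zero (e : HeightOneSpectrum R →₀ ℤ) : idealOf F e ≠ 0 := by
  rw [idealOf, Finsupp.prod, Finset.prod_ne_zero_iff]
  intro v _
  exact zpow_ne_zero _ (asIdeal_coe_ne_zero v)

theorem count_idealOf (e : HeightOneSpectrum R →₀ ℤ) (v : HeightOneSpectrum R) :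
    count F v (idealOf F e) = -e v := by
  rw [idealOf, count_finsuppProd, Finsupp.neg_apply]

theorem mem_idealOf_iff (e : HeightOneSpectrum R →₀ ℤ) (x : F) :
    x ∈ idealOf F e ↔ ∀ v : HeightOneSpectrum R, v.valuation F x ≤ exp (e v) := by
  rw [mem_iff_valuation_le (idealOf_ne_zero e)]
  refine forall_congr' fun v => ?_
  rw [count_idealOf, neg_neg]

@[simp]
theorem idealOf_zero : idealOf F (0 : HeightOneSpectrum R →₀ ℤ) = 1 := by
  rw [idealOf, neg_zero, Finsupp.prod_zero_index]

theorem idealOf_add (e e' : HeightOneSpectrum R →₀ ℤ) :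
    idealOf F (e + e') = idealOf F e * idealOf F e' := by
  rw [idealOf, idealOf, idealOf, neg_add]
  exact Finsupp.prod_add_index' (fun v => zpow_zero _)
    (fun v m n => zpow_add₀ (asIdeal_coe_ne_zero v) m n)

theorem idealOf_single (v : HeightOneSpectrum R) (m : ℤ) :
    idealOf F (Finsupp.single v m) = (v.asIdeal : FractionalIdeal R⁰ F) ^ (-m) := by
  rw [idealOf, ← Finsupp.single_neg, Finsupp.prod_single_index (zpow_zero _)]

/-- the sum of the exponents -/
def sumHom (α : Type*) : (α →₀ ℤ) →+ ℤ := Finsupp.liftAddHom fun _ => AddMonoidHom.id ℤ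

@[simp]
theorem sumHom_single {α : Type*} (a : α) (m : ℤ) : sumHom α (Finsupp.single a m) = m := by
  simp [sumHom]

/-- A function on nonzero fractional ideals which changes by `c` under multiplication by a prime
changes by `-c * ∑ e` under multiplication by `idealOf e`. -/
theorem delta_mul_idealOf (δ : FractionalIdeal R⁰ F → ℤ) (c : ℤ)
    (hδ : ∀ I : FractionalIdeal R⁰ F, I ≠ 0 → ∀ P : HeightOneSpectrum R,
      δ (I * (P.asIdeal : FractionalIdeal R⁰ F)) = δ I + c)
    (e : HeightOneSpectrum R →₀ ℤ) :
    ∀ I : FractionalIdeal R⁰ F, I ≠ 0 →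
      δ (I * idealOf F e) = δ I - c * sumHom (HeightOneSpectrum R) e := by
  have hz : ∀ (P : HeightOneSpectrum R) (m : ℤ) (I : FractionalIdeal R⁰ F), I ≠ 0 →
      δ (I * (P.asIdeal : FractionalIdeal R⁰ F) ^ m) = δ I + c * m := by
    intro P m
    induction m using Int.induction_on with
    | zero => intro I _; simp
    | succ m ih =>
      intro I hI
      rw [zpow_add_one₀ (asIdeal_coe_ne_zero P), ← mul_assoc,
        hδ _ (mul_ne_zero hI (zpow_ne_zero _ (asIdeal_coe_ne_zero P))), ih I hI]
      ring
    | pred m ih =>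
      intro I hI
      have hne : I * (P.asIdeal : FractionalIdeal R⁰ F) ^ (-(m : ℤ) - 1) ≠ 0 :=
        mul_ne_zero hI (zpow_ne_zero _ (asIdeal_coe_ne_zero P))
      have h1 := hδ _ hne P
      have h2 : I * (P.asIdeal : FractionalIdeal R⁰ F) ^ (-(m : ℤ) - 1) *
          (P.asIdeal : FractionalIdeal R⁰ F) = I * (P.asIdeal : FractionalIdeal R⁰ F) ^ (-(m : ℤ)) := by
        rw [mul_assoc, ← zpow_add_one₀ (asIdeal_coe_ne_zero P)]
        congr 2
        ring
      rw [h2, ih I hI] at h1
      linarith
  induction e using Finsupp.induction_linear with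
  | zero => intro I _; simp
  | add f g hf hg =>
    intro I hI
    rw [idealOf_add, ← mul_assoc, hg _ (mul_ne_zero hI (idealOf_ne_zero f)), hf I hI, map_add]
    ring
  | single v m =>
    intro I hI
    rw [idealOf_single, hz v (-m) I hI, sumHom_single]
    ring

end

end Fermat.Agent.S18lib.RRgen
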