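/-
S18lib / RRgen / LatticeIdeal (helper9)

Fractional ideals of a Dedekind domain `B`, finite over a PID `A`, as `A`-lattices:
existence of bases, and the discriminant / index relation between two nested lattices.
-/
import Mathlib
import Fermat.Agent.ProgramR.RR.DiscDiff

set_option autoImplicit false
set_option linter.unusedSectionVars false

noncomputable section

namespace Fermat.Agent.S18lib.RRgen

open Module nonZeroDivisors UniqueFactorizationMonoid Matrix Fermat.Agent.ProgramR.RR

section main

variable (A K L B : Type*) [CommRing A] [IsDomain A] [IsPrincipalIdealRing A] [Field K]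
  [CommRing B] [Field L]
  [Algebra A K] [Algebra B L] [Algebra A B] [Algebra K L] [Algebra A L]
  [IsScalarTower A K L] [IsScalarTower A B L]
  [IsDedekindDomain B] [IsFractionRing A K] [IsFractionRing B L]
  [IsTorsionFree A B] [Module.Finite A B] [FiniteDimensional K L] [Algebra.IsSeparable K L]

/-- the `K`-span of a nonzero fractional ideal is everything. -/
theorem span_fractionalIdeal_eq_top (I : FractionalIdeal B⁰ L) (hI : I ≠ 0) :
    Submodule.span K (((I : Submodule B L).restrictScalars A : Submodule A L) : Set L) = ⊤ := by
  have hloc : IsLocalization (Algebra.algebraMapSubmonoid B A⁰) L :=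
    IsIntegralClosure.isLocalization A K L B
  obtain ⟨i₀, hi₀, hi₀0⟩ : ∃ x ∈ I, x ≠ 0 := by
    by_contra hcon
    push Not at hcon
    apply hI
    rw [← FractionalIdeal.coeToSubmodule_inj, FractionalIdeal.coe_zero, Submodule.eq_bot_iff]
    exact fun x hx => hcon x hx
  rw [eq_top_iff]
  rintro y -
  obtain ⟨⟨b, s⟩, hbs⟩ := IsLocalization.surj (Algebra.algebraMapSubmonoid B A⁰) (y / i₀)
  obtain ⟨a, ha, has⟩ := s.2
  have ha0 : algebraMap A K a ≠ 0 := by
    rw [Ne, map_eq_zero_iff _ (IsFractionRing.injective A K)]
    exact nonZeroDivisors.ne_zero ha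
  have haL : algebraMap A L a ≠ 0 := by
    rw [IsScalarTower.algebraMap_apply A K L]
    exact (map_ne_zero_iff _ (algebraMap K L).injective).mpr ha0
  have hy : y = (algebraMap A K a)⁻¹ • (algebraMap B L b * i₀) := by
    have h1 : y / i₀ * algebraMap A L a = algebraMap B L b := by
      rw [← hbs, ← has, ← IsScalarTower.algebraMap_apply]
    rw [Algebra.smul_def, map_inv₀, ← IsScalarTower.algebraMap_apply A K L, ← h1]
    field_simp
  rw [hy]
  refine Submodule.smul_mem _ _ (Submodule.subset_span ?_)
  have : algebraMap B L b * i₀ = b • i₀ := (Algebra.smul_def b i₀).symm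
  rw [this]
  exact Submodule.smul_mem _ _ hi₀

/-- a nonzero fractional ideal is a finite `A`-module. -/
theorem finite_fractionalIdeal (I : FractionalIdeal B⁰ L) :
    Module.Finite A ↥((I : Submodule B L).restrictScalars A) := by
  have : IsNoetherian B ↥(I : Submodule B L) := FractionalIdeal.isNoetherian I
  have : Module.Finite B ↥(I : Submodule B L) := Module.IsNoetherian.finite B _
  exact Module.Finite.trans (R := A) B ↥(I : Submodule B L)

/-- **bases of fractional ideals**: every nonzero fractional ideal of `B` is the `A`-span of a
`K`-basis of `L`. -/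
theorem exists_basis_span_eq (I : FractionalIdeal B⁰ L) (hI : I ≠ 0) :
    ∃ u : Basis (Fin (finrank K L)) K L,
      Submodule.span A (Set.range u) = (I : Submodule B L).restrictScalars A := by
  classical
  set M : Submodule A L := (I : Submodule B L).restrictScalars A with hM
  have : Module.Finite A ↥M := finite_fractionalIdeal A L B I
  have : IsTorsionFree A L := by
    have hinj : Function.Injective (algebraMap A L) := by
      rw [IsScalarTower.algebraMap_eq A K L]
      exact (algebraMap K L).injective.comp (IsFractionRing.injective A K)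
    exact Module.isTorsionFree_iff_algebraMap_injective.mpr hinj
  have : IsTorsionFree A ↥M := inferInstance
  let b := Module.Free.chooseBasis A ↥M
  let w : Module.Free.ChooseBasisIndex A ↥M → L := fun i => (b i : L)
  have hli : LinearIndependent K w := by
    rw [← LinearIndependent.iff_fractionRing A K]
    exact b.linearIndependent.map' (M.subtype) (Submodule.ker_subtype M)
  have hspanA : Submodule.span A (Set.range w) = M := by
    have : Set.range w = M.subtype '' Set.range b := by
      rw [← Set.range_comp]; rfl
    rw [this, ← Submodule.map_span, b.span_eq, Submodule.map_top, Submodule.range_subtype]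
  have hsp : ⊤ ≤ Submodule.span K (Set.range w) := by
    rw [← span_fractionalIdeal_eq_top A K L B I hI]
    refine Submodule.span_le.mpr fun x hx => ?_
    have hx' : x ∈ Submodule.span A (Set.range w) := by rw [hspanA]; exact hx
    exact Submodule.span_le_restrictScalars A K (Set.range w) hx'
  let u0 : Basis _ K L := Basis.mk hli hsp
  have hcard : Fintype.card (Module.Free.ChooseBasisIndex A ↥M) = finrank K L := by
    rw [← Module.finrank_eq_card_basis u0]
  let e := Fintype.equivFinOfCardEq hcard
  refine ⟨u0.reindex e, ?_⟩
  refine Eq.trans ?_ hspanA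
  congr 1
  ext x
  simp only [Set.mem_range, Basis.reindex_apply, u0, Basis.mk_apply]
  constructor
  · rintro ⟨i, rfl⟩; exact ⟨e.symm i, rfl⟩
  · rintro ⟨i, rfl⟩; exact ⟨e i, by simp⟩

variable {ι : Type*} [Fintype ι] [DecidableEq ι]

/-- **discriminant and index**: for nested fractional ideals `J ≤ I` with `A`-bases `u'`, `u`
(which are `K`-bases of `L`), `disc u' = d² disc u` with `d ∈ A` having as many prime factors as
the `A`-length of `I / J`. -/
theorem exists_discr_eq_of_le (I J : FractionalIdeal B⁰ L) (hJI : J ≤ I)
    (u u' : Basis ι K L)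
    (hu : Submodule.span A (Set.range u) = (I : Submodule B L).restrictScalars A)
    (hu' : Submodule.span A (Set.range u') = (J : Submodule B L).restrictScalars A) :
    ∃ d : A, d ≠ 0 ∧ Algebra.discr K u' = algebraMap A K d ^ 2 * Algebra.discr K u ∧
      (Multiset.card (normalizedFactors (Ideal.span {d})) : ℕ∞) = relLength A L I J := by
  classical
  set D : Submodule B L := (I : Submodule B L) with hDdef
  have hDspan : D.restrictScalars A = Submodule.span A (Set.range u) := hu.symm
  let b : Basis ι A ↥D := basisOfSpanEq A u D hDspan
  have hle : (J : Submodule B L) ≤ D := FractionalIdeal.coe_le_coe.mpr hJI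
  have humem : ∀ i, u' i ∈ (J : Submodule B L) := by
    intro i
    rw [← Submodule.restrictScalars_mem A, ← hu']
    exact Submodule.subset_span ⟨i, rfl⟩
  let w : ι → ↥D := fun i => ⟨u' i, hle (humem i)⟩
  let X : Submodule B ↥D := (J : Submodule B L).comap D.subtype
  have hwli : LinearIndependent A w := by
    apply LinearIndependent.of_comp (D.subtype.restrictScalars A)
    exact linearIndependent_restrict A u'
  have hwsp : Submodule.span A (Set.range w) = X.restrictScalars A := by
    have hinj : Function.Injective (D.subtype.restrictScalars A) := Subtype.val_injective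
    rw [← Submodule.comap_map_eq_of_injective hinj (Submodule.span A (Set.range w)),
      Submodule.map_span, ← Set.range_comp]
    have : (⇑(D.subtype.restrictScalars A) ∘ w) = u' := rfl
    rw [this, hu']
    ext y
    simp only [Submodule.mem_comap, Submodule.restrictScalars_mem, X]
    rfl
  obtain ⟨a, ha0, hassoc, ⟨e⟩⟩ := exists_smith_quotient' b (X.restrictScalars A) w hwli hwsp
  have e2 : relLength A L I J = ∑ i, Module.length A (A ⧸ Ideal.span {a i}) := by
    unfold relLength
    rw [← (Submodule.Quotient.restrictScalarsEquiv A X).length_eq, e.length_eq,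
      Module.length_pi_of_fintype]
  have hd0 : (b.toMatrix w).det ≠ 0 := by
    intro h0
    rw [h0] at hassoc
    have := hassoc.eq_zero_iff.mp rfl
    obtain ⟨i, -, hi⟩ := Finset.prod_eq_zero_iff.mp this
    exact ha0 i hi
  refine ⟨(b.toMatrix w).det, hd0, ?_, ?_⟩
  · -- discriminant
    have hP : (u' : ι → L) = (u : ι → L) ᵥ*
        ((b.toMatrix w).map (algebraMap A K)).map (algebraMap K L) := by
      funext j
      have h1 : (w j : L) = ∑ i, b.repr (w j) i • u i := by
        conv_lhs => rw [← b.sum_repr (w j)]
        rw [Submodule.coe_sum]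
        refine Finset.sum_congr rfl fun i _ => ?_
        rw [Submodule.coe_smul_of_tower, basisOfSpanEq_apply]
      show (w j : L) = _
      rw [h1, Matrix.vecMul, dotProduct]
      refine Finset.sum_congr rfl fun i _ => ?_
      rw [Matrix.map_apply, Matrix.map_apply, Basis.toMatrix_apply,
        ← IsScalarTower.algebraMap_apply A K L, mul_comm, ← Algebra.smul_def]
    rw [hP, Algebra.discr_of_matrix_vecMul, ← RingHom.mapMatrix_apply, ← RingHom.map_det]
  · have e3 : Ideal.span {(b.toMatrix w).det} = Ideal.span {∏ i, a i} :=
      Ideal.span_singleton_eq_span_singleton.mpr hassoc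
    rw [e2]
    simp_rw [length_quotient_span_singleton A (ha0 _)]
    rw [← Nat.cast_sum, ← card_factors_prod_span A a ha0, ← e3]

/-- the index of `I * P` in `I` is one (when all residue fields are trivial). -/
theorem relLength_mul_prime
    (hres : ∀ P : Ideal B, P.IsMaximal → Function.Surjective (algebraMap A (B ⧸ P)))
    (I : FractionalIdeal B⁰ L) (hI : I ≠ 0) (P : Ideal B) (hP : P.IsMaximal) (hP0 : P ≠ ⊥) :
    relLength A L I (I * (P : FractionalIdeal B⁰ L)) = 1 := by
  have hle : I * (P : FractionalIdeal B⁰ L) ≤ I := by
    calc I * (P : FractionalIdeal B⁰ L) ≤ I * 1 := mul_le_mul' le_rfl FractionalIdeal.coeIdeal_le_one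
      _ = I := mul_one I
  have hP0' : (P : FractionalIdeal B⁰ L) ≠ 0 := by simpa using hP0
  rw [relLength_eq_of_mul_eq A I (I * (P : FractionalIdeal B⁰ L)) 1 (P : FractionalIdeal B⁰ L)
    (by rw [one_mul]) hle FractionalIdeal.coeIdeal_le_one hP0' hI, relLength_one_coeIdeal,
    length_quotient_eq_card_factors hres P hP0]
  have hprime : Prime P := Ideal.prime_of_isPrime hP0 hP.isPrime
  rw [normalizedFactors_irreducible hprime.irreducible, Multiset.card_singleton, Nat.cast_one]

end main

end Fermat.Agent.S18lib.RRgen
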