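/-
S18lib / RRgen / Chart (helper9)

The two charts of `F / K(x)`: `B / K[X]` and `B∞ / A∞`.  Fractional ideals as lattices in the sense
of `ProgramR.RR.Latt`, and the behaviour of the degree of the discriminant under multiplication by
a prime.
-/
import Mathlib
import Fermat.Agent.S18lib.RRgen.LatticeIdeal
import Fermat.Agent.ProgramR.RR.DiscInf
import Fermat.Agent.ProgramR.Alg.ThmA

set_option autoImplicit false
set_option linter.unusedSectionVars false

noncomputable section

namespace Fermat.Agent.S18lib.RRgen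

open Module nonZeroDivisors UniqueFactorizationMonoid Polynomial IsDedekindDomain
open Fermat.Agent.ProgramR.RR Fermat.Agent.ProgramR.Alg

section generic

variable {k : Type*} [Field k] (A : Type*) [CommRing A] [IsDomain A] [IsPrincipalIdealRing A]
  [Algebra A (RatFunc k)] [IsFractionRing A (RatFunc k)]
  {F : Type*} [Field F] [Algebra (RatFunc k) F] [FiniteDimensional (RatFunc k) F]
  [Algebra.IsSeparable (RatFunc k) F]
  (B : Type*) [CommRing B] [IsDedekindDomain B] [Algebra A B] [Module.Finite A B]
  [IsTorsionFree A B] [Algebra B F] [IsFractionRing B F] [Algebra A F]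
  [IsScalarTower A (RatFunc k) F] [IsScalarTower A B F]

theorem latt_eq_iff_span_eq {n : ℕ} (u : Basis (Fin n) (RatFunc k) F) (S : Submodule A F) :
    Latt (algebraMap A (RatFunc k)).range u = (S : Set F) ↔
      Submodule.span A (Set.range u) = S := by
  constructor
  · intro h
    ext x
    rw [Basis.mem_span_iff_repr_mem]
    have : x ∈ Latt (algebraMap A (RatFunc k)).range u ↔ x ∈ (S : Set F) := by rw [h]
    rw [mem_Latt] at this
    exact this
  · intro h
    ext x
    rw [mem_Latt, ← h, SetLike.mem_coe, Basis.mem_span_iff_repr_mem]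
    rfl

/-- every nonzero fractional ideal is a lattice. -/
theorem exists_basis_latt_eq (I : FractionalIdeal B⁰ F) (hI : I ≠ 0) :
    ∃ u : Basis (Fin (finrank (RatFunc k) F)) (RatFunc k) F,
      Latt (algebraMap A (RatFunc k)).range u = ((I : Submodule B F) : Set F) := by
  obtain ⟨u, hu⟩ := exists_basis_span_eq A (RatFunc k) F B I hI
  refine ⟨u, ?_⟩
  have := (latt_eq_iff_span_eq A u ((I : Submodule B F).restrictScalars A)).mpr hu
  rw [this]
  rfl

theorem relLength_self (I : FractionalIdeal B⁰ F) : relLength A F I I = 0 := by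
  unfold relLength
  rw [Module.length_eq_zero_iff, Submodule.comap_subtype_self]
  infer_instance

end generic

section finite

variable (k : Type*) [Field k] [IsAlgClosed k]
  (F : Type*) [Field F] [Algebra (RatFunc k) F] [FiniteDimensional (RatFunc k) F]
  [Algebra.IsSeparable (RatFunc k) F]
  (B : Type*) [CommRing B] [IsDedekindDomain B] [Algebra k[X] B] [Module.Finite k[X] B]
  [IsTorsionFree k[X] B] [Algebra B F] [IsFractionRing B F] [Algebra k[X] F]
  [IsScalarTower k[X] (RatFunc k) F] [IsScalarTower k[X] B F]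

theorem hres_fin (P : Ideal B) (hP : P.IsMaximal) :
    Function.Surjective (algebraMap k[X] (B ⧸ P)) :=
  surjective_algebraMap_quotient_of_isAlgClosed (k := k)
    surjective_algebraMap_quotient_polynomial P hP

/-- finite chart: degree of the discriminant of a sublattice. -/
theorem intDegree_discr_of_le_fin {n : ℕ} (I J : FractionalIdeal B⁰ F) (hJI : J ≤ I)
    (u u' : Basis (Fin n) (RatFunc k) F)
    (hu : Latt (Apoly k) u = ((I : Submodule B F) : Set F))
    (hu' : Latt (Apoly k) u' = ((J : Submodule B F) : Set F))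
    (m : ℕ) (hm : relLength k[X] F I J = m) :
    (Algebra.discr (RatFunc k) u').intDegree = (Algebra.discr (RatFunc k) u).intDegree + 2 * m := by
  have hu1 := (latt_eq_iff_span_eq k[X] u ((I : Submodule B F).restrictScalars k[X])).mp hu
  have hu1' := (latt_eq_iff_span_eq k[X] u' ((J : Submodule B F).restrictScalars k[X])).mp hu'
  obtain ⟨d, hd0, hdisc, hcard⟩ :=
    exists_discr_eq_of_le k[X] (RatFunc k) F B I J hJI u u' hu1 hu1'
  have hd0' : algebraMap k[X] (RatFunc k) d ≠ 0 := algebraMap_ne_zero hd0
  have hdu : Algebra.discr (RatFunc k) u ≠ 0 := Algebra.discr_not_zero_of_basis (RatFunc k) u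
  rw [hm, Nat.cast_inj, card_normalizedFactors_span_eq_natDegree d hd0] at hcard
  rw [hdisc, RatFunc.intDegree_mul (pow_ne_zero 2 hd0') hdu, pow_two,
    RatFunc.intDegree_mul hd0' hd0', intDegree_algebraMap, hcard]
  ring

/-- finite chart: multiplying a lattice by a prime raises the degree of the discriminant by 2. -/
theorem intDegree_discr_mul_prime_fin {n : ℕ} (I : FractionalIdeal B⁰ F) (hI : I ≠ 0)
    (P : HeightOneSpectrum B) (u u' : Basis (Fin n) (RatFunc k) F)
    (hu : Latt (Apoly k) u = ((I : Submodule B F) : Set F))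
    (hu' : Latt (Apoly k) u' =
      ((I * (P.asIdeal : FractionalIdeal B⁰ F) : FractionalIdeal B⁰ F) : Set F)) :
    (Algebra.discr (RatFunc k) u').intDegree = (Algebra.discr (RatFunc k) u).intDegree + 2 := by
  have hle : I * (P.asIdeal : FractionalIdeal B⁰ F) ≤ I := by
    calc I * (P.asIdeal : FractionalIdeal B⁰ F) ≤ I * 1 :=
          mul_le_mul' le_rfl FractionalIdeal.coeIdeal_le_one
      _ = I := mul_one I
  have h1 := relLength_mul_prime k[X] F B (hres_fin k B) I hI P.asIdeal P.isMaximal P.ne_bot
  have := intDegree_discr_of_le_fin k F B I _ hle u u' hu hu' 1 (by rw [h1]; rfl)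
  simpa using this

open Classical in
/-- the degree of the discriminant of the lattice `I` (finite chart). -/
def degFin (I : FractionalIdeal B⁰ F) : ℤ :=
  if h : I ≠ 0 then
    (Algebra.discr (RatFunc k) (exists_basis_latt_eq (k := k) k[X] B I h).choose).intDegree
  else 0

theorem degFin_eq (I : FractionalIdeal B⁰ F) (hI : I ≠ 0)
    (u : Basis (Fin (finrank (RatFunc k) F)) (RatFunc k) F)
    (hu : Latt (Apoly k) u = ((I : Submodule B F) : Set F)) :
    (Algebra.discr (RatFunc k) u).intDegree = degFin k F B I := by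
  rw [degFin, dif_pos hI]
  have h := (exists_basis_latt_eq (k := k) k[X] B I hI).choose_spec
  have := intDegree_discr_of_le_fin k F B I I le_rfl _ u h hu 0
    (by rw [relLength_self]; rfl)
  simpa using this

theorem degFin_mul_prime (I : FractionalIdeal B⁰ F) (hI : I ≠ 0) (P : HeightOneSpectrum B) :
    degFin k F B (I * (P.asIdeal : FractionalIdeal B⁰ F)) = degFin k F B I + 2 := by
  have hP : (P.asIdeal : FractionalIdeal B⁰ F) ≠ 0 := FractionalIdeal.coeIdeal_ne_zero.mpr P.ne_bot
  have hIP : I * (P.asIdeal : FractionalIdeal B⁰ F) ≠ 0 := mul_ne_zero hI hP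
  obtain ⟨u, hu⟩ := exists_basis_latt_eq (k := k) k[X] B I hI
  obtain ⟨u', hu'⟩ := exists_basis_latt_eq (k := k) k[X] B _ hIP
  rw [← degFin_eq k F B I hI u hu, ← degFin_eq k F B _ hIP u' hu']
  exact intDegree_discr_mul_prime_fin k F B I hI P u u' hu hu'

end finite

section infinite

variable (k : Type*) [Field k] [IsAlgClosed k]
  (F : Type*) [Field F] [Algebra (RatFunc k) F] [FiniteDimensional (RatFunc k) F]
  [Algebra.IsSeparable (RatFunc k) F]
  (Binf : Type*) [CommRing Binf] [IsDedekindDomain Binf] [Algebra (Ainf k) Binf]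
  [Module.Finite (Ainf k) Binf] [IsTorsionFree (Ainf k) Binf] [Algebra Binf F]
  [IsFractionRing Binf F] [Algebra (Ainf k) F] [IsScalarTower (Ainf k) (RatFunc k) F]
  [IsScalarTower (Ainf k) Binf F]

theorem hres_inf (P : Ideal Binf) (hP : P.IsMaximal) :
    Function.Surjective (algebraMap (Ainf k) (Binf ⧸ P)) :=
  surjective_algebraMap_quotient_of_isAlgClosed (k := k)
    surjective_algebraMap_quotient_Ainf P hP

/-- chart at infinity: degree of the discriminant of a sublattice. -/
theorem intDegree_discr_of_le_inf {n : ℕ} (I J : FractionalIdeal Binf⁰ F) (hJI : J ≤ I)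
    (v v' : Basis (Fin n) (RatFunc k) F)
    (hv : Latt (Ainf k) v = ((I : Submodule Binf F) : Set F))
    (hv' : Latt (Ainf k) v' = ((J : Submodule Binf F) : Set F))
    (m : ℕ) (hm : relLength (Ainf k) F I J = m) :
    (Algebra.discr (RatFunc k) v').intDegree = (Algebra.discr (RatFunc k) v).intDegree - 2 * m := by
  rw [← range_algebraMap_Ainf k] at hv hv'
  have hv1 := (latt_eq_iff_span_eq (Ainf k) v ((I : Submodule Binf F).restrictScalars (Ainf k))).mp hv
  have hv1' :=
    (latt_eq_iff_span_eq (Ainf k) v' ((J : Submodule Binf F).restrictScalars (Ainf k))).mp hv'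
  obtain ⟨d, hd0, hdisc, hcard⟩ :=
    exists_discr_eq_of_le (Ainf k) (RatFunc k) F Binf I J hJI v v' hv1 hv1'
  have hd0' : algebraMap (Ainf k) (RatFunc k) d ≠ 0 := fun h => hd0 (Subtype.ext h)
  have hdv : Algebra.discr (RatFunc k) v ≠ 0 := Algebra.discr_not_zero_of_basis (RatFunc k) v
  rw [hm, Nat.cast_inj] at hcard
  have hc := card_normalizedFactors_span_eq_neg_intDegree d hd0
  rw [hcard] at hc
  rw [hdisc, RatFunc.intDegree_mul (pow_ne_zero 2 hd0') hdv, pow_two,
    RatFunc.intDegree_mul hd0' hd0']
  have : (algebraMap (Ainf k) (RatFunc k) d).intDegree = -(m : ℤ) := by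
    have : algebraMap (Ainf k) (RatFunc k) d = (d : RatFunc k) := rfl
    rw [this]
    omega
  rw [this]
  ring

/-- chart at infinity: multiplying a lattice by a prime lowers the degree of the discriminant
by 2. -/
theorem intDegree_discr_mul_prime_inf {n : ℕ} (I : FractionalIdeal Binf⁰ F) (hI : I ≠ 0)
    (P : HeightOneSpectrum Binf) (v v' : Basis (Fin n) (RatFunc k) F)
    (hv : Latt (Ainf k) v = ((I : Submodule Binf F) : Set F))
    (hv' : Latt (Ainf k) v' =
      ((I * (P.asIdeal : FractionalIdeal Binf⁰ F) : FractionalIdeal Binf⁰ F) : Set F)) :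
    (Algebra.discr (RatFunc k) v').intDegree = (Algebra.discr (RatFunc k) v).intDegree - 2 := by
  have hle : I * (P.asIdeal : FractionalIdeal Binf⁰ F) ≤ I := by
    calc I * (P.asIdeal : FractionalIdeal Binf⁰ F) ≤ I * 1 :=
          mul_le_mul' le_rfl FractionalIdeal.coeIdeal_le_one
      _ = I := mul_one I
  have h1 := relLength_mul_prime (Ainf k) F Binf (hres_inf k Binf) I hI P.asIdeal P.isMaximal P.ne_bot
  have := intDegree_discr_of_le_inf k F Binf I _ hle v v' hv hv' 1 (by rw [h1]; rfl)
  simpa using this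

open Classical in
/-- the degree of the discriminant of the lattice `I` (chart at infinity). -/
def degInf (I : FractionalIdeal Binf⁰ F) : ℤ :=
  if h : I ≠ 0 then
    (Algebra.discr (RatFunc k) (exists_basis_latt_eq (k := k) (Ainf k) Binf I h).choose).intDegree
  else 0

theorem exists_basis_latt_eq_inf (I : FractionalIdeal Binf⁰ F) (hI : I ≠ 0) :
    ∃ v : Basis (Fin (finrank (RatFunc k) F)) (RatFunc k) F,
      Latt (Ainf k) v = ((I : Submodule Binf F) : Set F) := by
  obtain ⟨v, hv⟩ := exists_basis_latt_eq (k := k) (Ainf k) Binf I hI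
  exact ⟨v, by rw [← hv, range_algebraMap_Ainf]⟩

theorem degInf_eq (I : FractionalIdeal Binf⁰ F) (hI : I ≠ 0)
    (v : Basis (Fin (finrank (RatFunc k) F)) (RatFunc k) F)
    (hv : Latt (Ainf k) v = ((I : Submodule Binf F) : Set F)) :
    (Algebra.discr (RatFunc k) v).intDegree = degInf k F Binf I := by
  rw [degInf, dif_pos hI]
  have h := (exists_basis_latt_eq (k := k) (Ainf k) Binf I hI).choose_spec
  generalize (exists_basis_latt_eq (k := k) (Ainf k) Binf I hI).choose = v0 at h ⊢
  rw [range_algebraMap_Ainf] at h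
  have := intDegree_discr_of_le_inf k F Binf I I le_rfl _ v h hv 0
    (by rw [relLength_self]; rfl)
  simpa using this

theorem degInf_mul_prime (I : FractionalIdeal Binf⁰ F) (hI : I ≠ 0) (P : HeightOneSpectrum Binf) :
    degInf k F Binf (I * (P.asIdeal : FractionalIdeal Binf⁰ F)) = degInf k F Binf I + (-2) := by
  have hP : (P.asIdeal : FractionalIdeal Binf⁰ F) ≠ 0 :=
    FractionalIdeal.coeIdeal_ne_zero.mpr P.ne_bot
  have hIP : I * (P.asIdeal : FractionalIdeal Binf⁰ F) ≠ 0 := mul_ne_zero hI hP
  obtain ⟨v, hv⟩ := exists_basis_latt_eq_inf k F Binf I hI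
  obtain ⟨v', hv'⟩ := exists_basis_latt_eq_inf k F Binf _ hIP
  rw [← degInf_eq k F Binf I hI v hv, ← degInf_eq k F Binf _ hIP v' hv']
  exact intDegree_discr_mul_prime_inf k F Binf I hI P v v' hv hv'

end infinite

end Fermat.Agent.S18lib.RRgen
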