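/-
S18lib / RRgen / PlaceDeg (helper9)

Over an algebraically closed constant field all places of the two charts have degree one.
-/
import Mathlib
import Fermat.Agent.S18lib.RRgen.Places
import Fermat.Agent.S18lib.RRgen.Chart

set_option autoImplicit false
set_option linter.unusedSectionVars false

noncomputable section

namespace Fermat.Agent.S18lib.RRgen

open Module Polynomial IsDedekindDomain AlgebraicCurve WithZero
open Fermat.Agent.ProgramR Fermat.Agent.ProgramR.RR Fermat.Agent.ProgramR.Alg

theorem finrank_eq_one_of_surjective {K R : Type*} [Field K] [CommRing R] [Nontrivial R]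
    [Algebra K R] (h : Function.Surjective (algebraMap K R)) : finrank K R = 1 := by
  have hbij : Function.Bijective (Algebra.linearMap K R) :=
    ⟨(algebraMap K R).injective, h⟩
  have e := LinearEquiv.ofBijective (Algebra.linearMap K R) hbij
  rw [← e.finrank_eq, Module.finrank_self]

section

variable (K : Type*) [Field K] [IsAlgClosed K]
  (F : Type*) [Field F] [Algebra (RatFunc K) F] [Algebra K F] [IsScalarTower K (RatFunc K) F]
  (B : Type*) [CommRing B] [IsDedekindDomain B] [Algebra K[X] B] [Module.Finite K[X] B]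
  [IsTorsionFree K[X] B] [Algebra B F] [IsFractionRing B F] [Algebra K[X] F]
  [IsScalarTower K[X] (RatFunc K) F] [IsScalarTower K[X] B F]
  [Algebra K B] [IsScalarTower K B F]
  (Binf : Type*) [CommRing Binf] [IsDedekindDomain Binf] [Algebra (Ainf K) Binf]
  [Module.Finite (Ainf K) Binf] [IsTorsionFree (Ainf K) Binf] [Algebra Binf F]
  [IsFractionRing Binf F] [Algebra (Ainf K) F] [IsScalarTower (Ainf K) (RatFunc K) F]
  [IsScalarTower (Ainf K) Binf F]
  [Algebra K Binf] [IsScalarTower K Binf F]

include F

theorem algebraMap_poly_C_B (c : K) : algebraMap K[X] B (C c) = algebraMap K B c := by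
  apply IsFractionRing.injective B F
  rw [← IsScalarTower.algebraMap_apply K[X] B F, algebraMap_poly_C K F,
    ← IsScalarTower.algebraMap_apply K B F]

theorem algebraMap_residue_surjective_fin (P : HeightOneSpectrum B) :
    Function.Surjective (algebraMap K (B ⧸ P.asIdeal)) := by
  intro y
  obtain ⟨a, rfl⟩ := hres_fin K B P.asIdeal P.isMaximal y
  have hp : (P.asIdeal.under K[X]).IsMaximal :=
    Ideal.isMaximal_comap_of_isIntegral_of_isMaximal P.asIdeal
  obtain ⟨c, hc⟩ := surjective_algebraMap_quotient_polynomial (P.asIdeal.under K[X]) hp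
    (Ideal.Quotient.mk _ a)
  refine ⟨c, ?_⟩
  rw [IsScalarTower.algebraMap_apply K K[X] (K[X] ⧸ P.asIdeal.under K[X]),
    Ideal.Quotient.algebraMap_eq, Ideal.Quotient.eq, Ideal.mem_comap] at hc
  rw [IsScalarTower.algebraMap_apply K B (B ⧸ P.asIdeal),
    IsScalarTower.algebraMap_apply K[X] B (B ⧸ P.asIdeal), Ideal.Quotient.algebraMap_eq,
    Ideal.Quotient.eq, ← algebraMap_poly_C_B K F B c]
  simpa using hc

theorem deg_placeFin (P : HeightOneSpectrum B) : (placeFin K F B P).deg = 1 := by
  rw [placeFin, FF.deg_ofHeightOneSpectrum]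
  have : Nontrivial (B ⧸ P.asIdeal) := Ideal.Quotient.nontrivial_iff.mpr P.isPrime.ne_top
  exact finrank_eq_one_of_surjective (algebraMap_residue_surjective_fin K F B P)

theorem algebraMap_Ainf_B (c : K) :
    algebraMap (Ainf K) Binf (algebraMap K (Ainf K) c) = algebraMap K Binf c := by
  apply IsFractionRing.injective Binf F
  rw [← IsScalarTower.algebraMap_apply (Ainf K) Binf F,
    IsScalarTower.algebraMap_apply (Ainf K) (RatFunc K) F,
    ← IsScalarTower.algebraMap_apply K Binf F, IsScalarTower.algebraMap_apply K (RatFunc K) F]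
  rfl

theorem algebraMap_residue_surjective_inf (P : HeightOneSpectrum Binf) :
    Function.Surjective (algebraMap K (Binf ⧸ P.asIdeal)) := by
  intro y
  obtain ⟨a, rfl⟩ := hres_inf K Binf P.asIdeal P.isMaximal y
  have hp : (P.asIdeal.under (Ainf K)).IsMaximal :=
    Ideal.isMaximal_comap_of_isIntegral_of_isMaximal P.asIdeal
  obtain ⟨c, hc⟩ := exists_sub_mem_maximalIdeal_Ainf a
  rw [← IsLocalRing.eq_maximalIdeal hp, Ideal.mem_comap] at hc
  refine ⟨c, ?_⟩
  rw [IsScalarTower.algebraMap_apply K Binf (Binf ⧸ P.asIdeal),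
    IsScalarTower.algebraMap_apply (Ainf K) Binf (Binf ⧸ P.asIdeal), Ideal.Quotient.algebraMap_eq,
    Ideal.Quotient.eq, ← algebraMap_Ainf_B K F Binf c]
  have := P.asIdeal.neg_mem hc
  rwa [← map_neg, neg_sub, map_sub] at this

theorem deg_placeInf (P : HeightOneSpectrum Binf) : (placeInf K F Binf P).deg = 1 := by
  rw [placeInf, FF.deg_ofHeightOneSpectrum]
  have : Nontrivial (Binf ⧸ P.asIdeal) := Ideal.Quotient.nontrivial_iff.mpr P.isPrime.ne_top
  exact finrank_eq_one_of_surjective (algebraMap_residue_surjective_inf K F Binf P)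

include B Binf in
/-- all places have degree one. -/
theorem deg_eq_one (v : Place K F) : v.deg = 1 := by
  rcases exists_placeFin_or_placeInf K F B Binf v with ⟨P, rfl⟩ | ⟨P, rfl⟩
  · exact deg_placeFin K F B P
  · exact deg_placeInf K F Binf P

end

end Fermat.Agent.S18lib.RRgen
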