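/-
S18lib / RRgen / DivisorSpace (helper9)

The Riemann–Roch space `L(E)` of the Prelude as the intersection of the two lattices attached to a
divisor `E`, and the Riemann–Roch equation
`2 (dim Ω(E) - dim L(E)) = const - 2 deg E` (Dedekind–Weber, via `ProgramR.RR.riemannRoch`).
-/
import Mathlib
import Fermat.Agent.S18lib.RRgen.PlaceDeg
import Fermat.Agent.S18lib.RRgen.IdealOf
import Fermat.Agent.ProgramR.RR.Finite
import Fermat.Prelude.Def_AlgebraicCurve_Repartitions

set_option autoImplicit false
set_option linter.unusedSectionVars false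

noncomputable section

namespace Fermat.Agent.S18lib.RRgen

open Module Polynomial IsDedekindDomain AlgebraicCurve WithZero nonZeroDivisors
open Fermat.Agent.ProgramR Fermat.Agent.ProgramR.RR Fermat.Agent.ProgramR.Alg

section

variable (K : Type*) [Field K] [IsAlgClosed K]
  (F : Type*) [Field F] [Algebra (RatFunc K) F] [FiniteDimensional (RatFunc K) F]
  [Algebra.IsSeparable (RatFunc K) F] [Algebra K F] [IsScalarTower K (RatFunc K) F]
  (B : Type*) [CommRing B] [IsDedekindDomain B] [Algebra K[X] B] [Module.Finite K[X] B]
  [IsTorsionFree K[X] B] [Algebra B F] [IsFractionRing B F] [Algebra K[X] F]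
  [IsScalarTower K[X] (RatFunc K) F] [IsScalarTower K[X] B F]
  [Algebra K B] [IsScalarTower K B F]
  (Binf : Type*) [CommRing Binf] [IsDedekindDomain Binf] [Algebra (Ainf K) Binf]
  [Module.Finite (Ainf K) Binf] [IsTorsionFree (Ainf K) Binf] [Algebra Binf F]
  [IsFractionRing Binf F] [Algebra (Ainf K) F] [IsScalarTower (Ainf K) (RatFunc K) F]
  [IsScalarTower (Ainf K) Binf F]
  [Algebra K Binf] [IsScalarTower K Binf F]

/-- exponents of a divisor at the finite places -/
def eFin : Divisor K F →+ (HeightOneSpectrum B →₀ ℤ) :=
  Finsupp.comapDomain.addMonoidHom (placeFin_injective K F B)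

/-- exponents of a divisor at the infinite places -/
def eInf : Divisor K F →+ (HeightOneSpectrum Binf →₀ ℤ) :=
  Finsupp.comapDomain.addMonoidHom (placeInf_injective K F Binf)

@[simp]
theorem eFin_apply (E : Divisor K F) (P : HeightOneSpectrum B) :
    eFin K F B E P = E (placeFin K F B P) := rfl

@[simp]
theorem eInf_apply (E : Divisor K F) (P : HeightOneSpectrum Binf) :
    eInf K F Binf E P = E (placeInf K F Binf P) := rfl

theorem eFin_single_placeFin (P : HeightOneSpectrum B) (m : ℤ) :
    eFin K F B (Finsupp.single (placeFin K F B P) m) = Finsupp.single P m := by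
  classical
  ext Q
  rw [eFin_apply, Finsupp.single_apply, Finsupp.single_apply]
  by_cases h : P = Q
  · subst h; simp
  · rw [if_neg h, if_neg]
    exact fun h' => h (placeFin_injective K F B h')

theorem eInf_single_placeInf (P : HeightOneSpectrum Binf) (m : ℤ) :
    eInf K F Binf (Finsupp.single (placeInf K F Binf P) m) = Finsupp.single P m := by
  classical
  ext Q
  rw [eInf_apply, Finsupp.single_apply, Finsupp.single_apply]
  by_cases h : P = Q
  · subst h; simp
  · rw [if_neg h, if_neg]
    exact fun h' => h (placeInf_injective K F Binf h')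

theorem eFin_single_placeInf (P : HeightOneSpectrum Binf) (m : ℤ) :
    eFin K F B (Finsupp.single (placeInf K F Binf P) m) = 0 := by
  classical
  ext Q
  rw [eFin_apply, Finsupp.single_apply, if_neg, Finsupp.zero_apply]
  exact fun h => placeFin_ne_placeInf K F B Binf Q P h.symm

theorem eInf_single_placeFin (P : HeightOneSpectrum B) (m : ℤ) :
    eInf K F Binf (Finsupp.single (placeFin K F B P) m) = 0 := by
  classical
  ext Q
  rw [eInf_apply, Finsupp.single_apply, if_neg, Finsupp.zero_apply]
  exact fun h => placeFin_ne_placeInf K F B Binf P Q h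

/-- the degree of a divisor is the sum of its coefficients over both charts. -/
theorem degree_eq (E : Divisor K F) :
    Divisor.degree E = sumHom _ (eFin K F B E) + sumHom _ (eInf K F Binf E) := by
  have h : (Divisor.degree : Divisor K F →+ ℤ) =
      (sumHom _).comp (eFin K F B) + (sumHom _).comp (eInf K F Binf) := by
    refine Finsupp.addHom_ext fun v m => ?_
    rw [Divisor.degree_single, deg_eq_one K F B Binf v, Nat.cast_one, mul_one,
      AddMonoidHom.add_apply, AddMonoidHom.comp_apply, AddMonoidHom.comp_apply]
    rcases exists_placeFin_or_placeInf K F B Binf v with ⟨P, rfl⟩ | ⟨P, rfl⟩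
    · rw [eFin_single_placeFin, eInf_single_placeFin, sumHom_single, map_zero, add_zero]
    · rw [eFin_single_placeInf, eInf_single_placeInf, sumHom_single, map_zero, zero_add]
  rw [h]
  rfl

/-- the lattice of the finite chart attached to a divisor -/
def IFin (E : Divisor K F) : FractionalIdeal B⁰ F := idealOf F (eFin K F B E)

/-- the lattice of the chart at infinity attached to a divisor -/
def IInf (E : Divisor K F) : FractionalIdeal Binf⁰ F := idealOf F (eInf K F Binf E)

theorem valuation_le_exp_iff_ord {R : Type*} [CommRing R] [IsDedekindDomain R] [Algebra R F]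
    [IsFractionRing R F] (P : HeightOneSpectrum R) (x : F) (n : ℤ) :
    P.valuation F x ≤ exp n ↔ x = 0 ∨ -n ≤ -(log (P.valuation F x)) := by
  rcases eq_or_ne x 0 with rfl | hx
  · simp
  have h0 : P.valuation F x ≠ 0 := (Valuation.ne_zero_iff _).mpr hx
  rw [or_iff_right hx]
  constructor
  · intro h
    rw [← exp_log h0, exp_le_exp] at h
    omega
  · intro h
    rw [← exp_log h0, exp_le_exp]
    omega

theorem mem_riemannRochSpace_iff_mem (E : Divisor K F) (x : F) :
    x ∈ riemannRochSpace E ↔ x ∈ IFin K F B E ∧ x ∈ IInf K F Binf E := by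
  rw [mem_riemannRochSpace_iff, IFin, IInf, mem_idealOf_iff, mem_idealOf_iff]
  constructor
  · intro h
    refine ⟨fun P => ?_, fun P => ?_⟩
    · rw [valuation_le_exp_iff_ord, eFin_apply, ← ord_placeFin K F B]
      exact h _
    · rw [valuation_le_exp_iff_ord, eInf_apply, ← ord_placeInf K F Binf]
      exact h _
  · rintro ⟨h1, h2⟩ v
    rcases exists_placeFin_or_placeInf K F B Binf v with ⟨P, rfl⟩ | ⟨P, rfl⟩
    · have := h1 P
      rwa [valuation_le_exp_iff_ord, eFin_apply, ← ord_placeFin K F B] at this
    · have := h2 P
      rwa [valuation_le_exp_iff_ord, eInf_apply, ← ord_placeInf K F Binf] at this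

/-- a basis of the finite lattice of `E` -/
def uE (E : Divisor K F) : Basis (Fin (finrank (RatFunc K) F)) (RatFunc K) F :=
  (exists_basis_latt_eq (k := K) K[X] B (IFin K F B E) (idealOf_ne_zero _)).choose

theorem uE_spec (E : Divisor K F) :
    Latt (Apoly K) (uE K F B E) = ((IFin K F B E : Submodule B F) : Set F) :=
  (exists_basis_latt_eq (k := K) K[X] B (IFin K F B E) (idealOf_ne_zero _)).choose_spec

/-- a basis of the lattice at infinity of `E` -/
def vE (E : Divisor K F) : Basis (Fin (finrank (RatFunc K) F)) (RatFunc K) F :=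
  (exists_basis_latt_eq_inf K F Binf (IInf K F Binf E) (idealOf_ne_zero _)).choose

theorem vE_spec (E : Divisor K F) :
    Latt (Ainf K) (vE K F Binf E) = ((IInf K F Binf E : Submodule Binf F) : Set F) :=
  (exists_basis_latt_eq_inf K F Binf (IInf K F Binf E) (idealOf_ne_zero _)).choose_spec

theorem riemannRochSpace_eq_regularSubspace (E : Divisor K F) :
    riemannRochSpace E = regularSubspace (uE K F B E) (vE K F Binf E) := by
  ext x
  rw [mem_riemannRochSpace_iff_mem K F B Binf, mem_regularSubspace, uE_spec, vE_spec]
  rfl

/-- the space of differentials `h dx` with divisor `≥ E` -/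
def Omega (E : Divisor K F) : Submodule K F :=
  differentialSubspace (uE K F B E) (vE K F Binf E)

instance (E : Divisor K F) : Module.Finite K (Omega K F B Binf E) :=
  finite_differentialSubspace _ _

include B Binf in
theorem finite_riemannRochSpace (E : Divisor K F) : Module.Finite K (riemannRochSpace E) := by
  rw [riemannRochSpace_eq_regularSubspace K F B Binf]
  exact finite_regularSubspace _ _

/-- the constant `deg disc(B) - deg disc(B∞)` -/
def discConst : ℤ := degFin K F B 1 - degInf K F Binf 1

/-- **Riemann–Roch equation** for a divisor. -/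
theorem two_mul_finrank_Omega_sub (E : Divisor K F) :
    2 * ((finrank K (Omega K F B Binf E) : ℤ) - (finrank K (riemannRochSpace E) : ℤ)) =
      discConst K F B Binf - 2 * (finrank (RatFunc K) F : ℤ) - 2 * Divisor.degree E := by
  have h := riemannRoch (uE K F B E) (vE K F Binf E)
  rw [← riemannRochSpace_eq_regularSubspace K F B Binf E] at h
  have e1 : (Algebra.discr (RatFunc K) (uE K F B E)).intDegree = degFin K F B (IFin K F B E) :=
    degFin_eq K F B _ (idealOf_ne_zero _) _ (uE_spec K F B E)
  have e2 : (Algebra.discr (RatFunc K) (vE K F Binf E)).intDegree =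
      degInf K F Binf (IInf K F Binf E) :=
    degInf_eq K F Binf _ (idealOf_ne_zero _) _ (vE_spec K F Binf E)
  have h1 : degFin K F B (IFin K F B E) = degFin K F B 1 - 2 * sumHom _ (eFin K F B E) := by
    have := delta_mul_idealOf (degFin K F B) 2 (degFin_mul_prime K F B) (eFin K F B E) 1
      one_ne_zero
    rwa [one_mul] at this
  have h2 : degInf K F Binf (IInf K F Binf E) =
      degInf K F Binf 1 - (-2) * sumHom _ (eInf K F Binf E) := by
    have := delta_mul_idealOf (degInf K F Binf) (-2) (degInf_mul_prime K F Binf)
      (eInf K F Binf E) 1 one_ne_zero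
    rwa [one_mul] at this
  rw [Omega, h, e1, e2, h1, h2, degree_eq K F B Binf E, discConst]
  ring

end

end Fermat.Agent.S18lib.RRgen
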