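/-
S18lib / RRgen / Riemann (helper9)

Riemann's theorem for `F / K`, `K` algebraically closed, `F` finite separable over `K(x)`:
constants, the genus `g = dim Ω(0)`, `l(E) = deg E + 1 - g + dim Ω(E)`, and `Ω(E) = 0` for
`deg E > 2g - 2`.
-/
import Mathlib
import Fermat.Agent.S18lib.RRgen.DivisorSpace

set_option autoImplicit false
set_option linter.unusedSectionVars false

noncomputable section

namespace Fermat.Agent.S18lib.RRgen

open Module Polynomial IsDedekindDomain AlgebraicCurve WithZero nonZeroDivisors
open Fermat.Agent.ProgramR Fermat.Agent.ProgramR.RR Fermat.Agent.ProgramR.Alg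

section

variable (K : Type*) [Field K] [IsAlgClosed K]
  (F : Type*) [Field F] [Algebra (RatFunc K) F] [FiniteDimensional (RatFunc K) F]
  [Algebra.IsSeparable (RatFunc K) F] [Algebra K F] [IsScalarTower K (RatFunc K) F]
  (B : Type*) [CommRing B] [IsDedekindDomain B] [Algebra K[X] B] [Module.Finite K[X] B]
  [IsTorsionFree K[X] B] [Algebra B F] [IsFractionRing B F] [Algebra K[X] F]
  [IsScalarTower K[X] (RatFunc K) F] [IsScalarTower K[X] B F]
  [Algebra K B] [IsScalarTower K B F]
  (Binf : Type*) [CommRing Binf] [IsDedekindDomain Binf] [Algebra (Ainf K) Binf]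
  [Module.Finite (Ainf K) Binf] [IsTorsionFree (Ainf K) Binf] [Algebra Binf F]
  [IsFractionRing Binf F] [Algebra (Ainf K) F] [IsScalarTower (Ainf K) (RatFunc K) F]
  [IsScalarTower (Ainf K) Binf F]
  [Algebra K Binf] [IsScalarTower K Binf F]

/-- the ring of functions regular at all places -/
def regularRing : Subalgebra K F where
  carrier := {f | ∀ v : Place K F, f ∈ v.toValuationSubring}
  mul_mem' := fun ha hb v => v.toValuationSubring.mul_mem _ _ (ha v) (hb v)
  add_mem' := fun ha hb v => v.toValuationSubring.add_mem _ _ (ha v) (hb v)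
  algebraMap_mem' := fun c v => v.algebraMap_mem' c

theorem mem_regularRing_iff (f : F) :
    f ∈ regularRing K F ↔ ∀ v : Place K F, f ∈ v.toValuationSubring := Iff.rfl

theorem regularRing_toSubmodule :
    (regularRing K F).toSubmodule = riemannRochSpace (0 : Divisor K F) := by
  ext f
  rw [Subalgebra.mem_toSubmodule, mem_regularRing_iff, mem_riemannRochSpace_iff]
  refine forall_congr' fun v => ?_
  rw [FF.mem_iff_ord_nonneg, Finsupp.zero_apply, neg_zero]
  constructor
  · exact fun h => Or.inr h
  · rintro (rfl | h)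
    · simp
    · exact h

include B Binf in
/-- **constants**: the only everywhere regular functions are the constants. -/
theorem riemannRochSpace_zero :
    riemannRochSpace (0 : Divisor K F) = (⊥ : Subalgebra K F).toSubmodule := by
  rw [← regularRing_toSubmodule]
  congr 1
  refine le_antisymm ?_ bot_le
  intro f hf
  have hfg : (regularRing K F).toSubmodule.FG := by
    rw [regularRing_toSubmodule]
    have := finite_riemannRochSpace K F B Binf (0 : Divisor K F)
    exact Module.Finite.iff_fg.mp this
  have hint : IsIntegral K f := IsIntegral.of_mem_of_fg (regularRing K F) hfg f hf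
  obtain ⟨a, ha⟩ := FF.exists_algebraMap_eq_of_isAlgebraic hint.isAlgebraic
  rw [← ha]
  exact Subalgebra.algebraMap_mem _ a

include B Binf in
theorem finrank_riemannRochSpace_zero :
    finrank K (riemannRochSpace (0 : Divisor K F)) = 1 := by
  rw [riemannRochSpace_zero K F B Binf]
  exact Subalgebra.finrank_bot

/-- the genus -/
def genus : ℕ := finrank K (Omega K F B Binf 0)

theorem two_mul_genus_sub_two :
    2 * (genus K F B Binf : ℤ) - 2 =
      discConst K F B Binf - 2 * (finrank (RatFunc K) F : ℤ) := by
  have h := two_mul_finrank_Omega_sub K F B Binf 0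
  rw [finrank_riemannRochSpace_zero K F B Binf, map_zero] at h
  rw [genus]
  push_cast at h ⊢
  linarith

/-- **Riemann–Roch** (with the correction term `dim Ω(E)`). -/
theorem finrank_riemannRochSpace (E : Divisor K F) :
    (finrank K (riemannRochSpace E) : ℤ) =
      Divisor.degree E + 1 - genus K F B Binf + finrank K (Omega K F B Binf E) := by
  have h := two_mul_finrank_Omega_sub K F B Binf E
  have h0 := two_mul_genus_sub_two K F B Binf
  linarith

theorem mul_mem_fractionalIdeal {R : Type*} [CommRing R] [IsDomain R] [Algebra R F]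
    [IsFractionRing R F] (I : FractionalIdeal R⁰ F) {f x : F} (hf : f ∈ I)
    (hx : x ∈ (1 : FractionalIdeal R⁰ F)) : f * x ∈ I := by
  obtain ⟨b, rfl⟩ := (FractionalIdeal.mem_one_iff _).mp hx
  rw [mul_comm, ← Algebra.smul_def]
  exact (FractionalIdeal.mem_coe).mp (Submodule.smul_mem _ b ((FractionalIdeal.mem_coe).mpr hf))

theorem IFin_zero : IFin K F B 0 = 1 := by
  rw [IFin, map_zero, idealOf_zero]

theorem IInf_zero : IInf K F Binf 0 = 1 := by
  rw [IInf, map_zero, idealOf_zero]

/-- multiplication `L(E) × Ω(E) → Ω(0)`. -/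
theorem mul_mem_Omega_zero {E : Divisor K F} {f h : F} (hf : f ∈ riemannRochSpace E)
    (hh : h ∈ Omega K F B Binf E) : f * h ∈ Omega K F B Binf 0 := by
  rw [mem_riemannRochSpace_iff_mem K F B Binf] at hf
  rw [Omega, mem_differentialSubspace] at hh ⊢
  refine ⟨fun x hx => ?_, fun x hx => ?_⟩
  · have hx' : x ∈ (1 : FractionalIdeal B⁰ F) := by
      rw [uE_spec, IFin_zero] at hx
      exact hx
    have hfx : f * x ∈ Latt (Apoly K) (uE K F B E) := by
      rw [uE_spec]
      exact mul_mem_fractionalIdeal F _ hf.1 hx'
    have := hh.1 _ hfx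
    rwa [show h * (f * x) = f * h * x by ring] at this
  · have hx' : x ∈ (1 : FractionalIdeal Binf⁰ F) := by
      rw [vE_spec, IInf_zero] at hx
      exact hx
    have hfx : f * x ∈ Latt (Ainf K) (vE K F Binf E) := by
      rw [vE_spec]
      exact mul_mem_fractionalIdeal F _ hf.2 hx'
    have := hh.2 _ hfx
    rwa [show h * (f * x) = f * h * x by ring] at this

/-- `Ω(E) = 0` as soon as `deg E > 2g - 2`. -/
theorem Omega_eq_bot (E : Divisor K F) (hE : 2 * (genus K F B Binf : ℤ) - 2 < Divisor.degree E) :
    Omega K F B Binf E = ⊥ := by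
  by_contra hne
  obtain ⟨h, hh, hh0⟩ := Submodule.exists_mem_ne_zero_of_ne_bot hne
  -- multiplication by `h` embeds `L(E)` into `Ω(0)`
  let φ : riemannRochSpace E →ₗ[K] Omega K F B Binf 0 :=
    LinearMap.codRestrict _ ((LinearMap.mulRight K h).domRestrict (riemannRochSpace E))
      (fun f => mul_mem_Omega_zero K F B Binf f.2 hh)
  have hφ : Function.Injective φ := by
    intro f f' hff'
    have h1 : (f : F) * h = (f' : F) * h := congrArg Subtype.val hff'
    exact Subtype.ext (mul_right_cancel₀ hh0 h1)
  have hfin := finite_riemannRochSpace K F B Binf E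
  have hle : finrank K (riemannRochSpace E) ≤ finrank K (Omega K F B Binf 0) :=
    LinearMap.finrank_le_finrank_of_injective hφ
  have hpos : 0 < finrank K (Omega K F B Binf E) := by
    rw [Module.finrank_pos_iff]
    exact ⟨⟨⟨h, hh⟩, 0, fun h0 => hh0 (congrArg Subtype.val h0)⟩⟩
  have hrr := finrank_riemannRochSpace K F B Binf E
  have hg : (finrank K (Omega K F B Binf 0) : ℤ) = genus K F B Binf := rfl
  have hle' : (finrank K (riemannRochSpace E) : ℤ) ≤ finrank K (Omega K F B Binf 0) := by
    exact_mod_cast hle
  have hpos' : (0 : ℤ) < finrank K (Omega K F B Binf E) := by exact_mod_cast hpos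
  omega

/-- **Riemann's inequality**. -/
theorem riemann_le (E : Divisor K F) :
    Divisor.degree E + 1 - (genus K F B Binf : ℤ) ≤ (finrank K (riemannRochSpace E) : ℤ) := by
  have hrr := finrank_riemannRochSpace K F B Binf E
  have : (0 : ℤ) ≤ finrank K (Omega K F B Binf E) := Nat.cast_nonneg _
  omega

/-- **Riemann's theorem**. -/
theorem riemann_eq (E : Divisor K F) (hE : 2 * (genus K F B Binf : ℤ) - 2 < Divisor.degree E) :
    (finrank K (riemannRochSpace E) : ℤ) = Divisor.degree E + 1 - (genus K F B Binf : ℤ) := by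
  have hrr := finrank_riemannRochSpace K F B Binf E
  rw [Omega_eq_bot K F B Binf E hE, finrank_bot] at hrr
  simpa using hrr

end

end Fermat.Agent.S18lib.RRgen
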