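/-
S18lib / RRgen / Principal (helper9)

Principal divisors of `F / K` (finite support, degree zero) and infinitely many places, for `K`
algebraically closed and `F` finite separable over `K(x)`; any characteristic.
-/
import Mathlib
import Fermat.Agent.S18lib.RRgen.Riemann

set_option autoImplicit false
set_option linter.unusedSectionVars false

noncomputable section

namespace Fermat.Agent.S18lib.RRgen

open Module Polynomial IsDedekindDomain AlgebraicCurve WithZero nonZeroDivisors
open Fermat.Agent.ProgramR Fermat.Agent.ProgramR.RR Fermat.Agent.ProgramR.Alg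

/-- a nonzero element has valuation one at almost all primes of a Dedekind domain. -/
theorem finite_valuation_ne_one {R : Type*} [CommRing R] [IsDedekindDomain R] {F : Type*} [Field F]
    [Algebra R F] [IsFractionRing R F] {f : F} (hf : f ≠ 0) :
    {P : HeightOneSpectrum R | P.valuation F f ≠ 1}.Finite := by
  have h := FractionalIdeal.finite_factors (FractionalIdeal.spanSingleton R⁰ f)
  rw [Filter.eventually_cofinite] at h
  refine h.subset fun P hP => ?_
  rw [Set.mem_ofPred_eq, count_spanSingleton P hf]
  intro h0
  apply hP
  have hne : P.valuation F f ≠ 0 := (Valuation.ne_zero_iff _).mpr hf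
  rw [← exp_log hne]
  have : log (P.valuation F f) = 0 := by omega
  rw [this, exp_zero]

section

variable (K : Type*) [Field K] [IsAlgClosed K]
  (F : Type*) [Field F] [Algebra (RatFunc K) F] [FiniteDimensional (RatFunc K) F]
  [Algebra.IsSeparable (RatFunc K) F] [Algebra K F] [IsScalarTower K (RatFunc K) F]
  (B : Type*) [CommRing B] [IsDedekindDomain B] [Algebra K[X] B] [Module.Finite K[X] B]
  [IsTorsionFree K[X] B] [Algebra B F] [IsFractionRing B F] [Algebra K[X] F]
  [IsScalarTower K[X] (RatFunc K) F] [IsScalarTower K[X] B F]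
  [Algebra K B] [IsScalarTower K B F]
  (Binf : Type*) [CommRing Binf] [IsDedekindDomain Binf] [Algebra (Ainf K) Binf]
  [Module.Finite (Ainf K) Binf] [IsTorsionFree (Ainf K) Binf] [Algebra Binf F]
  [IsFractionRing Binf F] [Algebra (Ainf K) F] [IsScalarTower (Ainf K) (RatFunc K) F]
  [IsScalarTower (Ainf K) Binf F]
  [Algebra K Binf] [IsScalarTower K Binf F]

include B Binf in
/-- a nonzero function has finitely many zeros and poles. -/
theorem finite_ord_ne_zero {f : F} (hf : f ≠ 0) : {v : Place K F | v.ord f ≠ 0}.Finite := by
  have h1 := (finite_valuation_ne_one (R := B) hf).image (placeFin K F B)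
  have h2 := (finite_valuation_ne_one (R := Binf) hf).image (placeInf K F Binf)
  refine (h1.union h2).subset fun v hv => ?_
  rcases exists_placeFin_or_placeInf K F B Binf v with ⟨P, rfl⟩ | ⟨P, rfl⟩
  · left
    refine ⟨P, ?_, rfl⟩
    intro h1
    apply hv
    rw [ord_placeFin, h1, log_one, neg_zero]
  · right
    refine ⟨P, ?_, rfl⟩
    intro h1
    apply hv
    rw [ord_placeInf, h1, log_one, neg_zero]

/-- the divisor of a nonzero function -/
def divFun {f : F} (hf : f ≠ 0) : Divisor K F :=
  Finsupp.ofSupportFinite (fun v => v.ord f) (finite_ord_ne_zero K F B Binf hf)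

@[simp]
theorem divFun_apply {f : F} (hf : f ≠ 0) (v : Place K F) :
    divFun K F B Binf hf v = v.ord f := rfl

/-- multiplication by `f` maps `L(E)` into `L(E')` when `E' = E - div f`. -/
theorem finrank_riemannRochSpace_le_of_ord {f : F} (hf : f ≠ 0) (E E' : Divisor K F)
    (h : ∀ v : Place K F, E' v = E v - v.ord f)
    [Module.Finite K (riemannRochSpace E')] :
    finrank K (riemannRochSpace E) ≤ finrank K (riemannRochSpace E') := by
  have hmem : ∀ g ∈ riemannRochSpace E, g * f ∈ riemannRochSpace E' := by
    intro g hg
    rw [mem_riemannRochSpace_iff] at hg ⊢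
    intro v
    rcases hg v with rfl | hv
    · left; rw [zero_mul]
    · by_cases hg0 : g = 0
      · left; rw [hg0, zero_mul]
      · right
        rw [v.ord_mul hg0 hf, h v]
        omega
  let φ : riemannRochSpace E →ₗ[K] riemannRochSpace E' :=
    LinearMap.codRestrict _ ((LinearMap.mulRight K f).domRestrict (riemannRochSpace E))
      (fun g => hmem g g.2)
  have hφ : Function.Injective φ := by
    intro g g' hgg'
    have h1 : (g : F) * f = (g' : F) * f := congrArg Subtype.val hgg'
    exact Subtype.ext (mul_right_cancel₀ hf h1)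
  exact LinearMap.finrank_le_finrank_of_injective hφ

include B Binf in
theorem finrank_riemannRochSpace_eq_of_ord {f : F} (hf : f ≠ 0) (E E' : Divisor K F)
    (h : ∀ v : Place K F, E' v = E v - v.ord f) :
    finrank K (riemannRochSpace E) = finrank K (riemannRochSpace E') := by
  have := finite_riemannRochSpace K F B Binf E
  have := finite_riemannRochSpace K F B Binf E'
  refine le_antisymm (finrank_riemannRochSpace_le_of_ord K F hf E E' h) ?_
  refine finrank_riemannRochSpace_le_of_ord K F (inv_ne_zero hf) E' E fun v => ?_
  rw [h v, v.ord_inv]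
  ring

theorem exists_prime_over (c : K) :
    ∃ P : HeightOneSpectrum B, algebraMap K[X] B (X - C c) ∈ P.asIdeal := by
  have hinj : Function.Injective (algebraMap K[X] B) :=
    FaithfulSMul.algebraMap_injective K[X] B
  have hmax : (Ideal.span {(X - C c : K[X])}).IsMaximal := span_X_sub_C_isMaximal c
  obtain ⟨Q, hQmax, hQ⟩ := Ideal.exists_ideal_over_maximal_of_isIntegral (S := B)
    (Ideal.span {(X - C c : K[X])}) (by
      rw [(RingHom.injective_iff_ker_eq_bot _).mp hinj]; exact bot_le)
  have hmem : algebraMap K[X] B (X - C c) ∈ Q := by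
    have : (X - C c : K[X]) ∈ Q.comap (algebraMap K[X] B) := by
      rw [hQ]; exact Ideal.mem_span_singleton_self _
    exact this
  have hQ0 : Q ≠ ⊥ := by
    rintro rfl
    have h0 : algebraMap K[X] B (X - C c) = 0 := by simpa using hmem
    exact X_sub_C_ne_zero c ((map_eq_zero_iff _ hinj).mp h0)
  exact ⟨⟨Q, hQmax.isPrime, hQ0⟩, hmem⟩

include B in
/-- there are infinitely many places. -/
theorem infinite_places : Infinite (Place K F) := by
  have hK : Infinite K := IsAlgClosed.instInfinite
  choose P hP using exists_prime_over K B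
  refine Infinite.of_injective (fun c => placeFin K F B (P c)) ?_
  intro c c' hcc'
  have hPP : P c = P c' := placeFin_injective K F B hcc'
  have h1 := hP c
  have h2 := hP c'
  rw [hPP] at h1
  have h3 : algebraMap K[X] B (C (c' - c)) ∈ (P c').asIdeal := by
    have := (P c').asIdeal.sub_mem h1 h2
    rw [← map_sub] at this
    convert this using 2
    rw [C_sub]; ring
  by_contra hne
  have hu : IsUnit (algebraMap K[X] B (C (c' - c))) :=
    (isUnit_C.mpr (isUnit_iff_ne_zero.mpr (sub_ne_zero.mpr (Ne.symm hne)))).map _
  exact (P c').isPrime.ne_top ((Ideal.eq_top_iff_one _).mpr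
    (by
      obtain ⟨u, hu'⟩ := hu
      have := (P c').asIdeal.mul_mem_left (↑u⁻¹ : B) h3
      rwa [← hu', Units.inv_mul] at this))

include B Binf in
/-- the divisor of a nonzero function has degree zero. -/
theorem degree_divFun {f : F} (hf : f ≠ 0) : Divisor.degree (divFun K F B Binf hf) = 0 := by
  classical
  have hinf := infinite_places K F B
  obtain ⟨v₀⟩ : Nonempty (Place K F) := inferInstance
  set D := divFun K F B Binf hf with hD
  set g : ℤ := ((genus K F B Binf : ℕ) : ℤ) with hg
  -- a divisor of large degree
  set m : ℤ := 2 * g + |Divisor.degree D| with hm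
  set E : Divisor K F := Finsupp.single v₀ m with hE
  have hdegE : Divisor.degree E = m := by
    rw [hE, Divisor.degree_single, deg_eq_one K F B Binf v₀, Nat.cast_one, mul_one]
  have hg0 : 0 ≤ g := Nat.cast_nonneg _
  have habs := abs_nonneg (Divisor.degree D)
  have hle1 := le_abs_self (Divisor.degree D)
  have hle2 := neg_abs_le (Divisor.degree D)
  have h1 : 2 * g - 2 < Divisor.degree E := by rw [hdegE]; omega
  have h2 : 2 * g - 2 < Divisor.degree (E - D) := by rw [map_sub, hdegE]; omega
  have e1 := riemann_eq K F B Binf E h1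
  have e2 := riemann_eq K F B Binf (E - D) h2
  have e3 := finrank_riemannRochSpace_eq_of_ord K F B Binf hf E (E - D) (fun v => by
    rw [Finsupp.sub_apply, hD, divFun_apply])
  rw [e3, e2, map_sub] at e1
  linarith

include B Binf in
theorem hasPrincipalDivisors : HasPrincipalDivisors K F :=
  ⟨fun _ hf => ⟨divFun K F B Binf hf, fun _ => rfl, degree_divFun K F B Binf hf⟩⟩

end

end Fermat.Agent.S18lib.RRgen
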