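/-
S18lib / RRgen / Main (helper9)

**(RRgen)**: for `K` algebraically closed (any characteristic) and `F` finite separable over
`K(x)` (as a `RatFunc K`-algebra), with `B`, `B∞` the integral closures of `K[X]`, `A∞` in `F`:
`IsCurveOfGenus K F g` with `g = genus K F B B∞`, and the Riemann–Hurwitz formula
`2g - 2 = -2 [F : K(x)] + #factors (Diff B / K[X]) + #factors (Diff B∞ / A∞)`.
-/
import Mathlib
import Fermat.Agent.S18lib.RRgen.Principal
import Fermat.Agent.S18lib.Setup.CurveRR

set_option autoImplicit false
set_option linter.unusedSectionVars false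

noncomputable section

namespace Fermat.Agent.S18lib.RRgen

open Module Polynomial IsDedekindDomain AlgebraicCurve WithZero nonZeroDivisors
open UniqueFactorizationMonoid
open Fermat.Agent.ProgramR Fermat.Agent.ProgramR.RR Fermat.Agent.ProgramR.Alg

/-- the number of prime factors of a nonzero ideal of a Dedekind domain, prime by prime. -/
theorem card_normalizedFactors_eq_finsum {R : Type*} [CommRing R] [IsDedekindDomain R]
    (I : Ideal R) :
    Multiset.card (normalizedFactors I) =
      ∑ᶠ P : HeightOneSpectrum R, Multiset.count P.asIdeal (normalizedFactors I) := by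
  classical
  set s := normalizedFactors I with hs
  have e2 : ∑ᶠ P : HeightOneSpectrum R, Multiset.count P.asIdeal s
      = ∑ᶠ q ∈ Set.range (HeightOneSpectrum.asIdeal (R := R)), Multiset.count q s := by
    rw [finsum_mem_range (fun p p' h => HeightOneSpectrum.ext h)]
  rw [e2, ← Multiset.toFinset_sum_count_eq s]
  symm
  apply finsum_mem_eq_sum_of_inter_support_eq
  ext q
  simp only [Set.mem_inter_iff, Set.mem_range, Function.mem_support, Finset.mem_coe,
    Multiset.mem_toFinset, ne_eq, Multiset.count_eq_zero, not_not]
  constructor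
  · exact fun h => ⟨h.2, h.2⟩
  · rintro ⟨hq, -⟩
    have hp := prime_of_normalized_factor q hq
    exact ⟨⟨⟨q, Ideal.isPrime_of_prime hp, hp.ne_zero⟩, rfl⟩, hq⟩

section

variable (K : Type*) [Field K] [IsAlgClosed K]
  (F : Type*) [Field F] [Algebra (RatFunc K) F] [FiniteDimensional (RatFunc K) F]
  [Algebra.IsSeparable (RatFunc K) F] [Algebra K F] [IsScalarTower K (RatFunc K) F]
  (B : Type*) [CommRing B] [IsDedekindDomain B] [Algebra K[X] B] [Module.Finite K[X] B]
  [IsTorsionFree K[X] B] [Algebra B F] [IsFractionRing B F] [Algebra K[X] F]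
  [IsScalarTower K[X] (RatFunc K) F] [IsScalarTower K[X] B F]
  [Algebra K B] [IsScalarTower K B F]
  (Binf : Type*) [CommRing Binf] [IsDedekindDomain Binf] [Algebra (Ainf K) Binf]
  [Module.Finite (Ainf K) Binf] [IsTorsionFree (Ainf K) Binf] [Algebra Binf F]
  [IsFractionRing Binf F] [Algebra (Ainf K) F] [IsScalarTower (Ainf K) (RatFunc K) F]
  [IsScalarTower (Ainf K) Binf F]
  [Algebra K Binf] [IsScalarTower K Binf F]

/-- **(RRgen)**: `F / K` is a curve of genus `genus K F B Binf` in the sense of `IsCurveOfGenus`. -/
theorem isCurveOfGenus : IsCurveOfGenus K F (genus K F B Binf) where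
  hasPrincipalDivisors := hasPrincipalDivisors K F B Binf
  deg_eq_one := deg_eq_one K F B Binf
  infinite_places := infinite_places K F B
  riemannRochSpace_zero := riemannRochSpace_zero K F B Binf
  finiteDimensional := finite_riemannRochSpace K F B Binf
  riemann_le := riemann_le K F B Binf
  riemann_eq := riemann_eq K F B Binf

/-- degree of the discriminant of the finite chart = number of prime factors of the different. -/
theorem degFin_one :
    degFin K F B 1 = Multiset.card (normalizedFactors (differentIdeal K[X] B)) := by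
  obtain ⟨u, hu⟩ := exists_basis_latt_eq (k := K) K[X] B (1 : FractionalIdeal B⁰ F) one_ne_zero
  have hu' : Latt (Apoly K) u = (((1 : FractionalIdeal B⁰ F) : Submodule B F) : Set F) := hu
  rw [← degFin_eq K F B 1 one_ne_zero u hu']
  have hspan := (latt_eq_iff_span_eq K[X] u
    (((1 : FractionalIdeal B⁰ F) : Submodule B F).restrictScalars K[X])).mp hu
  rw [FractionalIdeal.coe_one] at hspan
  obtain ⟨d, hd, hcard⟩ := exists_card_factors_discr_eq K[X] (RatFunc K) F B u hspan (hres_fin K B)
  have hd0 : d ≠ 0 := by
    rintro rfl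
    rw [map_zero] at hd
    exact Algebra.discr_not_zero_of_basis (RatFunc K) u hd.symm
  rw [← hd, intDegree_algebraMap, ← card_normalizedFactors_span_eq_natDegree d hd0, hcard]

/-- degree of the discriminant of the chart at infinity. -/
theorem degInf_one :
    degInf K F Binf 1 =
      -(Multiset.card (normalizedFactors (differentIdeal (Ainf K) Binf)) : ℤ) := by
  obtain ⟨v, hv⟩ := exists_basis_latt_eq (k := K) (Ainf K) Binf (1 : FractionalIdeal Binf⁰ F)
    one_ne_zero
  have hv' : Latt (Ainf K) v = (((1 : FractionalIdeal Binf⁰ F) : Submodule Binf F) : Set F) := by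
    rw [← hv, range_algebraMap_Ainf]
  rw [← degInf_eq K F Binf 1 one_ne_zero v hv']
  have hspan := (latt_eq_iff_span_eq (Ainf K) v
    (((1 : FractionalIdeal Binf⁰ F) : Submodule Binf F).restrictScalars (Ainf K))).mp hv
  rw [FractionalIdeal.coe_one] at hspan
  obtain ⟨d, hd, hcard⟩ :=
    exists_card_factors_discr_eq (Ainf K) (RatFunc K) F Binf v hspan (hres_inf K Binf)
  have hd0 : d ≠ 0 := by
    rintro rfl
    rw [map_zero] at hd
    exact Algebra.discr_not_zero_of_basis (RatFunc K) v hd.symm
  have hd' : Algebra.discr (RatFunc K) v = (d : RatFunc K) := hd.symm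
  rw [hd', ← hcard, card_normalizedFactors_span_eq_neg_intDegree d hd0, neg_neg]

/-- **Riemann–Hurwitz** in "sum of different exponents" form. -/
theorem two_mul_genus_sub_two_eq :
    2 * (genus K F B Binf : ℤ) - 2 = -2 * (finrank (RatFunc K) F : ℤ)
      + Multiset.card (normalizedFactors (differentIdeal K[X] B))
      + Multiset.card (normalizedFactors (differentIdeal (Ainf K) Binf)) := by
  rw [two_mul_genus_sub_two K F B Binf, discConst, degFin_one, degInf_one]
  ring

/-- **(RRgen)**, existential form. -/
theorem exists_isCurveOfGenus :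
    ∃ g : ℕ, IsCurveOfGenus K F g ∧
      2 * (g : ℤ) - 2 = -2 * (finrank (RatFunc K) F : ℤ)
        + Multiset.card (normalizedFactors (differentIdeal K[X] B))
        + Multiset.card (normalizedFactors (differentIdeal (Ainf K) Binf)) :=
  ⟨genus K F B Binf, isCurveOfGenus K F B Binf, two_mul_genus_sub_two_eq K F B Binf⟩

end

end Fermat.Agent.S18lib.RRgen
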