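/-
S18lib / RRgen / Canonical (helper9)

The constructor for `(RRgen)`: the canonical instantiation of the variable block of `RRgen/Main`.

* Section `Charts`: `F` a `RatFunc K`-algebra, finite and separable, with a compatible
  `K[X]`-algebra structure: `BFin K F = integralClosure K[X] F`, `BInf K F = integralClosure A∞ F`
  satisfy all the hypotheses of `RRgen`; `genusCharts`, `isCurveOfGenus_charts`, `rh_charts`
  (Riemann–Hurwitz with the differents of the two charts), `rhLower_charts`, `rh_eq_charts`.
* Section `Transc`: for `x : F` transcendental over `K` the structures `polyAlgebra K x`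
  (`X ↦ x`), `ratFuncAlgebra K hx`, their compatibilities, and the transport of finiteness,
  degree and separability from `K⟮x⟯` to `RatFunc K`.
* Section `Main`: instance-free statements. For `K` algebraically closed (any characteristic),
  `x : F` transcendental over `K`, `F / K⟮x⟯` finite separable:
  `genusOf K hx`, `isCurveOfGenus_genusOf`, `rhLower_genusOf : Tame.RHLower K x [F : K(x)] g`,
  `rh_eq_genusOf` (characteristic `0`), `rh_genusOf` (the formula with the two differents),
  `exists_isCurveOfGenus_of_transcendental`, and the uniqueness of the genus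
  `IsCurveOfGenus.genus_unique`.
-/
import Mathlib
import Fermat.Agent.S18lib.RRgen.Main
import Fermat.Agent.S18lib.RHCount.RRgenSetting

set_option autoImplicit false
set_option linter.unusedSectionVars false
set_option linter.style.haveILetI false

noncomputable section

namespace Fermat.Agent.S18lib.RRgen.Canonical

open Module Polynomial IsDedekindDomain AlgebraicCurve IntermediateField
open UniqueFactorizationMonoid
open Fermat.Agent.ProgramR Fermat.Agent.ProgramR.RR Fermat.Agent.ProgramR.Alg

section Charts

variable (K : Type*) [Field K]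
  (F : Type*) [Field F] [Algebra K F] [Algebra (RatFunc K) F] [IsScalarTower K (RatFunc K) F]
  [Algebra K[X] F] [IsScalarTower K[X] (RatFunc K) F]

/-- The finite chart: the integral closure of `K[x]` in `F`. -/
abbrev BFin : Subalgebra K[X] F := integralClosure K[X] F

/-- The chart at infinity: the integral closure of `Ainf K` in `F`. -/
abbrev BInf : Subalgebra (Ainf K) F := integralClosure (Ainf K) F

theorem isScalarTower_const_poly : IsScalarTower K K[X] F :=
  IsScalarTower.of_algebraMap_eq fun c => by
    rw [IsScalarTower.algebraMap_apply K[X] (RatFunc K) F, IsScalarTower.algebraMap_apply K (RatFunc K) F]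
    congr 1

theorem isScalarTower_ainf_ratFunc : IsScalarTower (Ainf K) (RatFunc K) F :=
  IsScalarTower.of_algebraMap_eq fun _ => rfl

theorem isScalarTower_const_ainf : IsScalarTower K (Ainf K) F :=
  IsScalarTower.of_algebraMap_eq fun a => by
    rw [IsScalarTower.algebraMap_apply K (RatFunc K) F]
    rfl

attribute [local instance] isScalarTower_const_poly isScalarTower_ainf_ratFunc
  isScalarTower_const_ainf

/-- the `K`-algebra structure of the chart at infinity. -/
@[reducible] def algebraBInf : Algebra K (BInf K F) := Subalgebra.algebra' (BInf K F)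

attribute [local instance] algebraBInf

theorem isScalarTower_const_BFin : IsScalarTower K (BFin K F) F :=
  IsScalarTower.of_algebraMap_eq fun _ => rfl

theorem isScalarTower_const_BInf : IsScalarTower K (BInf K F) F :=
  IsScalarTower.of_algebraMap_eq fun _ => rfl

theorem algebraMap_poly_injective : Function.Injective (algebraMap K[X] F) := by
  rw [IsScalarTower.algebraMap_eq K[X] (RatFunc K) F]
  exact (algebraMap (RatFunc K) F).injective.comp (RatFunc.algebraMap_injective K)

theorem isTorsionFree_BFin : IsTorsionFree K[X] (BFin K F) := by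
  have hinj : Function.Injective (algebraMap K[X] (BFin K F)) := by
    intro a b hab
    have h2 := congrArg (algebraMap (BFin K F) F) hab
    rw [← IsScalarTower.algebraMap_apply, ← IsScalarTower.algebraMap_apply] at h2
    exact algebraMap_poly_injective K F h2
  exact Module.isTorsionFree_iff_algebraMap_injective.mpr hinj

theorem isTorsionFree_BInf : IsTorsionFree (Ainf K) (BInf K F) := by
  have hinj : Function.Injective (algebraMap (Ainf K) (BInf K F)) := by
    intro a b hab
    have h2 := congrArg (algebraMap (BInf K F) F) hab
    rw [← IsScalarTower.algebraMap_apply, ← IsScalarTower.algebraMap_apply,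
      IsScalarTower.algebraMap_apply (Ainf K) (RatFunc K) F,
      IsScalarTower.algebraMap_apply (Ainf K) (RatFunc K) F] at h2
    exact Subtype.ext ((algebraMap (RatFunc K) F).injective h2)
  exact Module.isTorsionFree_iff_algebraMap_injective.mpr hinj

variable [FiniteDimensional (RatFunc K) F] [Algebra.IsSeparable (RatFunc K) F]

theorem isFractionRing_BFin : IsFractionRing (BFin K F) F :=
  integralClosure.isFractionRing_of_finite_extension (RatFunc K) F

theorem isDedekindDomain_BFin : IsDedekindDomain (BFin K F) :=
  integralClosure.isDedekindDomain K[X] (RatFunc K) F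

theorem finite_BFin : Module.Finite K[X] (BFin K F) :=
  IsIntegralClosure.finite K[X] (RatFunc K) F (BFin K F)

theorem isFractionRing_BInf : IsFractionRing (BInf K F) F :=
  integralClosure.isFractionRing_of_finite_extension (RatFunc K) F

theorem isDedekindDomain_BInf : IsDedekindDomain (BInf K F) :=
  integralClosure.isDedekindDomain (Ainf K) (RatFunc K) F

theorem finite_BInf : Module.Finite (Ainf K) (BInf K F) :=
  IsIntegralClosure.finite (Ainf K) (RatFunc K) F (BInf K F)

attribute [local instance] isScalarTower_const_BFin isScalarTower_const_BInf isTorsionFree_BFin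
  isTorsionFree_BInf isFractionRing_BFin isDedekindDomain_BFin finite_BFin isFractionRing_BInf
  isDedekindDomain_BInf finite_BInf

variable [IsAlgClosed K]

/-- the genus of `F / K` computed from the canonical charts. -/
def genusCharts : ℕ := genus K F (BFin K F) (BInf K F)

theorem isCurveOfGenus_charts : IsCurveOfGenus K F (genusCharts K F) :=
  isCurveOfGenus K F (BFin K F) (BInf K F)

theorem rh_charts :
    2 * (genusCharts K F : ℤ) - 2 = -2 * (finrank (RatFunc K) F : ℤ)
      + Multiset.card (normalizedFactors (differentIdeal K[X] (BFin K F)))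
      + Multiset.card (normalizedFactors (differentIdeal (Ainf K) (BInf K F))) :=
  two_mul_genus_sub_two_eq K F (BFin K F) (BInf K F)

theorem rhLower_charts :
    Tame.RHLower K (algebraMap (RatFunc K) F RatFunc.X) (finrank (RatFunc K) F)
      (genusCharts K F) :=
  RHCount.rhLower K F (BFin K F) (BInf K F) (rh_charts K F)

theorem rh_eq_charts [CharZero K] (S : Finset K)
    (hS : ∀ a : K, a ∉ S → ∀ P : Place K F,
      0 < P.ord (algebraMap (RatFunc K) F RatFunc.X - algebraMap K F a) →
      P.ord (algebraMap (RatFunc K) F RatFunc.X - algebraMap K F a) = 1) :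
    2 * (genusCharts K F : ℤ) - 2 =
      (∑ a ∈ S, ((finrank (RatFunc K) F : ℤ) - Nat.card (Tame.zerosOf (K := K)
        (algebraMap (RatFunc K) F RatFunc.X - algebraMap K F a))))
        + ((finrank (RatFunc K) F : ℤ) - Nat.card (Tame.polesOf (K := K)
          (algebraMap (RatFunc K) F RatFunc.X))) - 2 * (finrank (RatFunc K) F : ℤ) :=
  RHCount.rh_eq K F (BFin K F) (BInf K F) (rh_charts K F) S hS

end Charts

section Transc

variable (K : Type*) [Field K] {F : Type*} [Field F] [Algebra K F] (x : F)

/-- The `K[X]`-algebra structure `X ↦ x` on `F`. -/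
@[reducible] def polyAlgebra : Algebra K[X] F := (Polynomial.aeval x).toRingHom.toAlgebra

theorem algebraMap_polyAlgebra (p : K[X]) :
    letI := polyAlgebra K x
    algebraMap K[X] F p = Polynomial.aeval x p := rfl

variable {x} (hx : Transcendental K x)

include hx in
theorem aeval_injective : Function.Injective ((Polynomial.aeval x : K[X] →ₐ[K] F).toRingHom) :=
  transcendental_iff_injective.mp hx

/-- The `RatFunc K`-algebra structure `X ↦ x` on `F`, for `x` transcendental over `K`. -/
@[reducible] def ratFuncAlgebra : Algebra (RatFunc K) F :=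
  (IsFractionRing.lift (K := RatFunc K) (aeval_injective K hx)).toAlgebra

theorem algebraMap_ratFuncAlgebra_algebraMap (p : K[X]) :
    letI := ratFuncAlgebra K hx
    algebraMap (RatFunc K) F (algebraMap K[X] (RatFunc K) p) = Polynomial.aeval x p :=
  IsFractionRing.lift_algebraMap (aeval_injective K hx) p

theorem isScalarTower_poly_ratFunc :
    letI := polyAlgebra K x
    letI := ratFuncAlgebra K hx
    IsScalarTower K[X] (RatFunc K) F :=
  letI := polyAlgebra K x
  letI := ratFuncAlgebra K hx
  IsScalarTower.of_algebraMap_eq fun p => (algebraMap_ratFuncAlgebra_algebraMap K hx p).symm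

theorem isScalarTower_const_ratFunc :
    letI := ratFuncAlgebra K hx
    IsScalarTower K (RatFunc K) F := by
  letI := ratFuncAlgebra K hx
  refine IsScalarTower.of_algebraMap_eq fun c => ?_
  have h1 : algebraMap K (RatFunc K) c = algebraMap K[X] (RatFunc K) (C c) := by
    rw [RatFunc.algebraMap_C]; rfl
  rw [h1, algebraMap_ratFuncAlgebra_algebraMap, Polynomial.aeval_C]

theorem algebraMap_ratFuncAlgebra_X :
    letI := ratFuncAlgebra K hx
    algebraMap (RatFunc K) F RatFunc.X = x := by
  letI := ratFuncAlgebra K hx
  rw [← RatFunc.algebraMap_X, algebraMap_ratFuncAlgebra_algebraMap, Polynomial.aeval_X]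

/-- the comparison with `K⟮x⟯`. -/
theorem algebraMap_comp_algEquiv :
    letI := ratFuncAlgebra K hx
    (algebraMap K⟮x⟯ F).comp ((RatFunc.algEquivOfTranscendental x hx : RatFunc K ≃+* K⟮x⟯) :
      RatFunc K →+* K⟮x⟯) = algebraMap (RatFunc K) F := by
  letI := ratFuncAlgebra K hx
  apply IsLocalization.ringHom_ext (nonZeroDivisors K[X])
  refine RingHom.ext fun p => ?_
  simp only [RingHom.coe_comp, Function.comp_apply, RingHom.coe_coe]
  rw [algebraMap_ratFuncAlgebra_algebraMap]
  have h1 := RatFunc.algEquivOfTranscendental_algebraMap x hx p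
  have h2 : (RatFunc.algEquivOfTranscendental x hx : RatFunc K ≃+* K⟮x⟯)
      (algebraMap K[X] (RatFunc K) p) = Polynomial.aeval (AdjoinSimple.gen K x) p := h1
  rw [h2, ← Polynomial.aeval_algebraMap_apply, AdjoinSimple.algebraMap_gen]

variable [FiniteDimensional K⟮x⟯ F]

theorem finiteDimensional_ratFunc :
    letI := ratFuncAlgebra K hx
    FiniteDimensional (RatFunc K) F :=
  letI := ratFuncAlgebra K hx
  Module.Finite.of_equiv_equiv (A₁ := K⟮x⟯) (B₁ := F)
    (RatFunc.algEquivOfTranscendental x hx : RatFunc K ≃+* K⟮x⟯).symm (RingEquiv.refl F) (by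
      rw [← algebraMap_comp_algEquiv K hx]
      ext r
      simp)

theorem finrank_ratFunc :
    letI := ratFuncAlgebra K hx
    finrank (RatFunc K) F = finrank K⟮x⟯ F :=
  letI := ratFuncAlgebra K hx
  Algebra.finrank_eq_of_equiv_equiv
    (RatFunc.algEquivOfTranscendental x hx : RatFunc K ≃+* K⟮x⟯) (RingEquiv.refl F) (by
      rw [← algebraMap_comp_algEquiv K hx]
      ext r
      simp)

theorem isSeparable_ratFunc [Algebra.IsSeparable K⟮x⟯ F] :
    letI := ratFuncAlgebra K hx
    Algebra.IsSeparable (RatFunc K) F :=
  letI := ratFuncAlgebra K hx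
  Algebra.IsSeparable.of_equiv_equiv (A₁ := K⟮x⟯) (B₁ := F)
    (RatFunc.algEquivOfTranscendental x hx : RatFunc K ≃+* K⟮x⟯).symm (RingEquiv.refl F) (by
      rw [← algebraMap_comp_algEquiv K hx]
      ext r
      simp)

end Transc

section Main

variable (K : Type*) [Field K] [IsAlgClosed K] {F : Type*} [Field F] [Algebra K F] {x : F}
  (hx : Transcendental K x) [FiniteDimensional K⟮x⟯ F] [Algebra.IsSeparable K⟮x⟯ F]

/-- The genus of `F / K`, computed from the covering `x : F → ℙ¹`. -/
def genusOf : ℕ :=
  letI := polyAlgebra K x
  letI := ratFuncAlgebra K hx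
  haveI := isScalarTower_poly_ratFunc K hx
  haveI := isScalarTower_const_ratFunc K hx
  haveI := finiteDimensional_ratFunc K hx
  haveI := isSeparable_ratFunc K hx
  genusCharts K F

/-- **(RRgen), instance-free**: `F / K` is a curve of genus `genusOf K hx`. -/
theorem isCurveOfGenus_genusOf : IsCurveOfGenus K F (genusOf K hx) := by
  letI := polyAlgebra K x
  letI := ratFuncAlgebra K hx
  haveI := isScalarTower_poly_ratFunc K hx
  haveI := isScalarTower_const_ratFunc K hx
  haveI := finiteDimensional_ratFunc K hx
  haveI := isSeparable_ratFunc K hx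
  exact isCurveOfGenus_charts K F

/-- **Riemann–Hurwitz lower bound, instance-free** (any characteristic). -/
theorem rhLower_genusOf : Tame.RHLower K x (finrank K⟮x⟯ F) (genusOf K hx) := by
  letI := polyAlgebra K x
  letI := ratFuncAlgebra K hx
  haveI := isScalarTower_poly_ratFunc K hx
  haveI := isScalarTower_const_ratFunc K hx
  haveI := finiteDimensional_ratFunc K hx
  haveI := isSeparable_ratFunc K hx
  have h := rhLower_charts K F
  rw [algebraMap_ratFuncAlgebra_X K hx, finrank_ratFunc K hx] at h
  exact h

/-- **Riemann–Hurwitz, instance-free** (characteristic `0`, `S` ⊇ the finite branch values). -/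
theorem rh_eq_genusOf [CharZero K] (S : Finset K)
    (hS : ∀ a : K, a ∉ S → ∀ P : Place K F,
      0 < P.ord (x - algebraMap K F a) → P.ord (x - algebraMap K F a) = 1) :
    2 * (genusOf K hx : ℤ) - 2 =
      (∑ a ∈ S, ((finrank K⟮x⟯ F : ℤ) - Nat.card (Tame.zerosOf (K := K) (x - algebraMap K F a))))
        + ((finrank K⟮x⟯ F : ℤ) - Nat.card (Tame.polesOf (K := K) x))
        - 2 * (finrank K⟮x⟯ F : ℤ) := by
  letI := polyAlgebra K x
  letI := ratFuncAlgebra K hx
  haveI := isScalarTower_poly_ratFunc K hx
  haveI := isScalarTower_const_ratFunc K hx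
  haveI := finiteDimensional_ratFunc K hx
  haveI := isSeparable_ratFunc K hx
  have h := rh_eq_charts K F S (by rw [algebraMap_ratFuncAlgebra_X K hx]; exact hS)
  rw [algebraMap_ratFuncAlgebra_X K hx, finrank_ratFunc K hx] at h
  exact h

/-- **Riemann–Hurwitz with the differents of the two canonical charts** of the covering `x`
(any characteristic). The instances in the statement are the canonical ones of this file. -/
theorem rh_genusOf :
    letI := polyAlgebra K x
    letI := ratFuncAlgebra K hx
    haveI := isScalarTower_poly_ratFunc K hx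
    haveI := isScalarTower_const_ratFunc K hx
    haveI := finiteDimensional_ratFunc K hx
    haveI := isSeparable_ratFunc K hx
    haveI := isTorsionFree_BFin K F
    haveI := isTorsionFree_BInf K F
    haveI := isDedekindDomain_BFin K F
    haveI := isDedekindDomain_BInf K F
    2 * (genusOf K hx : ℤ) - 2 = -2 * (finrank K⟮x⟯ F : ℤ)
      + Multiset.card (normalizedFactors (differentIdeal K[X] (BFin K F)))
      + Multiset.card (normalizedFactors (differentIdeal (Ainf K) (BInf K F))) := by
  letI := polyAlgebra K x
  letI := ratFuncAlgebra K hx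
  haveI := isScalarTower_poly_ratFunc K hx
  haveI := isScalarTower_const_ratFunc K hx
  haveI := finiteDimensional_ratFunc K hx
  haveI := isSeparable_ratFunc K hx
  have h := rh_charts K F
  rw [finrank_ratFunc K hx] at h
  exact h

include hx in
/-- existence form. -/
theorem exists_isCurveOfGenus_of_transcendental :
    ∃ g : ℕ, IsCurveOfGenus K F g ∧ Tame.RHLower K x (finrank K⟮x⟯ F) g :=
  ⟨genusOf K hx, isCurveOfGenus_genusOf K hx, rhLower_genusOf K hx⟩

end Main

/-- The genus in `IsCurveOfGenus` is unique. -/
theorem genus_unique {K F : Type*} [Field K] [Field F] [Algebra K F] {g g' : ℕ}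
    (h : IsCurveOfGenus K F g) (h' : IsCurveOfGenus K F g') : g = g' := by
  have := h.infinite_places
  obtain ⟨P⟩ : Nonempty (Place K F) := inferInstance
  set n : ℤ := 2 * (g : ℤ) + 2 * (g' : ℤ) with hn
  have hdeg : Divisor.degree (Finsupp.single P n : Divisor K F) = n := by
    rw [Divisor.degree_single, h.deg_eq_one P]; simp
  have h1 := h.riemann_eq (Finsupp.single P n) (by rw [hdeg]; omega)
  have h2 := h'.riemann_eq (Finsupp.single P n) (by rw [hdeg]; omega)
  rw [hdeg] at h1 h2
  omega

/-- The genus does not depend on the separating element. -/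
theorem genusOf_eq_of_isCurveOfGenus (K : Type*) [Field K] [IsAlgClosed K] {F : Type*} [Field F]
    [Algebra K F] {x : F} (hx : Transcendental K x) [FiniteDimensional K⟮x⟯ F]
    [Algebra.IsSeparable K⟮x⟯ F] {g : ℕ} (h : IsCurveOfGenus K F g) : genusOf K hx = g :=
  genus_unique (isCurveOfGenus_genusOf K hx) h

end Fermat.Agent.S18lib.RRgen.Canonical
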