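/-
S18lib / RRgen / Luroth (helper9)

**(Haupt-deg)**: degree and separability along a rational relation, instance-free.

`K` a field (any characteristic), `F ⊇ K` a field, `μ : F` transcendental over `K`,
`Nn D : K[X]` coprime, `D ≠ 0`, and `j : F` with `j * D(μ) = Nn(μ)`. Then
* `mem_adjoin_of_relation : j ∈ K⟮μ⟯`,
* `finrank_adjoin_of_relation : [F : K(j)] = max (deg Nn) (deg D) * [F : K(μ)]`
  (from Mathlib's `RatFunc.finrank_eq_max_natDegree`),
* `finiteDimensional_of_relation`, `isSeparable_of_relation`: finiteness / separability of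
  `F / K(j)` descend to `F / K(μ)`,
* `transcendental_of_relation` (`j` transcendental if the function is not constant) and the
  converse `transcendental_gen_of_relation` (`μ` transcendental if `j` is; no hypothesis on `μ`).
Concrete data for the Hauptmoduln of `X₀(4)` and `X₀(9)`: `Nn4 D4 Nn9 D9`, their degrees
`6, 5, 12, 11`, coprimality over any field where `2` (resp. `3`) is invertible, and the
corollaries `finrank_of_mu4`, `finrank_of_mu9` etc.
-/
import Mathlib
import Fermat.Agent.S18lib.RRgen.Canonical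

set_option autoImplicit false
set_option linter.unusedSectionVars false
set_option linter.style.haveILetI false

noncomputable section

namespace Fermat.Agent.S18lib.RRgen.Luroth

open Module Polynomial IntermediateField
open Fermat.Agent.S18lib.RRgen.Canonical

section NumDenom

variable {K : Type*} [Field K]

theorem natDegree_num_div_of_isCoprime {p q : K[X]} (hq : q ≠ 0) (h : IsCoprime p q) :
    (algebraMap K[X] (RatFunc K) p / algebraMap K[X] (RatFunc K) q).num.natDegree = p.natDegree ∧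
    (algebraMap K[X] (RatFunc K) p / algebraMap K[X] (RatFunc K) q).denom.natDegree =
      q.natDegree := by
  set f := algebraMap K[X] (RatFunc K) p / algebraMap K[X] (RatFunc K) q with hf
  have h1 : f.num ∣ p := RatFunc.num_div_dvd p hq
  have h2 : f.denom ∣ q := RatFunc.denom_div_dvd p q
  have h3 : f.num * q = p * f.denom := (RatFunc.num_mul_eq_mul_denom_iff hq).mpr rfl
  have h4 : p ∣ f.num := h.dvd_of_dvd_mul_right ⟨f.denom, h3⟩
  have h5 : q ∣ f.denom := by
    refine h.symm.dvd_of_dvd_mul_left ?_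
    exact ⟨f.num, by rw [← h3]; ring⟩
  exact ⟨natDegree_eq_of_degree_eq (degree_eq_degree_of_associated
      (associated_of_dvd_dvd h1 h4)),
    natDegree_eq_of_degree_eq (degree_eq_degree_of_associated (associated_of_dvd_dvd h2 h5))⟩

end NumDenom

section Abstract

variable (K : Type*) [Field K] {F : Type*} [Field F] [Algebra K F] {μ : F}
  (hμ : Transcendental K μ)

/-- The `K`-embedding `RatFunc K → F`, `X ↦ μ`. -/
def ratFuncHom : RatFunc K →ₐ[K] F :=
  (IntermediateField.val K⟮μ⟯).comp (RatFunc.algEquivOfTranscendental μ hμ).toAlgHom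

theorem ratFuncHom_algebraMap (p : K[X]) :
    ratFuncHom K hμ (algebraMap K[X] (RatFunc K) p) = Polynomial.aeval μ p := by
  show ((RatFunc.algEquivOfTranscendental μ hμ (algebraMap K[X] (RatFunc K) p) : K⟮μ⟯) : F) = _
  rw [RatFunc.algEquivOfTranscendental_algebraMap]
  rw [← IntermediateField.algebraMap_apply, ← Polynomial.aeval_algebraMap_apply,
    AdjoinSimple.algebraMap_gen]

theorem ratFuncHom_eq_algebraMap (r : RatFunc K) :
    letI := ratFuncAlgebra K hμ
    ratFuncHom K hμ r = algebraMap (RatFunc K) F r := by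
  letI := ratFuncAlgebra K hμ
  have h := algebraMap_comp_algEquiv K hμ
  exact congrArg (fun φ : RatFunc K →+* F => φ r) h

theorem ratFuncHom_div (p q : K[X]) :
    ratFuncHom K hμ (algebraMap K[X] (RatFunc K) p / algebraMap K[X] (RatFunc K) q) =
      Polynomial.aeval μ p / Polynomial.aeval μ q := by
  rw [map_div₀, ratFuncHom_algebraMap, ratFuncHom_algebraMap]

variable (f : RatFunc K)

theorem map_adjoin_ratFuncHom : (K⟮f⟯).map (ratFuncHom K hμ) = K⟮ratFuncHom K hμ f⟯ := by
  rw [adjoin_map, Set.image_singleton]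

/-- `K(f) ≃ K(j)` for `j = f(μ)`. -/
def adjoinEquiv : K⟮f⟯ ≃ₐ[K] K⟮ratFuncHom K hμ f⟯ :=
  (equivMap K⟮f⟯ (ratFuncHom K hμ)).trans (equivOfEq (map_adjoin_ratFuncHom K hμ f))

theorem coe_adjoinEquiv (y : K⟮f⟯) :
    ((adjoinEquiv K hμ f y : K⟮ratFuncHom K hμ f⟯) : F) = ratFuncHom K hμ (y : RatFunc K) := rfl

theorem adjoinEquiv_comm :
    letI := ratFuncAlgebra K hμ
    (algebraMap K⟮ratFuncHom K hμ f⟯ F).comp (adjoinEquiv K hμ f).toRingEquiv.toRingHom =
      (RingEquiv.refl F).toRingHom.comp (algebraMap K⟮f⟯ F) := by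
  letI := ratFuncAlgebra K hμ
  refine RingHom.ext fun y => ?_
  show ((adjoinEquiv K hμ f y : K⟮ratFuncHom K hμ f⟯) : F) = algebraMap K⟮f⟯ F y
  rw [coe_adjoinEquiv, ratFuncHom_eq_algebraMap]
  rfl

/-- `[F : K(X)] = [F : K(μ)]` (no finiteness assumption). -/
theorem finrank_ratFunc' :
    letI := ratFuncAlgebra K hμ
    finrank (RatFunc K) F = finrank K⟮μ⟯ F :=
  letI := ratFuncAlgebra K hμ
  Algebra.finrank_eq_of_equiv_equiv
    (RatFunc.algEquivOfTranscendental μ hμ : RatFunc K ≃+* K⟮μ⟯) (RingEquiv.refl F) (by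
      rw [← algebraMap_comp_algEquiv K hμ]
      ext r
      simp)

theorem finrank_adjoin_ratFuncHom :
    finrank K⟮ratFuncHom K hμ f⟯ F =
      max f.num.natDegree f.denom.natDegree * finrank K⟮μ⟯ F := by
  letI := ratFuncAlgebra K hμ
  have h1 : finrank K⟮f⟯ F = finrank K⟮ratFuncHom K hμ f⟯ F :=
    Algebra.finrank_eq_of_equiv_equiv (adjoinEquiv K hμ f).toRingEquiv (RingEquiv.refl F)
      (adjoinEquiv_comm K hμ f)
  rw [← h1, ← Module.finrank_mul_finrank K⟮f⟯ (RatFunc K) F, RatFunc.finrank_eq_max_natDegree,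
    finrank_ratFunc' K hμ]

theorem adjoinEquiv_symm_comm :
    letI := ratFuncAlgebra K hμ
    (algebraMap K⟮f⟯ F).comp
        ((adjoinEquiv K hμ f).toRingEquiv.symm : K⟮ratFuncHom K hμ f⟯ →+* K⟮f⟯) =
      ((RingEquiv.refl F : F ≃+* F) : F →+* F).comp (algebraMap K⟮ratFuncHom K hμ f⟯ F) := by
  letI := ratFuncAlgebra K hμ
  refine RingHom.ext fun y => ?_
  have h := congrArg (fun φ : K⟮f⟯ →+* F => φ ((adjoinEquiv K hμ f).toRingEquiv.symm y))
    (adjoinEquiv_comm K hμ f)
  simp only [RingHom.coe_comp, Function.comp_apply, RingEquiv.toRingHom_eq_coe,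
    RingHom.coe_coe, RingEquiv.apply_symm_apply, RingEquiv.refl_apply] at h
  simp only [RingHom.coe_comp, Function.comp_apply, RingHom.coe_coe, RingEquiv.refl_apply]
  exact h.symm

theorem algEquiv_symm_comm :
    letI := ratFuncAlgebra K hμ
    (algebraMap K⟮μ⟯ F).comp
        ((RatFunc.algEquivOfTranscendental μ hμ : RatFunc K ≃+* K⟮μ⟯) : RatFunc K →+* K⟮μ⟯) =
      ((RingEquiv.refl F : F ≃+* F) : F →+* F).comp (algebraMap (RatFunc K) F) := by
  letI := ratFuncAlgebra K hμ
  rw [algebraMap_comp_algEquiv K hμ]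
  ext r
  simp

/-- finiteness descends from `K(j)` to `K(μ)`. -/
theorem finiteDimensional_of_ratFuncHom [FiniteDimensional K⟮ratFuncHom K hμ f⟯ F] :
    FiniteDimensional K⟮μ⟯ F := by
  letI := ratFuncAlgebra K hμ
  haveI h1 : Module.Finite K⟮f⟯ F :=
    Module.Finite.of_equiv_equiv (A₁ := K⟮ratFuncHom K hμ f⟯) (B₁ := F)
      (adjoinEquiv K hμ f).toRingEquiv.symm (RingEquiv.refl F) (adjoinEquiv_symm_comm K hμ f)
  haveI h2 : Module.Finite (RatFunc K) F := Module.Finite.right K⟮f⟯ (RatFunc K) F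
  exact Module.Finite.of_equiv_equiv (A₁ := RatFunc K) (B₁ := F)
    (RatFunc.algEquivOfTranscendental μ hμ : RatFunc K ≃+* K⟮μ⟯) (RingEquiv.refl F)
    (algEquiv_symm_comm K hμ)

/-- separability descends from `K(j)` to `K(μ)`. -/
theorem isSeparable_of_ratFuncHom [Algebra.IsSeparable K⟮ratFuncHom K hμ f⟯ F] :
    Algebra.IsSeparable K⟮μ⟯ F := by
  letI := ratFuncAlgebra K hμ
  haveI h1 : Algebra.IsSeparable K⟮f⟯ F :=
    Algebra.IsSeparable.of_equiv_equiv (A₁ := K⟮ratFuncHom K hμ f⟯) (B₁ := F)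
      (adjoinEquiv K hμ f).toRingEquiv.symm (RingEquiv.refl F) (adjoinEquiv_symm_comm K hμ f)
  haveI h2 : Algebra.IsSeparable (RatFunc K) F :=
    Algebra.isSeparable_tower_top_of_isSeparable K⟮f⟯ (RatFunc K) F
  exact Algebra.IsSeparable.of_equiv_equiv (A₁ := RatFunc K) (B₁ := F)
    (RatFunc.algEquivOfTranscendental μ hμ : RatFunc K ≃+* K⟮μ⟯) (RingEquiv.refl F)
    (algEquiv_symm_comm K hμ)

theorem ratFuncHom_mem (r : RatFunc K) : ratFuncHom K hμ r ∈ K⟮μ⟯ :=
  (RatFunc.algEquivOfTranscendental μ hμ r).2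

/-- a non-constant rational function of a transcendental element is transcendental. -/
theorem transcendental_ratFuncHom (hf : 0 < max f.num.natDegree f.denom.natDegree) :
    Transcendental K (ratFuncHom K hμ f) := by
  have h1 : Transcendental K f := by
    apply RatFunc.transcendental_of_ne_C
    intro hc
    have := (RatFunc.eq_C_iff f).mp hc
    omega
  intro halg
  exact h1 ((isAlgebraic_algHom_iff (ratFuncHom K hμ) (ratFuncHom K hμ).injective).mp halg)

end Abstract

section Relation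

variable (K : Type*) [Field K] {F : Type*} [Field F] [Algebra K F] {μ j : F}
  (hμ : Transcendental K μ) {Nn D : K[X]} (hD : D ≠ 0) (hcop : IsCoprime Nn D)
  (hrel : j * Polynomial.aeval μ D = Polynomial.aeval μ Nn)

include hμ hD hrel in
theorem eq_ratFuncHom_of_relation :
    j = ratFuncHom K hμ (algebraMap K[X] (RatFunc K) Nn / algebraMap K[X] (RatFunc K) D) := by
  have h0 : Polynomial.aeval μ D ≠ 0 := fun h => hD ((transcendental_iff.mp hμ) D h)
  rw [ratFuncHom_div, eq_div_iff h0, hrel]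

include hμ hD hrel in
/-- `j ∈ K(μ)`. -/
theorem mem_adjoin_of_relation : j ∈ K⟮μ⟯ := by
  rw [eq_ratFuncHom_of_relation K hμ hD hrel]
  exact ratFuncHom_mem K hμ _

include hμ hD hcop hrel in
/-- **degree along a rational relation**: if `j = Nn(μ)/D(μ)` with `Nn, D` coprime then
`[F : K(j)] = max (deg Nn) (deg D) · [F : K(μ)]`. -/
theorem finrank_adjoin_of_relation :
    finrank K⟮j⟯ F = max Nn.natDegree D.natDegree * finrank K⟮μ⟯ F := by
  have h := finrank_adjoin_ratFuncHom K hμ
    (algebraMap K[X] (RatFunc K) Nn / algebraMap K[X] (RatFunc K) D)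
  rw [← eq_ratFuncHom_of_relation K hμ hD hrel] at h
  obtain ⟨h1, h2⟩ := natDegree_num_div_of_isCoprime hD hcop
  rw [h, h1, h2]

include hμ hD hrel in
/-- finiteness descends from `K(j)` to `K(μ)`. -/
theorem finiteDimensional_of_relation [FiniteDimensional K⟮j⟯ F] : FiniteDimensional K⟮μ⟯ F := by
  have hj := eq_ratFuncHom_of_relation K hμ hD hrel
  subst hj
  exact finiteDimensional_of_ratFuncHom K hμ
    (algebraMap K[X] (RatFunc K) Nn / algebraMap K[X] (RatFunc K) D)

include hμ hD hrel in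
/-- separability descends from `K(j)` to `K(μ)`. -/
theorem isSeparable_of_relation [Algebra.IsSeparable K⟮j⟯ F] : Algebra.IsSeparable K⟮μ⟯ F := by
  have hj := eq_ratFuncHom_of_relation K hμ hD hrel
  subst hj
  exact isSeparable_of_ratFuncHom K hμ
    (algebraMap K[X] (RatFunc K) Nn / algebraMap K[X] (RatFunc K) D)

include hμ hD hcop hrel in
/-- `j` is transcendental as soon as the rational function is not constant. -/
theorem transcendental_of_relation (hdeg : 0 < max Nn.natDegree D.natDegree) :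
    Transcendental K j := by
  rw [eq_ratFuncHom_of_relation K hμ hD hrel]
  apply transcendental_ratFuncHom
  obtain ⟨h1, h2⟩ := natDegree_num_div_of_isCoprime hD hcop
  rw [h1, h2]
  exact hdeg

end Relation

section Converse

theorem aeval_mem_of_mem {K F : Type*} [Field K] [Field F] [Algebra K F] (S : IntermediateField K F)
    {μ : F} (h : μ ∈ S) (p : K[X]) : Polynomial.aeval μ p ∈ S := by
  have := IntermediateField.aeval_coe S (⟨μ, h⟩ : S) p
  rw [this]
  exact (Polynomial.aeval (⟨μ, h⟩ : S) p).2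

/-- conversely, `μ` is transcendental as soon as `j` is. -/
theorem transcendental_gen_of_relation (K : Type*) [Field K] {F : Type*} [Field F] [Algebra K F]
    {μ j : F} (hj : Transcendental K j) {Nn D : K[X]} (hcop : IsCoprime Nn D)
    (hrel : j * Polynomial.aeval μ D = Polynomial.aeval μ Nn) : Transcendental K μ := by
  intro halg
  have hμ : μ ∈ algebraicClosure K F := mem_algebraicClosure_iff.mpr halg
  have hD0 : Polynomial.aeval μ D ≠ 0 := by
    intro h0
    obtain ⟨u, v, huv⟩ := hcop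
    have h1 := congrArg (Polynomial.aeval μ) huv
    rw [map_add, map_mul, map_mul, ← hrel, h0, map_one] at h1
    simp at h1
  have hjeq : j = Polynomial.aeval μ Nn / Polynomial.aeval μ D := by
    rw [eq_div_iff hD0, hrel]
  apply hj
  rw [← mem_algebraicClosure_iff, hjeq]
  exact div_mem (aeval_mem_of_mem _ hμ Nn) (aeval_mem_of_mem _ hμ D)

end Converse

section Concrete

variable (K : Type*) [Field K]

/-- numerator of `j` as a function of the Hauptmodul `μ₄` of `X₀(4)`. -/
def Nn4 : K[X] := (X ^ 2 + 256 * X + 4096) ^ 3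
/-- denominator of `j` as a function of the Hauptmodul `μ₄` of `X₀(4)`. -/
def D4 : K[X] := X ^ 4 * (X + 16)
/-- numerator of `j` as a function of the Hauptmodul `μ₉` of `X₀(9)`. -/
def Nn9 : K[X] := (X + 9) ^ 3 * (X ^ 3 + 243 * X ^ 2 + 2187 * X + 6561) ^ 3
/-- denominator of `j` as a function of the Hauptmodul `μ₉` of `X₀(9)`. -/
def D9 : K[X] := X ^ 9 * (X ^ 2 + 9 * X + 27)

theorem natDegree_Nn4 : (Nn4 K).natDegree = 6 := by
  unfold Nn4
  have h : (X ^ 2 + 256 * X + 4096 : K[X]).natDegree = 2 := by compute_degree!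
  rw [natDegree_pow, h]

theorem natDegree_D4 : (D4 K).natDegree = 5 := by
  unfold D4
  compute_degree!

theorem natDegree_Nn9 : (Nn9 K).natDegree = 12 := by
  unfold Nn9
  compute_degree!

theorem natDegree_D9 : (D9 K).natDegree = 11 := by
  unfold D9
  compute_degree!

theorem D4_ne_zero : D4 K ≠ 0 := fun h => by
  have := natDegree_D4 K
  rw [h, natDegree_zero] at this
  omega

theorem D9_ne_zero : D9 K ≠ 0 := fun h => by
  have := natDegree_D9 K
  rw [h, natDegree_zero] at this
  omega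

/-- helper: a Bezout identity with constant right-hand side `c ≠ 0`. -/
theorem isCoprime_of_bezout {a b u v : K[X]} {c : K} (hc : c ≠ 0) (h : u * a + v * b = C c) :
    IsCoprime a b :=
  ⟨C c⁻¹ * u, C c⁻¹ * v, by
    rw [mul_assoc, mul_assoc, ← mul_add, h, ← C_mul, inv_mul_cancel₀ hc, C_1]⟩

theorem isCoprime_Nn4_D4 (h2 : (2 : K) ≠ 0) : IsCoprime (Nn4 K) (D4 K) := by
  unfold Nn4 D4
  have hc1 : (4096 : K) ≠ 0 := by
    have : (4096 : K) = 2 ^ 12 := by norm_num
    rw [this]; exact pow_ne_zero _ h2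
  have hc2 : (256 : K) ≠ 0 := by
    have : (256 : K) = 2 ^ 8 := by norm_num
    rw [this]; exact pow_ne_zero _ h2
  have h1 : IsCoprime (X ^ 2 + 256 * X + 4096 : K[X]) X :=
    isCoprime_of_bezout K (u := 1) (v := -(X + 256)) hc1 (by
      simp only [map_ofNat]; ring)
  have h3 : IsCoprime (X ^ 2 + 256 * X + 4096 : K[X]) (X + 16) :=
    isCoprime_of_bezout K (u := 1) (v := -(X + 240)) hc2 (by
      simp only [map_ofNat]; ring)
  exact (IsCoprime.mul_right h1.pow_right h3).pow_left

theorem isCoprime_Nn9_D9 (h3 : (3 : K) ≠ 0) : IsCoprime (Nn9 K) (D9 K) := by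
  unfold Nn9 D9
  have hc1 : (9 : K) ≠ 0 := by
    have : (9 : K) = 3 ^ 2 := by norm_num
    rw [this]; exact pow_ne_zero _ h3
  have hc2 : (27 : K) ≠ 0 := by
    have : (27 : K) = 3 ^ 3 := by norm_num
    rw [this]; exact pow_ne_zero _ h3
  have hc3 : (6561 : K) ≠ 0 := by
    have : (6561 : K) = 3 ^ 8 := by norm_num
    rw [this]; exact pow_ne_zero _ h3
  have hc4 : (729 : K) ≠ 0 := by
    have : (729 : K) = 3 ^ 6 := by norm_num
    rw [this]; exact pow_ne_zero _ h3
  have e1 : IsCoprime (X + 9 : K[X]) X :=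
    isCoprime_of_bezout K (u := 1) (v := -1) hc1 (by simp only [map_ofNat]; ring)
  have e2 : IsCoprime (X + 9 : K[X]) (X ^ 2 + 9 * X + 27) :=
    isCoprime_of_bezout K (u := -X) (v := 1) hc2 (by simp only [map_ofNat]; ring)
  have e3 : IsCoprime (X ^ 3 + 243 * X ^ 2 + 2187 * X + 6561 : K[X]) X :=
    isCoprime_of_bezout K (u := 1) (v := -(X ^ 2 + 243 * X + 2187)) hc3 (by
      simp only [map_ofNat]; ring)
  have e4 : IsCoprime (X ^ 3 + 243 * X ^ 2 + 2187 * X + 6561 : K[X]) (X ^ 2 + 9 * X + 27) :=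
    isCoprime_of_bezout K (u := -(2 * X + 9)) (v := 108 + (2 * X + 9) * (X + 234)) hc4 (by
      simp only [map_ofNat]; ring)
  exact IsCoprime.mul_left (IsCoprime.mul_right e1.pow_right e2).pow_left
    (IsCoprime.mul_right e3.pow_right e4).pow_left

end Concrete

section Hauptmoduln

variable (K : Type*) [Field K] {F : Type*} [Field F] [Algebra K F] {μ j : F}
  (hμ : Transcendental K μ)

theorem aeval_D4 : Polynomial.aeval μ (D4 K) = μ ^ 4 * (μ + 16) := by
  simp [D4, map_ofNat]

theorem aeval_Nn4 : Polynomial.aeval μ (Nn4 K) = (μ ^ 2 + 256 * μ + 4096) ^ 3 := by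
  simp [Nn4, map_ofNat]

theorem aeval_D9 : Polynomial.aeval μ (D9 K) = μ ^ 9 * (μ ^ 2 + 9 * μ + 27) := by
  simp [D9, map_ofNat]

theorem aeval_Nn9 : Polynomial.aeval μ (Nn9 K) =
    (μ + 9) ^ 3 * (μ ^ 3 + 243 * μ ^ 2 + 2187 * μ + 6561) ^ 3 := by
  simp [Nn9, map_ofNat]

section Level4

variable (h2 : (2 : K) ≠ 0) (hrel : j * (μ ^ 4 * (μ + 16)) = (μ ^ 2 + 256 * μ + 4096) ^ 3)

include hμ hrel in
theorem mem_adjoin_of_mu4 : j ∈ K⟮μ⟯ :=
  mem_adjoin_of_relation K hμ (Nn := Nn4 K) (D4_ne_zero K) (by rw [aeval_D4, aeval_Nn4]; exact hrel)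

include hμ h2 hrel in
/-- `[F : K(j)] = 6 [F : K(μ₄)]`. -/
theorem finrank_of_mu4 : finrank K⟮j⟯ F = 6 * finrank K⟮μ⟯ F := by
  have h := finrank_adjoin_of_relation K hμ (D4_ne_zero K) (isCoprime_Nn4_D4 K h2)
    (by rw [aeval_D4, aeval_Nn4]; exact hrel)
  rw [natDegree_Nn4, natDegree_D4] at h
  exact h

include hμ hrel in
theorem finiteDimensional_of_mu4 [FiniteDimensional K⟮j⟯ F] : FiniteDimensional K⟮μ⟯ F :=
  finiteDimensional_of_relation K hμ (Nn := Nn4 K) (D4_ne_zero K) (by rw [aeval_D4, aeval_Nn4]; exact hrel)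

include hμ hrel in
theorem isSeparable_of_mu4 [Algebra.IsSeparable K⟮j⟯ F] : Algebra.IsSeparable K⟮μ⟯ F :=
  isSeparable_of_relation K hμ (Nn := Nn4 K) (D4_ne_zero K) (by rw [aeval_D4, aeval_Nn4]; exact hrel)

include h2 hrel in
/-- `μ₄` is transcendental as soon as `j` is. -/
theorem transcendental_mu4 (hj : Transcendental K j) : Transcendental K μ :=
  transcendental_gen_of_relation K hj (isCoprime_Nn4_D4 K h2)
    (by rw [aeval_D4, aeval_Nn4]; exact hrel)

end Level4

section Level9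

variable (h3 : (3 : K) ≠ 0)
  (hrel : j * (μ ^ 9 * (μ ^ 2 + 9 * μ + 27)) =
    (μ + 9) ^ 3 * (μ ^ 3 + 243 * μ ^ 2 + 2187 * μ + 6561) ^ 3)

include hμ hrel in
theorem mem_adjoin_of_mu9 : j ∈ K⟮μ⟯ :=
  mem_adjoin_of_relation K hμ (Nn := Nn9 K) (D9_ne_zero K) (by rw [aeval_D9, aeval_Nn9]; exact hrel)

include hμ h3 hrel in
/-- `[F : K(j)] = 12 [F : K(μ₉)]`. -/
theorem finrank_of_mu9 : finrank K⟮j⟯ F = 12 * finrank K⟮μ⟯ F := by
  have h := finrank_adjoin_of_relation K hμ (D9_ne_zero K) (isCoprime_Nn9_D9 K h3)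
    (by rw [aeval_D9, aeval_Nn9]; exact hrel)
  rw [natDegree_Nn9, natDegree_D9] at h
  exact h

include hμ hrel in
theorem finiteDimensional_of_mu9 [FiniteDimensional K⟮j⟯ F] : FiniteDimensional K⟮μ⟯ F :=
  finiteDimensional_of_relation K hμ (Nn := Nn9 K) (D9_ne_zero K) (by rw [aeval_D9, aeval_Nn9]; exact hrel)

include hμ hrel in
theorem isSeparable_of_mu9 [Algebra.IsSeparable K⟮j⟯ F] : Algebra.IsSeparable K⟮μ⟯ F :=
  isSeparable_of_relation K hμ (Nn := Nn9 K) (D9_ne_zero K) (by rw [aeval_D9, aeval_Nn9]; exact hrel)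

include h3 hrel in
/-- `μ₉` is transcendental as soon as `j` is. -/
theorem transcendental_mu9 (hj : Transcendental K j) : Transcendental K μ :=
  transcendental_gen_of_relation K hj (isCoprime_Nn9_D9 K h3)
    (by rw [aeval_D9, aeval_Nn9]; exact hrel)

end Level9

end Hauptmoduln

end Fermat.Agent.S18lib.RRgen.Luroth
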