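/-
S18lib / RRgen / PoleDict (helper9)

**The pole dictionary along a rational relation** `x * D(μ) = Nn(μ)` (instance-free, Place form,
any field of constants `K`, any characteristic):
* `ord_neg_of_zero`  : `D(a) = 0`, `Nn(a) ≠ 0`, `0 < ord_v (μ - a)`  ⇒ `ord_v x < 0`;
* `ord_neg_of_pole`  : `deg D < deg Nn`, `ord_v μ < 0`               ⇒ `ord_v x < 0`;
* `ord_eq_zero_of_zero`, `ord_nonneg_of_zero` : the fibres of `μ` are pairwise disjoint;
* `sum_card_zerosOf_add_card_polesOf_le` :
  `∑_{a ∈ S} #zerosOf (μ - a) + #polesOf μ ≤ #polesOf x` (`S` a finite set of such roots).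
Valuation calculus: `val_aeval_le_one`, `val_aeval_eq_one`, `val_aeval_of_pole`
(`|p(μ)| = |μ|^deg p` at a pole of `μ`), `val_aeval_eq_one_of_eval_ne_zero`,
`val_aeval_lt_one_of_eval_eq_zero`.
Concrete: the finite cusps `S4 K = {0, -16}` of the `μ₄`-line (`card_S4 = 2` if `2 ≠ 0`),
`S9 K = {0} ∪ roots (X² + 9X + 27)` of the `μ₉`-line (`card_S9 = 3` if `3 ≠ 0`, `K` alg. closed),
and `cusps_le_mu4`, `cusps_le_mu9`.
Exact orders: `ord_aeval_of_zero`, `ord_aeval_of_pole`, `ord_eq_of_zero_denom`
(`ord_v x = - m ord_v (μ - a)`), `ord_eq_of_zero_num` (`ord_v x = m ord_v (μ - b)`),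
`ord_eq_of_pole` (`ord_v x = (deg Nn - deg D) ord_v μ`).
Converse (`K` algebraically closed): `exists_root_of_ord_neg` (a pole of `x` is a pole of `μ` or
a zero of `μ - a`, `D(a) = 0`), `exists_root_of_ord_pos` (a zero of `x` is a zero of `μ - b`,
`Nn(b) = 0`).
-/
import Mathlib
import Fermat.Agent.S18lib.Tame.Count
import Fermat.Agent.S18lib.RRgen.Luroth

set_option autoImplicit false
set_option linter.unusedSectionVars false
set_option linter.style.haveILetI false

noncomputable section

namespace Fermat.Agent.S18lib.RRgen.PoleDict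

open Polynomial AlgebraicCurve WithZero
open Fermat.Agent.S18lib Fermat.Agent.S18lib.RRgen.Luroth

variable {K F : Type*} [Field K] [Field F] [Algebra K F]

/-! ### valuation form of `Place.ord` -/

theorem val_lt_one_iff (v : Place K F) {f : F} (hf : f ≠ 0) :
    v.adicValuation f < 1 ↔ 0 < v.ord f := by
  rw [v.adicValuation_eq_exp_neg_ord hf, ← WithZero.exp_zero, WithZero.exp_lt_exp]
  omega

theorem one_lt_val_iff (v : Place K F) {f : F} :
    1 < v.adicValuation f ↔ v.ord f < 0 := by
  rw [← v.not_adicValuation_le_one_iff, not_le]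

theorem val_const (v : Place K F) {c : K} (hc : c ≠ 0) : v.adicValuation (algebraMap K F c) = 1 := by
  have h0 : algebraMap K F c ≠ 0 := (_root_.map_ne_zero _).mpr hc
  rw [v.adicValuation_eq_exp_neg_ord h0, Tame.ord_const v hc, neg_zero, WithZero.exp_zero]

theorem val_const_le (v : Place K F) (c : K) : v.adicValuation (algebraMap K F c) ≤ 1 :=
  v.adicValuation_le_one_of_mem (v.algebraMap_mem' c)

/-- polynomial values at integral points are integral. -/
theorem val_aeval_le_one (v : Place K F) {t : F} (ht : v.adicValuation t ≤ 1) (p : K[X]) :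
    v.adicValuation (Polynomial.aeval t p) ≤ 1 := by
  induction p using Polynomial.induction_on' with
  | add p q hp hq =>
    rw [map_add]
    exact (v.adicValuation.map_add _ _).trans (max_le hp hq)
  | monomial n a =>
    rw [Polynomial.aeval_monomial, map_mul, map_pow]
    exact mul_le_one' (val_const_le v a) (pow_le_one' ht n)

/-- at a zero `t` of the place, a polynomial with nonzero constant term takes a unit value. -/
theorem val_aeval_eq_one (v : Place K F) {t : F} (ht : v.adicValuation t < 1) {q : K[X]}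
    (hq : q.coeff 0 ≠ 0) : v.adicValuation (Polynomial.aeval t q) = 1 := by
  have h1 : Polynomial.aeval t q =
      algebraMap K F (q.coeff 0) + Polynomial.aeval t q.divX * t := by
    conv_lhs => rw [← Polynomial.divX_mul_X_add q]
    rw [map_add, map_mul, Polynomial.aeval_X, Polynomial.aeval_C, add_comm]
  rw [h1]
  have h2 : v.adicValuation (Polynomial.aeval t q.divX * t) < 1 := by
    rw [map_mul]
    calc v.adicValuation (Polynomial.aeval t q.divX) * v.adicValuation t
        ≤ 1 * v.adicValuation t := mul_le_mul_left (val_aeval_le_one v ht.le _) _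
      _ = v.adicValuation t := one_mul _
      _ < 1 := ht
  have h3 := val_const v hq
  rw [Valuation.map_add_eq_of_lt_left v.adicValuation (by rw [h3]; exact h2), h3]

/-- at a pole `μ` of the place, a nonzero polynomial of degree `n` has valuation `|μ|^n`. -/
theorem val_aeval_of_pole (v : Place K F) {μ : F} (hμ : 1 < v.adicValuation μ) {p : K[X]}
    (hp : p ≠ 0) :
    v.adicValuation (Polynomial.aeval μ p) = v.adicValuation μ ^ p.natDegree := by
  have hμ0 : μ ≠ 0 := by
    rintro rfl
    simp at hμ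
  letI : Invertible μ := invertibleOfNonzero hμ0
  have h1 : Polynomial.aeval μ p = Polynomial.aeval μ⁻¹ p.reverse * μ ^ p.natDegree := by
    have := Polynomial.eval₂_reverse_mul_pow (algebraMap K F) μ p
    rw [invOf_eq_inv] at this
    exact this.symm
  have hinv : v.adicValuation μ⁻¹ < 1 := by
    rw [map_inv₀]
    exact inv_lt_one_of_one_lt₀ hμ
  have h2 : v.adicValuation (Polynomial.aeval μ⁻¹ p.reverse) = 1 := by
    apply val_aeval_eq_one v hinv
    rw [Polynomial.coeff_zero_reverse]
    exact Polynomial.leadingCoeff_ne_zero.mpr hp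
  rw [h1, map_mul, h2, one_mul, map_pow]

/-- Taylor shift: `p(μ) = (p ∘ (X + a))(μ - a)`. -/
theorem aeval_sub_comp (μ : F) (a : K) (p : K[X]) :
    Polynomial.aeval (μ - algebraMap K F a) (p.comp (X + C a)) = Polynomial.aeval μ p := by
  rw [Polynomial.aeval_comp, map_add, Polynomial.aeval_X, Polynomial.aeval_C, sub_add_cancel]

/-- at a zero of `μ - a`, `p(μ)` is a unit if `p(a) ≠ 0`. -/
theorem val_aeval_eq_one_of_eval_ne_zero (v : Place K F) {μ : F} {a : K}
    (h : v.adicValuation (μ - algebraMap K F a) < 1) {p : K[X]} (hp : p.eval a ≠ 0) :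
    v.adicValuation (Polynomial.aeval μ p) = 1 := by
  rw [← aeval_sub_comp μ a p]
  apply val_aeval_eq_one v h
  rw [Polynomial.coeff_zero_eq_eval_zero, Polynomial.eval_comp]
  simpa using hp

/-- at a zero of `μ - a`, `p(μ)` is in the maximal ideal if `p(a) = 0`. -/
theorem val_aeval_lt_one_of_eval_eq_zero (v : Place K F) {μ : F} {a : K}
    (h : v.adicValuation (μ - algebraMap K F a) < 1) {p : K[X]} (hp : p.eval a = 0) :
    v.adicValuation (Polynomial.aeval μ p) < 1 := by
  obtain ⟨r, hr⟩ := Polynomial.dvd_iff_isRoot.mpr hp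
  have hμ : v.adicValuation μ ≤ 1 := by
    have : μ = (μ - algebraMap K F a) + algebraMap K F a := by ring
    rw [this]
    exact (v.adicValuation.map_add _ _).trans (max_le h.le (val_const_le v a))
  rw [hr, map_mul, map_mul, map_sub, Polynomial.aeval_X, Polynomial.aeval_C]
  calc v.adicValuation (μ - algebraMap K F a) * v.adicValuation (Polynomial.aeval μ r)
      ≤ v.adicValuation (μ - algebraMap K F a) * 1 :=
        mul_le_mul_right (val_aeval_le_one v hμ r) _
    _ = v.adicValuation (μ - algebraMap K F a) := mul_one _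
    _ < 1 := h

/-! ### the pole dictionary along a rational relation `x * D(μ) = Nn(μ)` -/

section Relation

variable {μ x : F} {Nn D : K[X]} (hrel : x * Polynomial.aeval μ D = Polynomial.aeval μ Nn)

include hrel in
/-- a zero of `μ - a`, `a` a root of `D` which is not a root of `Nn`, is a pole of `x`. -/
theorem ord_neg_of_zero (v : Place K F) {a : K} (hDa : D.eval a = 0) (hNa : Nn.eval a ≠ 0)
    (hv : 0 < v.ord (μ - algebraMap K F a)) : v.ord x < 0 := by
  have hne : μ - algebraMap K F a ≠ 0 := by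
    intro h0
    rw [h0, Place.ord_zero] at hv
    exact lt_irrefl _ hv
  have h := (val_lt_one_iff v hne).mpr hv
  have h1 := val_aeval_eq_one_of_eval_ne_zero v h hNa
  have h2 := val_aeval_lt_one_of_eval_eq_zero v h hDa
  rw [← one_lt_val_iff]
  have h3 : v.adicValuation x * v.adicValuation (Polynomial.aeval μ D) = 1 := by
    rw [← map_mul, hrel, h1]
  by_contra hle
  rw [not_lt] at hle
  have : v.adicValuation x * v.adicValuation (Polynomial.aeval μ D) < 1 :=
    calc v.adicValuation x * v.adicValuation (Polynomial.aeval μ D)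
        ≤ 1 * v.adicValuation (Polynomial.aeval μ D) := mul_le_mul_left hle _
      _ = v.adicValuation (Polynomial.aeval μ D) := one_mul _
      _ < 1 := h2
  rw [h3] at this
  exact lt_irrefl _ this

include hrel in
/-- a pole of `μ` is a pole of `x` when `deg D < deg Nn`. -/
theorem ord_neg_of_pole (v : Place K F) (hD : D ≠ 0) (hdeg : D.natDegree < Nn.natDegree)
    (hv : v.ord μ < 0) : v.ord x < 0 := by
  have hN : Nn ≠ 0 := by
    rintro rfl
    simp at hdeg
  have h := (one_lt_val_iff v).mpr hv
  have h1 := val_aeval_of_pole v h hN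
  have h2 := val_aeval_of_pole v h hD
  rw [← one_lt_val_iff]
  have h3 : v.adicValuation x * v.adicValuation μ ^ D.natDegree =
      v.adicValuation μ ^ Nn.natDegree := by
    rw [← h1, ← h2, ← map_mul, hrel]
  have hpos : 0 < v.adicValuation μ := lt_trans zero_lt_one h
  have hne : v.adicValuation μ ^ D.natDegree ≠ 0 := pow_ne_zero _ hpos.ne'
  by_contra hle
  rw [not_lt] at hle
  have h4 : v.adicValuation μ ^ Nn.natDegree ≤ v.adicValuation μ ^ D.natDegree := by
    rw [← h3]
    calc v.adicValuation x * v.adicValuation μ ^ D.natDegree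
        ≤ 1 * v.adicValuation μ ^ D.natDegree := mul_le_mul_left hle _
      _ = v.adicValuation μ ^ D.natDegree := one_mul _
  have h5 : v.adicValuation μ ^ D.natDegree < v.adicValuation μ ^ Nn.natDegree :=
    pow_lt_pow_right₀ h hdeg
  exact lt_irrefl _ (lt_of_lt_of_le h5 h4)

end Relation

/-! ### disjointness -/

theorem ord_nonneg_of_zero (v : Place K F) {μ : F} {a : K}
    (hv : 0 < v.ord (μ - algebraMap K F a)) : 0 ≤ v.ord μ := by
  by_contra h
  rw [not_le] at h
  have := Tame.ord_sub_const_of_neg v a h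
  omega

theorem ord_eq_zero_of_zero (v : Place K F) {μ : F} {a b : K} (hab : a ≠ b)
    (hv : 0 < v.ord (μ - algebraMap K F a)) : v.ord (μ - algebraMap K F b) = 0 := by
  have hne : μ - algebraMap K F a ≠ 0 := by
    intro h0
    rw [h0, Place.ord_zero] at hv
    exact lt_irrefl _ hv
  have hc : algebraMap K F (a - b) ≠ 0 := (_root_.map_ne_zero _).mpr (sub_ne_zero.mpr hab)
  have h1 : μ - algebraMap K F b = algebraMap K F (a - b) + (μ - algebraMap K F a) := by
    rw [map_sub]; ring
  have h2 : v.ord (algebraMap K F (a - b)) = 0 := Tame.ord_const v (sub_ne_zero.mpr hab)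
  rw [h1, Tame.ord_add_eq_of_lt v hc hne (by rw [h2]; exact hv), h2]

/-! ### counting -/

section Count

variable {μ x : F} {Nn D : K[X]} (hrel : x * Polynomial.aeval μ D = Polynomial.aeval μ Nn)

include hrel in
/-- **the pole dictionary, counting form**: the zeros of `μ - a` (`a` running over a finite set
of roots of `D` which are not roots of `Nn`) and the poles of `μ` are pairwise disjoint sets of
poles of `x`. -/
theorem sum_card_zerosOf_add_card_polesOf_le (hD : D ≠ 0) (hdeg : D.natDegree < Nn.natDegree)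
    (S : Finset K) (hS : ∀ a ∈ S, D.eval a = 0 ∧ Nn.eval a ≠ 0)
    (hfin : (Tame.polesOf (K := K) x).Finite) :
    (∑ a ∈ S, Nat.card (Tame.zerosOf (K := K) (μ - algebraMap K F a)))
      + Nat.card (Tame.polesOf (K := K) μ) ≤ Nat.card (Tame.polesOf (K := K) x) := by
  classical
  set P := hfin.toFinset with hP
  let Z : K → Finset (Place K F) := fun a => P.filter fun v => 0 < v.ord (μ - algebraMap K F a)
  let Zinf : Finset (Place K F) := P.filter fun v => v.ord μ < 0
  have hZ : ∀ a ∈ S, Nat.card (Tame.zerosOf (K := K) (μ - algebraMap K F a)) = (Z a).card := by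
    intro a ha
    have : Tame.zerosOf (K := K) (μ - algebraMap K F a) = ((Z a : Finset (Place K F)) : Set _) := by
      ext v
      simp only [Z, Finset.coe_filter, Set.mem_ofPred_eq, Tame.mem_zerosOf, hP,
        Set.Finite.mem_toFinset, Tame.mem_polesOf]
      exact ⟨fun h => ⟨ord_neg_of_zero hrel v (hS a ha).1 (hS a ha).2 h, h⟩, fun h => h.2⟩
    rw [this, Nat.card_coe_set_eq, Set.ncard_coe_finset]
  have hZinf : Nat.card (Tame.polesOf (K := K) μ) = Zinf.card := by
    have : Tame.polesOf (K := K) μ = ((Zinf : Finset (Place K F)) : Set _) := by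
      ext v
      simp only [Zinf, Finset.coe_filter, Set.mem_ofPred_eq, hP,
        Set.Finite.mem_toFinset, Tame.mem_polesOf]
      exact ⟨fun h => ⟨ord_neg_of_pole hrel v hD hdeg h, h⟩, fun h => h.2⟩
    rw [this, Nat.card_coe_set_eq, Set.ncard_coe_finset]
  have hPc : Nat.card (Tame.polesOf (K := K) x) = P.card := by
    rw [Nat.card_coe_set_eq, hP, Set.ncard_eq_toFinset_card _ hfin]
  rw [Finset.sum_congr rfl hZ, hZinf, hPc]
  have hdis : ∀ a ∈ S, ∀ b ∈ S, a ≠ b → Disjoint (Z a) (Z b) := by
    intro a _ b _ hab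
    rw [Finset.disjoint_left]
    intro v hva hvb
    simp only [Z, Finset.mem_filter] at hva hvb
    have := ord_eq_zero_of_zero v hab hva.2
    omega
  have hdis2 : Disjoint (S.biUnion Z) Zinf := by
    rw [Finset.disjoint_left]
    intro v hv hvinf
    simp only [Finset.mem_biUnion, Z, Zinf, Finset.mem_filter] at hv hvinf
    obtain ⟨a, _, _, hva⟩ := hv
    have := ord_nonneg_of_zero v hva
    omega
  rw [← Finset.card_biUnion hdis, ← Finset.card_union_of_disjoint hdis2]
  apply Finset.card_le_card
  intro v hv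
  simp only [Finset.mem_union, Finset.mem_biUnion, Z, Zinf, Finset.mem_filter] at hv
  rcases hv with ⟨a, _, hvP, _⟩ | ⟨hvP, _⟩ <;> exact hvP

end Count

section Concrete

variable (K : Type*) [Field K]

theorem eval_ne_zero_of_isCoprime {Nn D : K[X]} (h : IsCoprime Nn D) {a : K}
    (ha : D.eval a = 0) : Nn.eval a ≠ 0 := by
  obtain ⟨u, v, huv⟩ := h
  intro h0
  have := congrArg (Polynomial.eval a) huv
  rw [eval_add, eval_mul, eval_mul, h0, ha, mul_zero, mul_zero, add_zero, eval_one] at this
  exact zero_ne_one this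

/-- the finite cusps of the `μ₄`-line: `μ₄ = 0, -16`. -/
def S4 : Finset K := by
  classical exact {0, -16}

theorem card_S4 (h2 : (2 : K) ≠ 0) : (S4 K).card = 2 := by
  classical
  unfold S4
  rw [Finset.card_pair]
  intro h
  have h16 : (16 : K) = 2 ^ 4 := by norm_num
  have : (16 : K) = 0 := by rw [← neg_eq_zero]; exact h.symm
  rw [h16] at this
  exact h2 (pow_eq_zero_iff (by norm_num) |>.mp this)

theorem eval_D4_of_mem {a : K} (ha : a ∈ S4 K) : (D4 K).eval a = 0 := by
  classical
  unfold S4 at ha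
  rw [Finset.mem_insert, Finset.mem_singleton] at ha
  rcases ha with rfl | rfl <;> simp [D4]

/-- the finite cusps of the `μ₉`-line: `μ₉ = 0` and the two roots of `X² + 9X + 27`. -/
def S9 : Finset K := by
  classical exact insert 0 (X ^ 2 + 9 * X + 27 : K[X]).roots.toFinset

theorem eval_D9_of_mem {a : K} (ha : a ∈ S9 K) : (D9 K).eval a = 0 := by
  classical
  unfold S9 at ha
  rw [Finset.mem_insert, Multiset.mem_toFinset] at ha
  rcases ha with rfl | ha
  · simp [D9]
  · have := (Polynomial.mem_roots'.mp ha).2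
    unfold D9
    rw [eval_mul, this.eq_zero, mul_zero]

theorem card_S9 [IsAlgClosed K] (h3 : (3 : K) ≠ 0) : (S9 K).card = 3 := by
  classical
  have h27 : (27 : K) ≠ 0 := by
    have : (27 : K) = 3 ^ 3 := by norm_num
    rw [this]; exact pow_ne_zero _ h3
  set q : K[X] := X ^ 2 + 9 * X + 27 with hq
  have hdeg : q.natDegree = 2 := by rw [hq]; compute_degree!
  have hq0 : q ≠ 0 := fun h => by rw [h, natDegree_zero] at hdeg; omega
  have hsep : q.Separable := by
    rw [Polynomial.separable_def]
    have hder : Polynomial.derivative q = 2 * X + 9 := by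
      rw [hq]
      simp only [derivative_add, derivative_X_pow, derivative_mul, derivative_X,
        derivative_ofNat, Nat.cast_ofNat, map_ofNat]
      ring
    rw [hder]
    exact isCoprime_of_bezout K (u := 4) (v := -(2 * X + 9)) h27 (by
      rw [hq]; simp only [map_ofNat]; ring)
  have hcard : q.roots.toFinset.card = 2 := by
    rw [Multiset.toFinset_card_of_nodup (Polynomial.nodup_roots hsep),
      ← hdeg]
    exact IsAlgClosed.card_roots_eq_natDegree
  unfold S9
  rw [Finset.card_insert_of_notMem, hcard]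
  rw [Multiset.mem_toFinset, Polynomial.mem_roots hq0, Polynomial.IsRoot.def]
  rw [hq]
  simpa using h27

end Concrete

section Hauptmoduln

variable (K : Type*) [Field K] {F : Type*} [Field F] [Algebra K F] {μ x : F}

/-- the cusps of the `μ₄`-line lie over the poles of `x = j`. -/
theorem cusps_le_mu4 (h2 : (2 : K) ≠ 0)
    (hrel : x * (μ ^ 4 * (μ + 16)) = (μ ^ 2 + 256 * μ + 4096) ^ 3)
    (hfin : (Tame.polesOf (K := K) x).Finite) :
    (∑ a ∈ S4 K, Nat.card (Tame.zerosOf (K := K) (μ - algebraMap K F a)))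
      + Nat.card (Tame.polesOf (K := K) μ) ≤ Nat.card (Tame.polesOf (K := K) x) := by
  have hrel' : x * Polynomial.aeval μ (D4 K) = Polynomial.aeval μ (Nn4 K) := by
    rw [aeval_D4, aeval_Nn4]; exact hrel
  refine sum_card_zerosOf_add_card_polesOf_le hrel' (D4_ne_zero K)
    (by rw [natDegree_D4, natDegree_Nn4]; norm_num) (S4 K) (fun a ha => ?_) hfin
  exact ⟨eval_D4_of_mem K ha,
    eval_ne_zero_of_isCoprime K (isCoprime_Nn4_D4 K h2) (eval_D4_of_mem K ha)⟩

/-- the cusps of the `μ₉`-line lie over the poles of `x = j`. -/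
theorem cusps_le_mu9 (h3 : (3 : K) ≠ 0)
    (hrel : x * (μ ^ 9 * (μ ^ 2 + 9 * μ + 27)) =
      (μ + 9) ^ 3 * (μ ^ 3 + 243 * μ ^ 2 + 2187 * μ + 6561) ^ 3)
    (hfin : (Tame.polesOf (K := K) x).Finite) :
    (∑ a ∈ S9 K, Nat.card (Tame.zerosOf (K := K) (μ - algebraMap K F a)))
      + Nat.card (Tame.polesOf (K := K) μ) ≤ Nat.card (Tame.polesOf (K := K) x) := by
  have hrel' : x * Polynomial.aeval μ (D9 K) = Polynomial.aeval μ (Nn9 K) := by
    rw [aeval_D9, aeval_Nn9]; exact hrel
  refine sum_card_zerosOf_add_card_polesOf_le hrel' (D9_ne_zero K)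
    (by rw [natDegree_D9, natDegree_Nn9]; norm_num) (S9 K) (fun a ha => ?_) hfin
  exact ⟨eval_D9_of_mem K ha,
    eval_ne_zero_of_isCoprime K (isCoprime_Nn9_D9 K h3) (eval_D9_of_mem K ha)⟩

end Hauptmoduln

section ExactAndConverse

variable {K F : Type*} [Field K] [Field F] [Algebra K F]

theorem ord_eq_of_val_eq (v : Place K F) {f : F} (hf : f ≠ 0) {n : ℤ}
    (h : v.adicValuation f = exp (-n)) : v.ord f = n := by
  rw [v.adicValuation_eq_exp_neg_ord hf] at h
  have := WithZero.exp_injective h
  omega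

theorem val_eq_one_iff (v : Place K F) {f : F} (hf : f ≠ 0) :
    v.adicValuation f = 1 ↔ v.ord f = 0 := by
  rw [v.adicValuation_eq_exp_neg_ord hf, ← WithZero.exp_zero, WithZero.exp_inj]
  omega

/-- at a zero of `μ - a`: `ord_v p(μ) = m · ord_v (μ - a)` if `p = (X - a)^m R`, `R(a) ≠ 0`. -/
theorem ord_aeval_of_zero (v : Place K F) {μ : F} {a : K}
    (hv : 0 < v.ord (μ - algebraMap K F a)) {p R : K[X]} {m : ℕ}
    (hp : p = (X - C a) ^ m * R) (hR : R.eval a ≠ 0) :
    Polynomial.aeval μ p ≠ 0 ∧ v.ord (Polynomial.aeval μ p) = m * v.ord (μ - algebraMap K F a) := by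
  have hne : μ - algebraMap K F a ≠ 0 := by
    intro h0
    rw [h0, Place.ord_zero] at hv
    exact lt_irrefl _ hv
  have h := (val_lt_one_iff v hne).mpr hv
  have h1 := val_aeval_eq_one_of_eval_ne_zero v h hR
  have hR0 : Polynomial.aeval μ R ≠ 0 := by
    intro h0
    rw [h0, map_zero] at h1
    exact zero_ne_one h1
  have hval : Polynomial.aeval μ p = (μ - algebraMap K F a) ^ m * Polynomial.aeval μ R := by
    rw [hp, map_mul, map_pow, map_sub, Polynomial.aeval_X, Polynomial.aeval_C]
  have hpow : (μ - algebraMap K F a) ^ m ≠ 0 := pow_ne_zero _ hne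
  refine ⟨by rw [hval]; exact mul_ne_zero hpow hR0, ?_⟩
  rw [hval, Place.ord_mul v hpow hR0, (val_eq_one_iff v hR0).mp h1, add_zero, ← zpow_natCast,
    Place.ord_zpow]

/-- at a pole of `μ`: `ord_v p(μ) = deg p · ord_v μ`. -/
theorem ord_aeval_of_pole (v : Place K F) {μ : F} (hv : v.ord μ < 0) {p : K[X]} (hp : p ≠ 0) :
    Polynomial.aeval μ p ≠ 0 ∧ v.ord (Polynomial.aeval μ p) = p.natDegree * v.ord μ := by
  have h := (one_lt_val_iff v).mpr hv
  have h1 := val_aeval_of_pole v h hp
  have hμ0 : μ ≠ 0 := by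
    rintro rfl
    simp at hv
  have hpos : 0 < v.adicValuation μ := lt_trans zero_lt_one h
  have hne : Polynomial.aeval μ p ≠ 0 := by
    intro h0
    rw [h0, map_zero] at h1
    exact (pow_ne_zero _ hpos.ne') h1.symm
  refine ⟨hne, ord_eq_of_val_eq v hne ?_⟩
  rw [h1, v.adicValuation_eq_exp_neg_ord hμ0, ← WithZero.exp_nsmul]
  congr 1
  simp

theorem aeval_algebraMap_eq_eval (b : K) (p : K[X]) :
    Polynomial.aeval (algebraMap K F b) p = algebraMap K F (p.eval b) := by
  rw [Polynomial.aeval_algebraMap_apply, Polynomial.coe_aeval_eq_eval]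

section Exact

variable {μ x : F} {Nn D : K[X]} (hrel : x * Polynomial.aeval μ D = Polynomial.aeval μ Nn)

include hrel in
/-- exact pole order over a root `a` of `D` of multiplicity `m`: `ord_v x = - m · ord_v (μ - a)`. -/
theorem ord_eq_of_zero_denom (v : Place K F) {a : K} {R : K[X]} {m : ℕ}
    (hD : D = (X - C a) ^ m * R) (hR : R.eval a ≠ 0) (hNa : Nn.eval a ≠ 0)
    (hv : 0 < v.ord (μ - algebraMap K F a)) :
    v.ord x = -(m * v.ord (μ - algebraMap K F a)) := by
  obtain ⟨hD0, hDord⟩ := ord_aeval_of_zero v hv hD hR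
  obtain ⟨hN0, hNord⟩ := ord_aeval_of_zero v hv (p := Nn) (R := Nn) (m := 0) (by simp) hNa
  have hx0 : x ≠ 0 := by
    rintro rfl
    rw [zero_mul] at hrel
    exact hN0 hrel.symm
  have := Place.ord_mul v hx0 hD0
  rw [hrel, hNord, hDord] at this
  push_cast at this
  linarith

include hrel in
/-- exact zero order over a root `b` of `Nn` of multiplicity `m`: `ord_v x = m · ord_v (μ - b)`. -/
theorem ord_eq_of_zero_num (v : Place K F) {b : K} {R : K[X]} {m : ℕ}
    (hN : Nn = (X - C b) ^ m * R) (hR : R.eval b ≠ 0) (hDb : D.eval b ≠ 0)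
    (hv : 0 < v.ord (μ - algebraMap K F b)) :
    v.ord x = m * v.ord (μ - algebraMap K F b) := by
  obtain ⟨hN0, hNord⟩ := ord_aeval_of_zero v hv hN hR
  obtain ⟨hD0, hDord⟩ := ord_aeval_of_zero v hv (p := D) (R := D) (m := 0) (by simp) hDb
  have hx0 : x ≠ 0 := by
    rintro rfl
    rw [zero_mul] at hrel
    exact hN0 hrel.symm
  have := Place.ord_mul v hx0 hD0
  rw [hrel, hNord, hDord] at this
  push_cast at this
  linarith

include hrel in
/-- exact order at a pole of `μ`: `ord_v x = (deg Nn - deg D) · ord_v μ`. -/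
theorem ord_eq_of_pole (v : Place K F) (hN : Nn ≠ 0) (hD : D ≠ 0) (hv : v.ord μ < 0) :
    v.ord x = ((Nn.natDegree : ℤ) - D.natDegree) * v.ord μ := by
  obtain ⟨hN0, hNord⟩ := ord_aeval_of_pole v hv hN
  obtain ⟨hD0, hDord⟩ := ord_aeval_of_pole v hv hD
  have hx0 : x ≠ 0 := by
    rintro rfl
    rw [zero_mul] at hrel
    exact hN0 hrel.symm
  have := Place.ord_mul v hx0 hD0
  rw [hrel, hNord, hDord] at this
  linarith

end Exact

/-! ### the converse dictionary (constants algebraically closed) -/

section Converse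

variable [IsAlgClosed K]

/-- if `p(μ)` lies in the maximal ideal of `v` and `μ` is integral at `v`, then `μ` reduces to a
root of `p`. -/
theorem exists_root_of_val_lt_one (v : Place K F) {μ : F} (hμ : v.adicValuation μ ≤ 1) :
    ∀ (n : ℕ) (p : K[X]), p.natDegree = n → p ≠ 0 →
      v.adicValuation (Polynomial.aeval μ p) < 1 →
      ∃ b : K, p.eval b = 0 ∧ v.adicValuation (μ - algebraMap K F b) < 1 := by
  intro n
  induction n with
  | zero =>
    intro p hdeg hp hlt
    exfalso
    obtain ⟨c, rfl⟩ := Polynomial.natDegree_eq_zero.mp hdeg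
    have hc : c ≠ 0 := fun h => hp (by rw [h, map_zero])
    rw [Polynomial.aeval_C, val_const v hc] at hlt
    exact lt_irrefl _ hlt
  | succ n ih =>
    intro p hdeg hp hlt
    have hd : p.degree ≠ 0 := by
      rw [Polynomial.degree_eq_natDegree hp, hdeg]
      exact_mod_cast Nat.succ_ne_zero n
    obtain ⟨b, hb⟩ := IsAlgClosed.exists_root p hd
    obtain ⟨q, hq⟩ := Polynomial.dvd_iff_isRoot.mpr hb
    have hq0 : q ≠ 0 := by
      rintro rfl
      exact hp (by rw [hq, mul_zero])
    have hqdeg : q.natDegree = n := by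
      have := congrArg Polynomial.natDegree hq
      rw [Polynomial.natDegree_mul (Polynomial.X_sub_C_ne_zero b) hq0,
        Polynomial.natDegree_X_sub_C, hdeg] at this
      omega
    by_cases hb1 : v.adicValuation (μ - algebraMap K F b) < 1
    · exact ⟨b, hb, hb1⟩
    · have hle : v.adicValuation (μ - algebraMap K F b) ≤ 1 :=
        (v.adicValuation.map_sub _ _).trans (max_le hμ (val_const_le v b))
      have heq : v.adicValuation (μ - algebraMap K F b) = 1 :=
        le_antisymm hle (not_lt.mp hb1)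
      have hlt' : v.adicValuation (Polynomial.aeval μ q) < 1 := by
        rw [hq, map_mul, map_mul, map_sub, Polynomial.aeval_X, Polynomial.aeval_C, heq,
          one_mul] at hlt
        exact hlt
      obtain ⟨b', hb', hb'1⟩ := ih q hqdeg hq0 hlt'
      exact ⟨b', by rw [hq, Polynomial.eval_mul, hb', mul_zero], hb'1⟩

variable {μ x : F} {Nn D : K[X]} (hrel : x * Polynomial.aeval μ D = Polynomial.aeval μ Nn)

include hrel in
/-- every pole of `x` is a pole of `μ` or a zero of `μ - a` for a root `a` of `D`. -/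
theorem exists_root_of_ord_neg (v : Place K F) (hcop : IsCoprime Nn D) (hD : D ≠ 0)
    (hv : v.ord x < 0) :
    v.ord μ < 0 ∨ ∃ a : K, D.eval a = 0 ∧ 0 < v.ord (μ - algebraMap K F a) := by
  by_cases hμ : v.ord μ < 0
  · exact Or.inl hμ
  right
  have hμ1 : v.adicValuation μ ≤ 1 := by
    by_contra h
    exact hμ ((one_lt_val_iff v).mp (not_le.mp h))
  have hx1 := (one_lt_val_iff v).mpr hv
  have hN1 := val_aeval_le_one v hμ1 Nn
  have hDlt : v.adicValuation (Polynomial.aeval μ D) < 1 := by
    by_contra h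
    rw [not_lt] at h
    have : 1 < v.adicValuation x * v.adicValuation (Polynomial.aeval μ D) :=
      calc 1 < v.adicValuation x := hx1
        _ = v.adicValuation x * 1 := (mul_one _).symm
        _ ≤ v.adicValuation x * v.adicValuation (Polynomial.aeval μ D) := mul_le_mul_right h _
    rw [← map_mul, hrel] at this
    exact lt_irrefl _ (lt_of_lt_of_le this hN1)
  obtain ⟨a, ha, ha1⟩ := exists_root_of_val_lt_one v hμ1 _ D rfl hD hDlt
  refine ⟨a, ha, ?_⟩
  have hne : μ - algebraMap K F a ≠ 0 := by
    intro h0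
    have hμa : μ = algebraMap K F a := sub_eq_zero.mp h0
    have hDa : Polynomial.aeval μ D = 0 := by
      rw [hμa, aeval_algebraMap_eq_eval, ha, map_zero]
    have hNa : Polynomial.aeval μ Nn = 0 := by rw [← hrel, hDa, mul_zero]
    have hNa' : Nn.eval a = 0 := by
      rw [hμa, aeval_algebraMap_eq_eval] at hNa
      exact (_root_.map_eq_zero _).mp hNa
    exact eval_ne_zero_of_isCoprime K hcop ha hNa'
  exact (val_lt_one_iff v hne).mp ha1

include hrel in
/-- every zero of `x` is a zero of `μ - b` for a root `b` of `Nn` (when `deg D ≤ deg Nn`). -/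
theorem exists_root_of_ord_pos (v : Place K F) (hcop : IsCoprime Nn D) (hN : Nn ≠ 0)
    (hD : D ≠ 0) (hdeg : D.natDegree ≤ Nn.natDegree) (hv : 0 < v.ord x) :
    ∃ b : K, Nn.eval b = 0 ∧ 0 < v.ord (μ - algebraMap K F b) := by
  have hx0 : x ≠ 0 := by
    rintro rfl
    simp at hv
  have hμ : ¬ v.ord μ < 0 := by
    intro hμ
    have := ord_eq_of_pole hrel v hN hD hμ
    have h1 : (0 : ℤ) ≤ (Nn.natDegree : ℤ) - D.natDegree := by
      have : (D.natDegree : ℤ) ≤ Nn.natDegree := by exact_mod_cast hdeg
      linarith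
    nlinarith
  have hμ1 : v.adicValuation μ ≤ 1 := by
    by_contra h
    exact hμ ((one_lt_val_iff v).mp (not_le.mp h))
  have hx1 := (val_lt_one_iff v hx0).mpr hv
  have hD1 := val_aeval_le_one v hμ1 D
  have hNlt : v.adicValuation (Polynomial.aeval μ Nn) < 1 := by
    rw [← hrel, map_mul]
    calc v.adicValuation x * v.adicValuation (Polynomial.aeval μ D)
        ≤ v.adicValuation x * 1 := mul_le_mul_right hD1 _
      _ = v.adicValuation x := mul_one _
      _ < 1 := hx1
  obtain ⟨b, hb, hb1⟩ := exists_root_of_val_lt_one v hμ1 _ Nn rfl hN hNlt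
  refine ⟨b, hb, ?_⟩
  have hne : μ - algebraMap K F b ≠ 0 := by
    intro h0
    have hμb : μ = algebraMap K F b := sub_eq_zero.mp h0
    have hNb : Polynomial.aeval μ Nn = 0 := by
      rw [hμb, aeval_algebraMap_eq_eval, hb, map_zero]
    have hDb : Polynomial.aeval μ D = 0 := by
      have := hrel
      rw [hNb] at this
      exact (mul_eq_zero.mp this).resolve_left hx0
    have hDb' : D.eval b = 0 := by
      rw [hμb, aeval_algebraMap_eq_eval] at hDb
      exact (_root_.map_eq_zero _).mp hDb
    exact eval_ne_zero_of_isCoprime K hcop hDb' hb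
  exact (val_lt_one_iff v hne).mp hb1

end Converse

end ExactAndConverse

end Fermat.Agent.S18lib.RRgen.PoleDict
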