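/-
S18lib / RRgen / SqueezeFree (helper9)

**(Squeeze), instance-free**: helper6's `Squeeze.Hyp` machinery instantiated at the canonical
charts of `RRgen/Canonical` and combined with `RRgen/Luroth` (degree along a rational relation)
and `RRgen/PoleDict` (pole dictionary). `K` algebraically closed, any characteristic.
* `squeeze K hμ S M hM hF hg` : `μ` transcendental, `F / K(μ)` finite separable,
  `∑_{a ∈ S} #zeros (μ - a) + #poles μ ≤ M`, `IsCurveOfGenus K F g`,
  `2g - 2 ≤ [F : K(μ)] (|S| - 1) - M`  ⇒  equality in both, and every zero of `μ - a`, `a ∉ S`,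
  is simple (`F / K(μ)` unramified off `S ∪ {∞}`).
* `squeeze_of_relation` : the same over the `μ`-line of a covering `x = Nn(μ)/D(μ)` with
  `F / K(x)` finite separable of degree `deg Nn · n`, `#poles x ≤ M`, `S` ⊆ roots of `D`.
* `squeeze_mu4`, `squeeze_mu9` : the Hauptmoduln of `X₀(4)`, `X₀(9)`;
  `one_notMem_S4(_of_charP)`, `one_notMem_S9(_of_charP)`.
-/
import Mathlib
import Fermat.Agent.S18lib.RRgen.Canonical
import Fermat.Agent.S18lib.RRgen.PoleDict
import Fermat.Agent.S18lib.Squeeze.Main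
import Fermat.Agent.S18lib.RRgen.Luroth

set_option autoImplicit false
set_option linter.unusedSectionVars false
set_option linter.style.haveILetI false

noncomputable section

namespace Fermat.Agent.S18lib.RRgen.SqueezeFree

open Module Polynomial AlgebraicCurve IntermediateField
open Fermat.Agent.S18lib.RRgen.Canonical Fermat.Agent.S18lib.RRgen.Luroth
  Fermat.Agent.S18lib.RRgen.PoleDict

section Free

variable (K : Type*) [Field K] [IsAlgClosed K] {F : Type*} [Field F] [Algebra K F] {μ : F}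
  (hμ : Transcendental K μ) [FiniteDimensional K⟮μ⟯ F] [Algebra.IsSeparable K⟮μ⟯ F]

include hμ in
/-- **(Squeeze), instance-free**. -/
theorem squeeze (S : Finset K) (M : ℕ)
    (hM : (∑ a ∈ S, (Nat.card (Tame.zerosOf (K := K) (μ - algebraMap K F a)) : ℤ))
      + Nat.card (Tame.polesOf (K := K) μ) ≤ M)
    {g : ℕ} (hF : IsCurveOfGenus K F g)
    (hg : 2 * (g : ℤ) - 2 ≤ (finrank K⟮μ⟯ F : ℤ) * ((S.card : ℤ) - 1) - M) :
    2 * (g : ℤ) - 2 = (finrank K⟮μ⟯ F : ℤ) * ((S.card : ℤ) - 1) - M ∧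
    ((∑ a ∈ S, (Nat.card (Tame.zerosOf (K := K) (μ - algebraMap K F a)) : ℤ))
      + Nat.card (Tame.polesOf (K := K) μ) = M) ∧
    ∀ a : K, a ∉ S → ∀ v : Place K F, 0 < v.ord (μ - algebraMap K F a) →
      v.ord (μ - algebraMap K F a) = 1 := by
  letI := polyAlgebra K μ
  letI := ratFuncAlgebra K hμ
  haveI := isScalarTower_poly_ratFunc K hμ
  haveI := isScalarTower_const_ratFunc K hμ
  haveI := finiteDimensional_ratFunc K hμ
  haveI := isSeparable_ratFunc K hμ
  haveI := isScalarTower_const_poly K F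
  haveI := isScalarTower_ainf_ratFunc K F
  haveI := isScalarTower_const_ainf K F
  letI := algebraBInf K F
  haveI := isScalarTower_const_BFin K F
  haveI := isScalarTower_const_BInf K F
  haveI := isTorsionFree_BFin K F
  haveI := isTorsionFree_BInf K F
  haveI := isFractionRing_BFin K F
  haveI := isDedekindDomain_BFin K F
  haveI := finite_BFin K F
  haveI := isFractionRing_BInf K F
  haveI := isDedekindDomain_BInf K F
  haveI := finite_BInf K F
  have hX := algebraMap_ratFuncAlgebra_X K hμ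
  have hn := finrank_ratFunc K hμ
  have hgen : RRgen.genus K F (BFin K F) (BInf K F) = g :=
    genus_unique (RRgen.isCurveOfGenus K F (BFin K F) (BInf K F)) hF
  have H : Squeeze.Hyp K F (BFin K F) (BInf K F) g S M := by
    have := Squeeze.hyp_genus K F (BFin K F) (BInf K F) S M (by rw [hX]; exact hM)
      (by rw [hgen, hn]; exact hg)
    rwa [hgen] at this
  refine ⟨?_, ?_, ?_⟩
  · have := H.genus_eq
    rwa [hn] at this
  · have := H.card_cusps_eq
    rwa [hX] at this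
  · intro a ha v hv
    have := H.ord_sub_eq_one ha v (by rw [hX]; exact hv)
    rwa [hX] at this

end Free

section Relation

variable (K : Type*) [Field K] [IsAlgClosed K] {F : Type*} [Field F] [Algebra K F] {x μ : F}
  (hx : Transcendental K x) [FiniteDimensional K⟮x⟯ F] [Algebra.IsSeparable K⟮x⟯ F]
  {Nn D : K[X]} (hD : D ≠ 0) (hcop : IsCoprime Nn D) (hdeg : D.natDegree < Nn.natDegree)
  (hrel : x * Polynomial.aeval μ D = Polynomial.aeval μ Nn)

include hx hD hcop hdeg hrel in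
/-- **(Squeeze) over the `μ`-line of a covering `x = Nn(μ)/D(μ)`**, instance-free: from
`#poles x ≤ M` and `2g - 2 ≤ n (|S| - 1) - M` (`S` = finite roots of `D`, `n = [F : K(μ)]`)
everything is forced: equality, and `F / K(μ)` is unramified off `S ∪ {∞}`. -/
theorem squeeze_of_relation (S : Finset K) (hS : ∀ a ∈ S, D.eval a = 0) (M : ℕ)
    (hM : Nat.card (Tame.polesOf (K := K) x) ≤ M) {g : ℕ} (hF : IsCurveOfGenus K F g)
    (n : ℕ) (hn : finrank K⟮x⟯ F = Nn.natDegree * n)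
    (hg : 2 * (g : ℤ) - 2 ≤ (n : ℤ) * ((S.card : ℤ) - 1) - M) :
    Transcendental K μ ∧ FiniteDimensional K⟮μ⟯ F ∧ Algebra.IsSeparable K⟮μ⟯ F ∧
    finrank K⟮μ⟯ F = n ∧
    2 * (g : ℤ) - 2 = (n : ℤ) * ((S.card : ℤ) - 1) - M ∧
    Nat.card (Tame.polesOf (K := K) x) = M ∧
    ((∑ a ∈ S, (Nat.card (Tame.zerosOf (K := K) (μ - algebraMap K F a)) : ℤ))
      + Nat.card (Tame.polesOf (K := K) μ) = M) ∧
    ∀ a : K, a ∉ S → ∀ v : Place K F, 0 < v.ord (μ - algebraMap K F a) →
      v.ord (μ - algebraMap K F a) = 1 := by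
  have hμ : Transcendental K μ := transcendental_gen_of_relation K hx hcop hrel
  haveI hfd : FiniteDimensional K⟮μ⟯ F := finiteDimensional_of_relation K hμ hD hrel
  haveI hsep : Algebra.IsSeparable K⟮μ⟯ F := isSeparable_of_relation K hμ hD hrel
  have hfr := finrank_adjoin_of_relation K hμ hD hcop hrel
  rw [max_eq_left hdeg.le] at hfr
  have hNpos : 0 < Nn.natDegree := lt_of_le_of_lt (Nat.zero_le _) hdeg
  have hnμ : finrank K⟮μ⟯ F = n := by
    rw [hn] at hfr
    exact (Nat.eq_of_mul_eq_mul_left hNpos hfr).symm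
  haveI := hF.hasPrincipalDivisors
  have hfin : (Tame.polesOf (K := K) x).Finite := Tame.finite_polesOf x
  have hcusp := sum_card_zerosOf_add_card_polesOf_le hrel hD hdeg S
    (fun a ha => ⟨hS a ha, eval_ne_zero_of_isCoprime K hcop (hS a ha)⟩) hfin
  have hcusp' : (∑ a ∈ S, (Nat.card (Tame.zerosOf (K := K) (μ - algebraMap K F a)) : ℤ))
      + Nat.card (Tame.polesOf (K := K) μ) ≤ Nat.card (Tame.polesOf (K := K) x) := by
    exact_mod_cast hcusp
  have hM' : (∑ a ∈ S, (Nat.card (Tame.zerosOf (K := K) (μ - algebraMap K F a)) : ℤ))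
      + Nat.card (Tame.polesOf (K := K) μ) ≤ M :=
    hcusp'.trans (by exact_mod_cast hM)
  obtain ⟨h1, h2, h3⟩ := squeeze K hμ S M hM' hF (by rw [hnμ]; exact hg)
  rw [hnμ] at h1
  refine ⟨hμ, hfd, hsep, hnμ, h1, ?_, h2, h3⟩
  have : (M : ℤ) ≤ Nat.card (Tame.polesOf (K := K) x) := by rw [← h2]; exact hcusp'
  have : M ≤ Nat.card (Tame.polesOf (K := K) x) := by exact_mod_cast this
  omega

end Relation

section Hauptmoduln

variable (K : Type*) [Field K] [IsAlgClosed K] {F : Type*} [Field F] [Algebra K F] {x μ : F}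
  (hx : Transcendental K x) [FiniteDimensional K⟮x⟯ F] [Algebra.IsSeparable K⟮x⟯ F]

include hx in
/-- **(Squeeze) over the `μ₄`-line** (`x = j`, `[F : K(j)] = 6 n`, `S = {0, -16}`). -/
theorem squeeze_mu4 (h2 : (2 : K) ≠ 0)
    (hrel : x * (μ ^ 4 * (μ + 16)) = (μ ^ 2 + 256 * μ + 4096) ^ 3) (M : ℕ)
    (hM : Nat.card (Tame.polesOf (K := K) x) ≤ M) {g : ℕ} (hF : IsCurveOfGenus K F g)
    (n : ℕ) (hn : finrank K⟮x⟯ F = 6 * n) (hg : 2 * (g : ℤ) - 2 ≤ (n : ℤ) - M) :
    Transcendental K μ ∧ FiniteDimensional K⟮μ⟯ F ∧ Algebra.IsSeparable K⟮μ⟯ F ∧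
    finrank K⟮μ⟯ F = n ∧ 2 * (g : ℤ) - 2 = (n : ℤ) - M ∧
    Nat.card (Tame.polesOf (K := K) x) = M ∧
    ∀ a : K, a ∉ S4 K → ∀ v : Place K F, 0 < v.ord (μ - algebraMap K F a) →
      v.ord (μ - algebraMap K F a) = 1 := by
  have hrel' : x * Polynomial.aeval μ (D4 K) = Polynomial.aeval μ (Nn4 K) := by
    rw [aeval_D4, aeval_Nn4]; exact hrel
  have hcard : ((S4 K).card : ℤ) - 1 = 1 := by rw [card_S4 K h2]; norm_num
  obtain ⟨h1, h2', h3, h4, h5, h6, -, h8⟩ := squeeze_of_relation K hx (D4_ne_zero K)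
    (isCoprime_Nn4_D4 K h2) (by rw [natDegree_D4, natDegree_Nn4]; norm_num) hrel' (S4 K)
    (fun a ha => eval_D4_of_mem K ha) M hM hF n (by rw [natDegree_Nn4]; exact hn)
    (by rw [hcard, mul_one]; exact hg)
  rw [hcard, mul_one] at h5
  exact ⟨h1, h2', h3, h4, h5, h6, h8⟩

include hx in
/-- **(Squeeze) over the `μ₉`-line** (`x = j`, `[F : K(j)] = 12 n`,
`S = {0} ∪ roots (X² + 9X + 27)`). -/
theorem squeeze_mu9 (h3 : (3 : K) ≠ 0)
    (hrel : x * (μ ^ 9 * (μ ^ 2 + 9 * μ + 27)) =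
      (μ + 9) ^ 3 * (μ ^ 3 + 243 * μ ^ 2 + 2187 * μ + 6561) ^ 3) (M : ℕ)
    (hM : Nat.card (Tame.polesOf (K := K) x) ≤ M) {g : ℕ} (hF : IsCurveOfGenus K F g)
    (n : ℕ) (hn : finrank K⟮x⟯ F = 12 * n) (hg : 2 * (g : ℤ) - 2 ≤ 2 * (n : ℤ) - M) :
    Transcendental K μ ∧ FiniteDimensional K⟮μ⟯ F ∧ Algebra.IsSeparable K⟮μ⟯ F ∧
    finrank K⟮μ⟯ F = n ∧ 2 * (g : ℤ) - 2 = 2 * (n : ℤ) - M ∧
    Nat.card (Tame.polesOf (K := K) x) = M ∧
    ∀ a : K, a ∉ S9 K → ∀ v : Place K F, 0 < v.ord (μ - algebraMap K F a) →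
      v.ord (μ - algebraMap K F a) = 1 := by
  have hrel' : x * Polynomial.aeval μ (D9 K) = Polynomial.aeval μ (Nn9 K) := by
    rw [aeval_D9, aeval_Nn9]; exact hrel
  have hcard : ((S9 K).card : ℤ) - 1 = 2 := by rw [card_S9 K h3]; norm_num
  obtain ⟨h1, h2', h3', h4, h5, h6, -, h8⟩ := squeeze_of_relation K hx (D9_ne_zero K)
    (isCoprime_Nn9_D9 K h3) (by rw [natDegree_D9, natDegree_Nn9]; norm_num) hrel' (S9 K)
    (fun a ha => eval_D9_of_mem K ha) M hM hF n (by rw [natDegree_Nn9]; exact hn)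
    (by rw [hcard]; linarith)
  rw [hcard] at h5
  exact ⟨h1, h2', h3', h4, by linarith, h6, h8⟩

/-- `1` is not a cusp of the `μ₄`-line when `17 ≠ 0` (e.g. in characteristic `3`). -/
theorem one_notMem_S4 (h17 : (17 : K) ≠ 0) : (1 : K) ∉ S4 K := by
  classical
  unfold S4
  rw [Finset.mem_insert, Finset.mem_singleton]
  rintro (h | h)
  · exact one_ne_zero h
  · apply h17
    have : (17 : K) = 1 - (-16) := by norm_num
    rw [this, ← h, sub_self]

/-- `1` is not a cusp of the `μ₉`-line when `37 ≠ 0` (e.g. in characteristic `2`). -/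
theorem one_notMem_S9 (h37 : (37 : K) ≠ 0) : (1 : K) ∉ S9 K := by
  classical
  unfold S9
  rw [Finset.mem_insert, Multiset.mem_toFinset]
  rintro (h | h)
  · exact one_ne_zero h
  · have := (Polynomial.mem_roots'.mp h).2
    rw [Polynomial.IsRoot.def] at this
    apply h37
    have h' : (37 : K) = Polynomial.eval 1 (X ^ 2 + 9 * X + 27 : K[X]) := by
      simp; norm_num
    rw [h', this]

theorem one_notMem_S4_of_charP [CharP K 3] : (1 : K) ∉ S4 K := by
  apply one_notMem_S4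
  have h : ((17 : ℕ) : K) ≠ 0 := by
    rw [Ne, CharP.cast_eq_zero_iff K 3]; norm_num
  exact_mod_cast h

theorem one_notMem_S9_of_charP [CharP K 2] : (1 : K) ∉ S9 K := by
  apply one_notMem_S9
  have h : ((37 : ℕ) : K) ≠ 0 := by
    rw [Ne, CharP.cast_eq_zero_iff K 2]; norm_num
  exact_mod_cast h

end Hauptmoduln

end Fermat.Agent.S18lib.RRgen.SqueezeFree
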