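/-
S18lib / RRgen / Endgame (helper6).
ABSTRACT ENDGAME of Riemann–Roch: from a family of "differential" spaces `Om E` with
`l(E) - dim Om(E) = deg E + 1 - g` and `L(E') * Om(E) ⊆ Om(E - E')` one gets Riemann's inequality and
Riemann's theorem (`Om E = 0` for `deg E > 2g - 2`), i.e. `IsCurveOfGenus K F g`.
-/
import Mathlib
import Fermat.Agent.S18lib.Setup.CurveRR

set_option autoImplicit false

noncomputable section

namespace Fermat.Agent.S18lib.RRgen

open AlgebraicCurve Module

variable {K F : Type*} [Field K] [Field F] [Algebra K F]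

/-- Riemann–Roch data: spaces `Om E` (differentials `≥ E`), finite dimensional, with the
Riemann–Roch equation and the multiplication property. -/
structure RRData (K F : Type*) [Field K] [Field F] [Algebra K F] (g : ℕ) where
  Om : Divisor K F → Submodule K F
  finite_Om : ∀ E, FiniteDimensional K (Om E)
  rr : ∀ E : Divisor K F, (finrank K (riemannRochSpace E) : ℤ) - (finrank K (Om E) : ℤ) =
    Divisor.degree E + 1 - (g : ℤ)
  mul_mem : ∀ (E E' : Divisor K F) (f h : F), f ∈ riemannRochSpace E' → h ∈ Om E →
    f * h ∈ Om (E - E')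
  finrank_Om_zero : finrank K (Om 0) = g

namespace RRData

variable {g : ℕ} (R : RRData K F g)
include R

theorem riemann_le (E : Divisor K F) :
    Divisor.degree E + 1 - (g : ℤ) ≤ (finrank K (riemannRochSpace E) : ℤ) := by
  have := R.rr E
  have h0 : (0 : ℤ) ≤ (finrank K (R.Om E) : ℤ) := Int.natCast_nonneg _
  omega

/-- multiplication by a nonzero element of `Om E` embeds `L(E)` into `Om 0` -/
theorem finrank_le_of_ne_zero (hfd : ∀ E : Divisor K F, FiniteDimensional K (riemannRochSpace E))
    (E : Divisor K F) {h : F} (hh : h ∈ R.Om E) (h0 : h ≠ 0) :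
    finrank K (riemannRochSpace E) ≤ g := by
  have := R.finite_Om 0
  have := hfd E
  have hmem : ∀ f : riemannRochSpace E, (f : F) * h ∈ R.Om 0 := by
    intro f
    have := R.mul_mem E E f h f.2 hh
    rwa [sub_self] at this
  let φ : riemannRochSpace E →ₗ[K] R.Om 0 :=
    { toFun := fun f => ⟨(f : F) * h, hmem f⟩
      map_add' := fun f f' => by
        apply Subtype.ext
        simp [add_mul]
      map_smul' := fun c f => by
        apply Subtype.ext
        simp }
  have hφ : Function.Injective φ := by
    intro f f' hff'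
    have h1 : (f : F) * h = (f' : F) * h := congrArg Subtype.val hff'
    exact Subtype.ext (mul_right_cancel₀ h0 h1)
  have := LinearMap.finrank_le_finrank_of_injective hφ
  rwa [R.finrank_Om_zero] at this

theorem riemann_eq (hfd : ∀ E : Divisor K F, FiniteDimensional K (riemannRochSpace E))
    (E : Divisor K F) (hE : 2 * (g : ℤ) - 2 < Divisor.degree E) :
    (finrank K (riemannRochSpace E) : ℤ) = Divisor.degree E + 1 - (g : ℤ) := by
  have := R.finite_Om E
  have hrr := R.rr E
  suffices h : finrank K (R.Om E) = 0 by
    rw [h] at hrr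
    simpa using hrr
  by_contra hne
  have hpos : 0 < finrank K (R.Om E) := Nat.pos_of_ne_zero hne
  obtain ⟨h, hh0⟩ : ∃ h : R.Om E, h ≠ 0 := by
    have : Nontrivial (R.Om E) := Module.finrank_pos_iff.mp hpos
    exact exists_ne 0
  have h1 := R.finrank_le_of_ne_zero hfd E h.2 (fun h0 => hh0 (Subtype.ext h0))
  have h2 : (finrank K (riemannRochSpace E) : ℤ) ≤ g := by exact_mod_cast h1
  have h3 : (1 : ℤ) ≤ finrank K (R.Om E) := by exact_mod_cast hpos
  omega

/-- **Abstract endgame.** -/
theorem isCurveOfGenus (hP : HasPrincipalDivisors K F) (hdeg : ∀ P : Place K F, P.deg = 1)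
    (hinf : Infinite (Place K F))
    (h0 : riemannRochSpace (0 : Divisor K F) = (⊥ : Subalgebra K F).toSubmodule)
    (hfd : ∀ E : Divisor K F, FiniteDimensional K (riemannRochSpace E)) :
    IsCurveOfGenus K F g where
  hasPrincipalDivisors := hP
  deg_eq_one := hdeg
  infinite_places := hinf
  riemannRochSpace_zero := h0
  finiteDimensional := hfd
  riemann_le := R.riemann_le
  riemann_eq := R.riemann_eq hfd

end RRData

end Fermat.Agent.S18lib.RRgen
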